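/-
GATE-N / S48-(N8)-(D3) (helper1), file 1: logarithmic (Dirichlet) density of sets of rational
primes in FINITE-SUM, LIMIT form.

`LowerLogDensityGE S d`  : for every `ε > 0`, for `s` close to `1⁺` there is a finite set `T` of
                           primes in `S` with `(d - ε) log (1/(s-1)) ≤ ∑_{p ∈ T} p^{-s}`.
`UpperLogDensityLE S d`  : for every `ε > 0`, for `s` close to `1⁺`, every finite set `T` of primes
                           in `S` has `∑_{p ∈ T} p^{-s} ≤ (d + ε) log (1/(s-1))`.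

Mathlib only.
-/
import Mathlib

set_option autoImplicit false

namespace Fermat.Agent.DS.N8

open Finset

/-- Lower logarithmic density `≥ d` (finite-sum, limit form). -/
def LowerLogDensityGE (S : Set ℕ) (d : ℝ) : Prop :=
  ∀ ε : ℝ, 0 < ε → ∃ δ : ℝ, 0 < δ ∧ ∀ s : ℝ, 1 < s → s < 1 + δ →
    ∃ T : Finset ℕ, (∀ p ∈ T, p.Prime ∧ p ∈ S) ∧
      (d - ε) * Real.log (1 / (s - 1)) ≤ ∑ p ∈ T, (p : ℝ) ^ (-s)

/-- Upper logarithmic density `≤ d` (finite-sum, limit form). -/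
def UpperLogDensityLE (S : Set ℕ) (d : ℝ) : Prop :=
  ∀ ε : ℝ, 0 < ε → ∃ δ : ℝ, 0 < δ ∧ ∀ s : ℝ, 1 < s → s < 1 + δ →
    ∀ T : Finset ℕ, (∀ p ∈ T, p.Prime ∧ p ∈ S) →
      ∑ p ∈ T, (p : ℝ) ^ (-s) ≤ (d + ε) * Real.log (1 / (s - 1))

/-! ### The function `log (1/(s-1))` near `1⁺` -/

theorem log_inv_nonneg {s : ℝ} (hs1 : 1 < s) (hs2 : s ≤ 2) : 0 ≤ Real.log (1 / (s - 1)) := by
  apply Real.log_nonneg
  rw [le_div_iff₀ (by linarith)]
  linarith

/-- `log (1/(s-1))` is eventually `≥ K`, with an explicit window `(1, 1+δ)`, `δ ≤ 1`. -/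
theorem exists_delta_log_ge (K : ℝ) :
    ∃ δ : ℝ, 0 < δ ∧ δ ≤ 1 ∧ ∀ s : ℝ, 1 < s → s < 1 + δ → K ≤ Real.log (1 / (s - 1)) := by
  refine ⟨min 1 (Real.exp (-K)), lt_min one_pos (Real.exp_pos _), min_le_left _ _,
    fun s hs1 hs2 => ?_⟩
  have h0 : 0 < s - 1 := by linarith
  have h1 : s - 1 < Real.exp (-K) := by
    have := min_le_right (1 : ℝ) (Real.exp (-K))
    linarith
  rw [one_div, Real.log_inv]
  have h2 : Real.log (s - 1) < -K := by
    have := Real.log_lt_log h0 h1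
    rwa [Real.log_exp] at this
  linarith

theorem log_inv_pos {s : ℝ} (hs1 : 1 < s) (hs2 : s < 2) : 0 < Real.log (1 / (s - 1)) := by
  apply Real.log_pos
  rw [lt_div_iff₀ (by linarith)]
  linarith

theorem rpow_neg_le_one {p : ℕ} (hp : p.Prime) {s : ℝ} (hs : 0 ≤ s) : (p : ℝ) ^ (-s) ≤ 1 := by
  apply Real.rpow_le_one_of_one_le_of_nonpos
  · exact_mod_cast hp.one_lt.le
  · linarith

theorem rpow_neg_nonneg (p : ℕ) (s : ℝ) : 0 ≤ (p : ℝ) ^ (-s) :=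
  Real.rpow_nonneg (Nat.cast_nonneg p) _

theorem one_div_rpow_eq (p : ℕ) (s : ℝ) : 1 / (p : ℝ) ^ s = (p : ℝ) ^ (-s) := by
  rw [Real.rpow_neg (Nat.cast_nonneg p), one_div]

/-! ### Monotonicity -/

theorem LowerLogDensityGE.mono_set {S S' : Set ℕ} {d : ℝ} (h : LowerLogDensityGE S d)
    (hS : S ⊆ S') : LowerLogDensityGE S' d := by
  intro ε hε
  obtain ⟨δ, hδ, H⟩ := h ε hε
  refine ⟨δ, hδ, fun s hs1 hs2 => ?_⟩
  obtain ⟨T, hT, hsum⟩ := H s hs1 hs2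
  exact ⟨T, fun p hp => ⟨(hT p hp).1, hS (hT p hp).2⟩, hsum⟩

theorem LowerLogDensityGE.mono_right {S : Set ℕ} {d d' : ℝ} (h : LowerLogDensityGE S d)
    (hd : d' ≤ d) : LowerLogDensityGE S d' := by
  intro ε hε
  obtain ⟨δ, hδ, H⟩ := h ε hε
  refine ⟨min δ 1, lt_min hδ one_pos, fun s hs1 hs2 => ?_⟩
  have hs2' : s < 1 + δ := by have := min_le_left δ 1; linarith
  have hs3 : s ≤ 2 := by have := min_le_right δ 1; linarith
  obtain ⟨T, hT, hsum⟩ := H s hs1 hs2'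
  refine ⟨T, hT, le_trans ?_ hsum⟩
  exact mul_le_mul_of_nonneg_right (by linarith) (log_inv_nonneg hs1 hs3)

theorem UpperLogDensityLE.mono_set {S S' : Set ℕ} {d : ℝ} (h : UpperLogDensityLE S' d)
    (hS : S ⊆ S') : UpperLogDensityLE S d := by
  intro ε hε
  obtain ⟨δ, hδ, H⟩ := h ε hε
  exact ⟨δ, hδ, fun s hs1 hs2 T hT =>
    H s hs1 hs2 T fun p hp => ⟨(hT p hp).1, hS (hT p hp).2⟩⟩

theorem UpperLogDensityLE.mono_right {S : Set ℕ} {d d' : ℝ} (h : UpperLogDensityLE S d)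
    (hd : d ≤ d') : UpperLogDensityLE S d' := by
  intro ε hε
  obtain ⟨δ, hδ, H⟩ := h ε hε
  refine ⟨min δ 1, lt_min hδ one_pos, fun s hs1 hs2 T hT => ?_⟩
  have hs2' : s < 1 + δ := by have := min_le_left δ 1; linarith
  have hs3 : s ≤ 2 := by have := min_le_right δ 1; linarith
  refine le_trans (H s hs1 hs2' T hT) ?_
  exact mul_le_mul_of_nonneg_right (by linarith) (log_inv_nonneg hs1 hs3)


/-- It suffices to prove the lower density bound with an arbitrarily small loss. -/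
theorem LowerLogDensityGE.of_forall_sub {S : Set ℕ} {d : ℝ}
    (h : ∀ ε' : ℝ, 0 < ε' → LowerLogDensityGE S (d - ε')) : LowerLogDensityGE S d := by
  intro ε hε
  obtain ⟨δ, hδ, H⟩ := h (ε / 2) (by linarith) (ε / 2) (by linarith)
  refine ⟨δ, hδ, fun s hs1 hs2 => ?_⟩
  obtain ⟨T, hT, hsum⟩ := H s hs1 hs2
  refine ⟨T, hT, le_trans (le_of_eq ?_) hsum⟩
  ring

/-! ### From `O(1)` forms -/

/-- `O(1)` form implies the limit form (lower). -/
theorem LowerLogDensityGE.of_O1 {S : Set ℕ} {d : ℝ}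
    (h : ∃ C δ₀ : ℝ, 0 < δ₀ ∧ ∀ s : ℝ, 1 < s → s < 1 + δ₀ →
      ∃ T : Finset ℕ, (∀ p ∈ T, p.Prime ∧ p ∈ S) ∧
        d * Real.log (1 / (s - 1)) - C ≤ ∑ p ∈ T, (p : ℝ) ^ (-s)) :
    LowerLogDensityGE S d := by
  obtain ⟨C, δ₀, hδ₀, H⟩ := h
  intro ε hε
  obtain ⟨δ₁, hδ₁, -, H₁⟩ := exists_delta_log_ge (C / ε)
  refine ⟨min δ₀ δ₁, lt_min hδ₀ hδ₁, fun s hs1 hs2 => ?_⟩
  have hs2' : s < 1 + δ₀ := by have := min_le_left δ₀ δ₁; linarith
  have hs2'' : s < 1 + δ₁ := by have := min_le_right δ₀ δ₁; linarith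
  obtain ⟨T, hT, hsum⟩ := H s hs1 hs2'
  refine ⟨T, hT, le_trans ?_ hsum⟩
  have h1 := H₁ s hs1 hs2''
  rw [div_le_iff₀ hε] at h1
  nlinarith

/-- `O(1)` form implies the limit form (upper). -/
theorem UpperLogDensityLE.of_O1 {S : Set ℕ} {d : ℝ}
    (h : ∃ C δ₀ : ℝ, 0 < δ₀ ∧ ∀ s : ℝ, 1 < s → s < 1 + δ₀ →
      ∀ T : Finset ℕ, (∀ p ∈ T, p.Prime ∧ p ∈ S) →
        ∑ p ∈ T, (p : ℝ) ^ (-s) ≤ d * Real.log (1 / (s - 1)) + C) :
    UpperLogDensityLE S d := by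
  obtain ⟨C, δ₀, hδ₀, H⟩ := h
  intro ε hε
  obtain ⟨δ₁, hδ₁, -, H₁⟩ := exists_delta_log_ge (C / ε)
  refine ⟨min δ₀ δ₁, lt_min hδ₀ hδ₁, fun s hs1 hs2 T hT => ?_⟩
  have hs2' : s < 1 + δ₀ := by have := min_le_left δ₀ δ₁; linarith
  have hs2'' : s < 1 + δ₁ := by have := min_le_right δ₀ δ₁; linarith
  refine le_trans (H s hs1 hs2' T hT) ?_
  have h1 := H₁ s hs1 hs2''
  rw [div_le_iff₀ hε] at h1
  nlinarith

/-- `log (C (1/(s-1) + 1)) ≤ log (1/(s-1)) + log (2C)` on `(1, 2)`. -/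
theorem log_mul_inv_add_one_le {C s : ℝ} (hC : 0 < C) (hs1 : 1 < s) (hs2 : s < 2) :
    Real.log (C * (1 / (s - 1) + 1)) ≤ Real.log (1 / (s - 1)) + Real.log (2 * C) := by
  have h0 : 0 < s - 1 := by linarith
  have h1 : 0 < 1 / (s - 1) := by positivity
  have h2 : 1 ≤ 1 / (s - 1) := by
    rw [le_div_iff₀ h0]; linarith
  rw [← Real.log_mul h1.ne' (by positivity)]
  apply Real.log_le_log (by positivity)
  nlinarith

/-- The shape produced by helper10's (N1): `c ∑_{p ∈ T} 1/p^s ≤ log (C (1/(s-1)+1))`. -/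
theorem UpperLogDensityLE.of_log_form {S : Set ℕ} {c C : ℝ} (hc : 0 < c) (hC : 0 < C)
    (h : ∀ s : ℝ, 1 < s → ∀ T : Finset ℕ, (∀ p ∈ T, p.Prime ∧ p ∈ S) →
      c * ∑ p ∈ T, 1 / (p : ℝ) ^ s ≤ Real.log (C * (1 / (s - 1) + 1))) :
    UpperLogDensityLE S (1 / c) := by
  apply UpperLogDensityLE.of_O1
  refine ⟨Real.log (2 * C) / c, 1, one_pos, fun s hs1 hs2 T hT => ?_⟩
  have h1 := h s hs1 T hT
  have h2 := log_mul_inv_add_one_le hC hs1 (by linarith : s < 2)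
  have h3 : ∑ p ∈ T, 1 / (p : ℝ) ^ s = ∑ p ∈ T, (p : ℝ) ^ (-s) :=
    Finset.sum_congr rfl fun p _ => one_div_rpow_eq p s
  rw [h3] at h1
  have h4 : ∑ p ∈ T, (p : ℝ) ^ (-s) ≤
      (Real.log (1 / (s - 1)) + Real.log (2 * C)) / c := by
    rw [le_div_iff₀ hc]
    linarith
  calc ∑ p ∈ T, (p : ℝ) ^ (-s) ≤ (Real.log (1 / (s - 1)) + Real.log (2 * C)) / c := h4
    _ = 1 / c * Real.log (1 / (s - 1)) + Real.log (2 * C) / c := by ring

/-! ### Empty set, finite sets, disjoint unions -/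

theorem lowerLogDensityGE_empty : LowerLogDensityGE ∅ 0 := by
  intro ε hε
  refine ⟨1, one_pos, fun s hs1 hs2 => ⟨∅, by simp, ?_⟩⟩
  have := log_inv_nonneg hs1 (by linarith : s ≤ 2)
  simp only [zero_sub, Finset.sum_empty]
  nlinarith

theorem LowerLogDensityGE.union_disjoint {S₁ S₂ : Set ℕ} {d₁ d₂ : ℝ}
    (h₁ : LowerLogDensityGE S₁ d₁) (h₂ : LowerLogDensityGE S₂ d₂) (hdisj : Disjoint S₁ S₂) :
    LowerLogDensityGE (S₁ ∪ S₂) (d₁ + d₂) := by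
  classical
  intro ε hε
  obtain ⟨δ₁, hδ₁, H₁⟩ := h₁ (ε / 2) (by linarith)
  obtain ⟨δ₂, hδ₂, H₂⟩ := h₂ (ε / 2) (by linarith)
  refine ⟨min δ₁ δ₂, lt_min hδ₁ hδ₂, fun s hs1 hs2 => ?_⟩
  have hs2' : s < 1 + δ₁ := by have := min_le_left δ₁ δ₂; linarith
  have hs2'' : s < 1 + δ₂ := by have := min_le_right δ₁ δ₂; linarith
  obtain ⟨T₁, hT₁, hsum₁⟩ := H₁ s hs1 hs2'
  obtain ⟨T₂, hT₂, hsum₂⟩ := H₂ s hs1 hs2''
  have hd : Disjoint T₁ T₂ := by
    rw [Finset.disjoint_left]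
    intro p hp1 hp2
    exact (Set.disjoint_left.mp hdisj) (hT₁ p hp1).2 (hT₂ p hp2).2
  refine ⟨T₁ ∪ T₂, fun p hp => ?_, ?_⟩
  · rcases Finset.mem_union.mp hp with hp | hp
    · exact ⟨(hT₁ p hp).1, Or.inl (hT₁ p hp).2⟩
    · exact ⟨(hT₂ p hp).1, Or.inr (hT₂ p hp).2⟩
  · rw [Finset.sum_union hd]
    have : (d₁ + d₂ - ε) * Real.log (1 / (s - 1)) =
        (d₁ - ε / 2) * Real.log (1 / (s - 1)) + (d₂ - ε / 2) * Real.log (1 / (s - 1)) := by ring
    rw [this]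
    exact add_le_add hsum₁ hsum₂

/-- Finite disjoint unions. -/
theorem LowerLogDensityGE.biUnion_disjoint {ι : Type*} (I : Finset ι) (S : ι → Set ℕ)
    (d : ι → ℝ) (h : ∀ i ∈ I, LowerLogDensityGE (S i) (d i))
    (hdisj : ∀ i ∈ I, ∀ j ∈ I, i ≠ j → Disjoint (S i) (S j)) :
    LowerLogDensityGE (⋃ i ∈ I, S i) (∑ i ∈ I, d i) := by
  classical
  induction I using Finset.induction_on with
  | empty => simpa using lowerLogDensityGE_empty
  | insert a I ha ih =>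
    have h1 : LowerLogDensityGE (⋃ i ∈ I, S i) (∑ i ∈ I, d i) :=
      ih (fun i hi => h i (Finset.mem_insert_of_mem hi))
        (fun i hi j hj hij => hdisj i (Finset.mem_insert_of_mem hi) j
          (Finset.mem_insert_of_mem hj) hij)
    have h2 := h a (Finset.mem_insert_self a I)
    have hd : Disjoint (S a) (⋃ i ∈ I, S i) := by
      rw [Set.disjoint_iUnion₂_right]
      intro i hi
      exact hdisj a (Finset.mem_insert_self a I) i (Finset.mem_insert_of_mem hi)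
        (fun hai => ha (hai ▸ hi))
    have h3 := h2.union_disjoint h1 hd
    rw [Finset.sum_insert ha]
    have : (⋃ i ∈ insert a I, S i) = S a ∪ ⋃ i ∈ I, S i := by
      ext x
      simp only [Set.mem_iUnion, Finset.mem_insert, Set.mem_union, exists_prop]
      constructor
      · rintro ⟨i, rfl | hi, hx⟩
        · exact Or.inl hx
        · exact Or.inr ⟨i, hi, hx⟩
      · rintro (hx | ⟨i, hi, hx⟩)
        · exact ⟨a, Or.inl rfl, hx⟩
        · exact ⟨i, Or.inr hi, hx⟩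
    rw [this]
    exact h3

/-- Removing a finite set of primes does not change the lower density. -/
theorem LowerLogDensityGE.diff_finset {S : Set ℕ} {d : ℝ} (h : LowerLogDensityGE S d)
    (B : Finset ℕ) : LowerLogDensityGE (S \ ↑B) d := by
  classical
  intro ε hε
  obtain ⟨δ₁, hδ₁, H₁⟩ := h (ε / 2) (by linarith)
  obtain ⟨δ₂, hδ₂, hδ₂', H₂⟩ := exists_delta_log_ge ((B.card : ℝ) / (ε / 2))
  refine ⟨min δ₁ δ₂, lt_min hδ₁ hδ₂, fun s hs1 hs2 => ?_⟩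
  have hs2' : s < 1 + δ₁ := by have := min_le_left δ₁ δ₂; linarith
  have hs2'' : s < 1 + δ₂ := by have := min_le_right δ₁ δ₂; linarith
  obtain ⟨T, hT, hsum⟩ := H₁ s hs1 hs2'
  refine ⟨T \ B, fun p hp => ?_, ?_⟩
  · obtain ⟨hp1, hp2⟩ := Finset.mem_sdiff.mp hp
    exact ⟨(hT p hp1).1, (hT p hp1).2, by simpa using hp2⟩
  · have h1 : ∑ p ∈ T, (p : ℝ) ^ (-s) =
        ∑ p ∈ T \ B, (p : ℝ) ^ (-s) + ∑ p ∈ T ∩ B, (p : ℝ) ^ (-s) := by
      rw [← Finset.sum_union (Finset.disjoint_sdiff_inter T B), Finset.sdiff_union_inter]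
    have h2 : ∑ p ∈ T ∩ B, (p : ℝ) ^ (-s) ≤ (B.card : ℝ) := by
      calc ∑ p ∈ T ∩ B, (p : ℝ) ^ (-s) ≤ ∑ _p ∈ T ∩ B, (1 : ℝ) :=
            Finset.sum_le_sum fun p hp =>
              rpow_neg_le_one (hT p (Finset.mem_inter.mp hp).1).1 (by linarith)
        _ = ((T ∩ B).card : ℝ) := by simp
        _ ≤ (B.card : ℝ) := by
            exact_mod_cast Finset.card_le_card Finset.inter_subset_right
    have h3 := H₂ s hs1 hs2''
    rw [div_le_iff₀ (by linarith : (0:ℝ) < ε / 2)] at h3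
    nlinarith

/-- **Comparison**: a set of lower density `≥ d` contained (up to finitely many primes) in a set
of upper density `≤ η` forces `d ≤ η`. -/
theorem le_of_lower_of_upper {S S' : Set ℕ} {d η : ℝ} (B : Finset ℕ)
    (hsub : S ⊆ S' ∪ ↑B) (hl : LowerLogDensityGE S d) (hu : UpperLogDensityLE S' η) :
    d ≤ η := by
  by_contra hlt
  rw [not_le] at hlt
  set ε := (d - η) / 3 with hε
  have hε0 : 0 < ε := by rw [hε]; linarith
  have hl' : LowerLogDensityGE S' d := (hl.diff_finset B).mono_set (by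
    intro p hp
    rcases hsub hp.1 with h | h
    · exact h
    · exact absurd h hp.2)
  obtain ⟨δ₁, hδ₁, H₁⟩ := hl' ε hε0
  obtain ⟨δ₂, hδ₂, H₂⟩ := hu ε hε0
  set δ := min (min δ₁ δ₂) 1 with hδ
  have hδ0 : 0 < δ := lt_min (lt_min hδ₁ hδ₂) one_pos
  set s := 1 + δ / 2 with hs
  have hs1 : 1 < s := by rw [hs]; linarith
  have hδle1 : δ ≤ δ₁ := le_trans (min_le_left _ _) (min_le_left _ _)
  have hδle2 : δ ≤ δ₂ := le_trans (min_le_left _ _) (min_le_right _ _)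
  have hδle3 : δ ≤ 1 := min_le_right _ _
  obtain ⟨T, hT, hsum⟩ := H₁ s hs1 (by rw [hs]; linarith)
  have hup := H₂ s hs1 (by rw [hs]; linarith) T hT
  have hpos : 0 < Real.log (1 / (s - 1)) := log_inv_pos hs1 (by rw [hs]; linarith)
  have : (d - ε) * Real.log (1 / (s - 1)) ≤ (η + ε) * Real.log (1 / (s - 1)) :=
    le_trans hsum hup
  have h3 : d - ε ≤ η + ε := le_of_mul_le_mul_right this hpos
  rw [hε] at h3
  linarith

end Fermat.Agent.DS.N8
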