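/-
GATE-N / S48-(N8)-(D3) (helper1), file 2: **Chebotarev's density theorem over `ℚ`, lower bound,
number field form**, from the two inputs of helper55's blueprint
  D1 (helper3)  : cyclotomic moduli `m` linearly disjoint from `L` with most `τ ∈ Γ_m` of order
                  divisible by `n`  (`Γ_m = (ℤ/m)ˣ/{±1}`, N8 RULING 1);
  D2c           : the crossing step, density of `{[p] = τ in Γ_m, Frob_p ∈ class σ}` when
                  `orderOf σ ∣ orderOf τ`.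
They enter through ONE abstract, cyclotomic-free hypothesis `CrossInput L σ` (a finite group `Γ`
and a class map `cls : ℕ → Γ`).
-/
import Mathlib
import Fermat.Agent.DS.N8.LogDensity
import Fermat.Agent.S14.Artin

set_option autoImplicit false

open NumberField
open scoped Pointwise

namespace Fermat.Agent.DS.N8

variable (L : Type*) [Field L] [NumberField L] [IsGalois ℚ L]

/-- `g` is the Frobenius element at some unramified prime of `L` above the rational prime `p`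
(the shape of `GJ/Frob/Main`). -/
def FrobAt (p : ℕ) (g : L ≃ₐ[ℚ] L) : Prop :=
  ∃ P : Ideal (𝓞 L), P.IsPrime ∧ P ≠ ⊥ ∧ Ideal.absNorm (P.under (𝓞 ℚ)) = p ∧
    P.inertia (L ≃ₐ[ℚ] L) = ⊥ ∧ IsArithFrobAt (𝓞 ℚ) g P

/-- A prime ideal of `𝓞 ℚ` of prime norm `p` is `(p)`. -/
theorem eq_span_of_absNorm_eq {𝔭 : Ideal (𝓞 ℚ)} [h𝔭 : 𝔭.IsPrime] {p : ℕ} (hp : p.Prime)
    (h : Ideal.absNorm 𝔭 = p) : 𝔭 = Ideal.span {(p : 𝓞 ℚ)} := by
  have hmem : (p : 𝓞 ℚ) ∈ 𝔭 := by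
    have := Ideal.absNorm_mem 𝔭
    rwa [h] at this
  have hprime : Prime (p : 𝓞 ℚ) := by
    rw [← MulEquiv.prime_iff Rat.ringOfIntegersEquiv]
    rw [map_natCast]
    exact Nat.prime_iff_prime_int.mp hp
  have hne : (p : 𝓞 ℚ) ≠ 0 := hprime.ne_zero
  have hsp : (Ideal.span {(p : 𝓞 ℚ)}).IsPrime := (Ideal.span_singleton_prime hne).mpr hprime
  have hmax : (Ideal.span {(p : 𝓞 ℚ)}).IsMaximal :=
    hsp.isMaximal (by rwa [Ne, Ideal.span_singleton_eq_bot])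
  exact (hmax.eq_of_le h𝔭.ne_top (by rwa [Ideal.span_singleton_le_iff_mem])).symm

variable {L}

/-- Frobenius elements at unramified primes above the same rational prime are conjugate. -/
theorem FrobAt.isConj {p : ℕ} (hp : p.Prime) {g g' : L ≃ₐ[ℚ] L} (h : FrobAt L p g)
    (h' : FrobAt L p g') : IsConj g g' := by
  obtain ⟨P, hP, hP0, hPp, -, hF⟩ := h
  obtain ⟨P', hP', hP0', hPp', hI', hF'⟩ := h'
  have : (P.under (𝓞 ℚ)).IsPrime := Ideal.IsPrime.under (𝓞 ℚ) P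
  have : (P'.under (𝓞 ℚ)).IsPrime := Ideal.IsPrime.under (𝓞 ℚ) P'
  have hu : P.under (𝓞 ℚ) = P'.under (𝓞 ℚ) := by
    rw [eq_span_of_absNorm_eq hp hPp, eq_span_of_absNorm_eq hp hPp']
  obtain ⟨γ, hγ⟩ :=
    Algebra.IsInvariant.exists_smul_of_under_eq (𝓞 ℚ) (𝓞 L) (L ≃ₐ[ℚ] L) P P' hu
  have h1 := hF.conj γ
  rw [← hγ] at h1
  have h2 : γ * g * γ⁻¹ = g' := Fermat.Agent.S14.isArithFrobAt_unique hI' h1 hF'
  exact isConj_iff.mpr ⟨γ, h2⟩

variable (L) in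
/-- **Abstract crossing input** for the conjugacy class of `σ` (= D1 + D2c of helper55's N8
blueprint, merged, cyclotomic-free): for every `ε > 0` there are a finite group `Γ` and a class map
`cls : ℕ → Γ` on rational primes (in the application `Γ = (ℤ/m)ˣ/{±1}`, `cls p = [p mod m]`) such
that at least `(1 - ε) |Γ|` of the `τ ∈ Γ` have order divisible by `orderOf σ`, and for each such
`τ` the primes `p` with `cls p = τ` and Frobenius class `[σ]` have lower density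
`≥ |class σ| / (|G| |Γ|)` (`O(1)` form). -/
def CrossInput (σ : L ≃ₐ[ℚ] L) : Prop :=
  ∀ ε : ℝ, 0 < ε → ∃ (Γ : Type) (_ : Group Γ) (_ : Finite Γ) (cls : ℕ → Γ),
    (1 - ε) * (Nat.card Γ : ℝ) ≤ (Nat.card {τ : Γ // orderOf σ ∣ orderOf τ} : ℝ) ∧
    ∀ τ : Γ, orderOf σ ∣ orderOf τ →
      ∃ Cst δ : ℝ, 0 < δ ∧ ∀ s : ℝ, 1 < s → s < 1 + δ →
        ∃ T : Finset ℕ,
          (∀ p ∈ T, p.Prime ∧ cls p = τ ∧ ∃ g, IsConj σ g ∧ FrobAt L p g) ∧
          ((Nat.card (ConjClasses.mk σ).carrier : ℝ) /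
              ((Nat.card (L ≃ₐ[ℚ] L) : ℝ) * (Nat.card Γ : ℝ))) * Real.log (1 / (s - 1)) - Cst ≤
            ∑ p ∈ T, (p : ℝ) ^ (-s)

/-- Chebotarev, lower bound, for one conjugacy class. -/
theorem lower_class (σ : L ≃ₐ[ℚ] L) (h : CrossInput L σ) :
    LowerLogDensityGE {p : ℕ | p.Prime ∧ ∃ g, IsConj σ g ∧ FrobAt L p g}
      ((Nat.card (ConjClasses.mk σ).carrier : ℝ) / (Nat.card (L ≃ₐ[ℚ] L) : ℝ)) := by
  classical
  set d : ℝ := (Nat.card (ConjClasses.mk σ).carrier : ℝ) / (Nat.card (L ≃ₐ[ℚ] L) : ℝ) with hd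
  have hG : (0 : ℝ) < (Nat.card (L ≃ₐ[ℚ] L) : ℝ) := by exact_mod_cast Nat.card_pos
  have hd0 : 0 ≤ d := by rw [hd]; positivity
  have hd1 : d ≤ 1 := by
    rw [hd, div_le_one hG]
    exact_mod_cast Nat.card_le_card_of_injective (fun x : (ConjClasses.mk σ).carrier => (x : L ≃ₐ[ℚ] L))
      Subtype.val_injective
  apply LowerLogDensityGE.of_forall_sub
  intro ε' hε'
  obtain ⟨Γ, _, _, cls, hcount, h2⟩ := h ε' hε'
  have : Fintype Γ := Fintype.ofFinite Γ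
  have hφ : (0 : ℝ) < (Nat.card Γ : ℝ) := by exact_mod_cast Nat.card_pos
  set Tset : Finset Γ := Finset.univ.filter (fun τ => orderOf σ ∣ orderOf τ) with hTset
  have hcard : (Nat.card {τ : Γ // orderOf σ ∣ orderOf τ} : ℝ) = (Tset.card : ℝ) := by
    rw [Nat.card_eq_fintype_card, Fintype.card_subtype]
  set S : Γ → Set ℕ := fun τ =>
    {p : ℕ | p.Prime ∧ cls p = τ ∧ ∃ g, IsConj σ g ∧ FrobAt L p g} with hS
  have hlow : ∀ τ ∈ Tset, LowerLogDensityGE (S τ) (d / (Nat.card Γ : ℝ)) := by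
    intro τ hτ
    have hdiv : orderOf σ ∣ orderOf τ := (Finset.mem_filter.mp hτ).2
    obtain ⟨Cst, δ, hδ, H⟩ := h2 τ hdiv
    apply LowerLogDensityGE.of_O1
    refine ⟨Cst, δ, hδ, fun s hs1 hs2 => ?_⟩
    obtain ⟨T, hT, hsum⟩ := H s hs1 hs2
    refine ⟨T, fun p hp => ⟨(hT p hp).1, (hT p hp).1, (hT p hp).2.1, (hT p hp).2.2⟩, ?_⟩
    have : d / (Nat.card Γ : ℝ) = (Nat.card (ConjClasses.mk σ).carrier : ℝ) /
        ((Nat.card (L ≃ₐ[ℚ] L) : ℝ) * (Nat.card Γ : ℝ)) := by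
      rw [hd, div_div]
    rw [this]
    exact hsum
  have hdisj : ∀ τ ∈ Tset, ∀ τ' ∈ Tset, τ ≠ τ' → Disjoint (S τ) (S τ') := by
    intro τ _ τ' _ hne
    rw [Set.disjoint_left]
    rintro p ⟨-, hp1, -⟩ ⟨-, hp2, -⟩
    exact hne (hp1.symm.trans hp2)
  have hU := LowerLogDensityGE.biUnion_disjoint Tset S (fun _ => d / (Nat.card Γ : ℝ)) hlow hdisj
  rw [Finset.sum_const, nsmul_eq_mul] at hU
  have hU' : LowerLogDensityGE {p : ℕ | p.Prime ∧ ∃ g, IsConj σ g ∧ FrobAt L p g}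
      ((Tset.card : ℝ) * (d / (Nat.card Γ : ℝ))) := by
    refine hU.mono_set ?_
    intro p hp
    simp only [Set.mem_iUnion] at hp
    obtain ⟨τ, _, hp1, -, hp3⟩ := hp
    exact ⟨hp1, hp3⟩
  refine hU'.mono_right ?_
  rw [hcard] at hcount
  have h3 : (1 - ε') * d ≤ (Tset.card : ℝ) * (d / (Nat.card Γ : ℝ)) := by
    have h4 : (1 - ε') ≤ (Tset.card : ℝ) / (Nat.card Γ : ℝ) := by
      rw [le_div_iff₀ hφ]; exact hcount
    calc (1 - ε') * d ≤ (Tset.card : ℝ) / (Nat.card Γ : ℝ) * d :=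
          mul_le_mul_of_nonneg_right h4 hd0
      _ = (Tset.card : ℝ) * (d / (Nat.card Γ : ℝ)) := by ring
  nlinarith

/-- A conjugation-stable set is the disjoint union of the conjugacy classes it contains:
cardinality form. -/
theorem sum_card_carrier_eq_ncard {G : Type*} [Group G] [Fintype G] [DecidableEq G]
    [Fintype (ConjClasses G)] [DecidableEq (ConjClasses G)]
    (C : Set G) [DecidablePred (· ∈ C)] (hC : ∀ g h : G, g ∈ C → h * g * h⁻¹ ∈ C)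
    (I : Finset (ConjClasses G)) (hI : ∀ c, c ∈ I ↔ c.carrier ⊆ C) :
    ∑ c ∈ I, (Nat.card c.carrier : ℝ) = (C.ncard : ℝ) := by
  have hmaps : Set.MapsTo (ConjClasses.mk : G → ConjClasses G) ↑C.toFinset ↑I := by
    intro g hg
    have hgC : g ∈ C := by simpa using hg
    rw [Finset.mem_coe, hI]
    intro x hx
    rw [ConjClasses.mem_carrier_iff_mk_eq, ConjClasses.mk_eq_mk_iff_isConj, isConj_comm,
      isConj_iff] at hx
    obtain ⟨h, rfl⟩ := hx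
    exact hC g h hgC
  have h1 := Finset.card_eq_sum_card_fiberwise hmaps
  rw [Set.ncard_eq_toFinset_card', h1, Nat.cast_sum]
  refine Finset.sum_congr rfl fun c hc => ?_
  congr 1
  rw [Nat.card_eq_fintype_card, ← Set.toFinset_card]
  congr 1
  ext g
  simp only [Set.mem_toFinset, Finset.mem_filter]
  constructor
  · intro hg
    exact ⟨((hI c).mp hc) hg, ConjClasses.mem_carrier_iff_mk_eq.mp hg⟩
  · rintro ⟨-, hg⟩
    exact ConjClasses.mem_carrier_iff_mk_eq.mpr hg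

/-- **Chebotarev's density theorem over `ℚ`, lower bound** (from D1 + D2). -/
theorem chebotarev_lower (h : ∀ σ : L ≃ₐ[ℚ] L, CrossInput L σ) (C : Set (L ≃ₐ[ℚ] L))
    (hC : ∀ g h : L ≃ₐ[ℚ] L, g ∈ C → h * g * h⁻¹ ∈ C) (B : Finset ℕ) :
    LowerLogDensityGE {p : ℕ | p.Prime ∧ p ∉ B ∧ ∃ g ∈ C, FrobAt L p g}
      ((C.ncard : ℝ) / (Nat.card (L ≃ₐ[ℚ] L) : ℝ)) := by
  classical
  have : Fintype (L ≃ₐ[ℚ] L) := Fintype.ofFinite _
  have : Fintype (ConjClasses (L ≃ₐ[ℚ] L)) := Fintype.ofFinite _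
  set I : Finset (ConjClasses (L ≃ₐ[ℚ] L)) := Finset.univ.filter (fun c => c.carrier ⊆ C) with hI
  have hImem : ∀ c, c ∈ I ↔ c.carrier ⊆ C := fun c => by simp [hI]
  set S : ConjClasses (L ≃ₐ[ℚ] L) → Set ℕ := fun c =>
    {p : ℕ | p.Prime ∧ ∃ g ∈ c.carrier, FrobAt L p g} with hS
  have hlow : ∀ c ∈ I, LowerLogDensityGE (S c)
      ((Nat.card c.carrier : ℝ) / (Nat.card (L ≃ₐ[ℚ] L) : ℝ)) := by
    intro c _
    obtain ⟨σ, rfl⟩ := c.exists_rep
    refine (lower_class σ (h σ)).mono_set ?_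
    rintro p ⟨hp, g, hg, hF⟩
    refine ⟨hp, g, ?_, hF⟩
    rw [ConjClasses.mem_carrier_iff_mk_eq, ConjClasses.mk_eq_mk_iff_isConj]
    exact hg.symm
  have hdisj : ∀ c ∈ I, ∀ c' ∈ I, c ≠ c' → Disjoint (S c) (S c') := by
    intro c _ c' _ hne
    rw [Set.disjoint_left]
    rintro p ⟨hp, g, hg, hF⟩ ⟨-, g', hg', hF'⟩
    apply hne
    rw [← ConjClasses.mem_carrier_iff_mk_eq.mp hg, ← ConjClasses.mem_carrier_iff_mk_eq.mp hg',
      ConjClasses.mk_eq_mk_iff_isConj]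
    exact hF.isConj hp hF'
  have hU := LowerLogDensityGE.biUnion_disjoint I S
    (fun c => (Nat.card c.carrier : ℝ) / (Nat.card (L ≃ₐ[ℚ] L) : ℝ)) hlow hdisj
  rw [← Finset.sum_div, sum_card_carrier_eq_ncard C hC I hImem] at hU
  refine (hU.diff_finset B).mono_set ?_
  rintro p ⟨hp, hpB⟩
  simp only [Set.mem_iUnion] at hp
  obtain ⟨c, hc, hpp, g, hg, hF⟩ := hp
  exact ⟨hpp, by simpa using hpB, g, ((hImem c).mp hc) hg, hF⟩

end Fermat.Agent.DS.N8
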