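/-
GATE-N / S48-(N8)-(D3) (helper1), file 3: **Chebotarev (lower bound) in the Prelude language**:
for a finite-level surjective `ρ : G_ℚ →* G` and a conjugation-stable `C ⊆ G`, the primes `p`
having a Frobenius lift `τ` (Prelude: `A.LiesOverPrime p`, `A.IsFrobeniusAt τ p`) with
`ρ τ ∈ C` have lower logarithmic density `≥ |C|/|G|`.  Consequence (Deligne–Serre §8): if all those
primes (outside a finite set) lie in a set of upper density `≤ η`, then `|C| ≤ η |G|`.

The number field input D1 + D2c (`ChebInputs`, abstract form `CrossInput`) is a hypothesis.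
-/
import Mathlib
import Fermat.Agent.DS.N8.Chebotarev
import Fermat.Agent.GJ.FrobLift

set_option autoImplicit false

open NumberField
open Fermat.Agent.Common_helper32

namespace Fermat.Agent.DS.N8

/-- Fibres of a surjective homomorphism of finite groups have constant size: density form. -/
theorem ncard_preimage_div_card {H G : Type*} [Group H] [Group G] [Finite H] [Finite G]
    (f : H →* G) (hf : Function.Surjective f) (C : Set G) :
    ((f ⁻¹' C).ncard : ℝ) / (Nat.card H : ℝ) = (C.ncard : ℝ) / (Nat.card G : ℝ) := by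
  classical
  have : Fintype H := Fintype.ofFinite _
  have : Fintype G := Fintype.ofFinite _
  set k : ℕ := (Finset.univ.filter fun a : H => f a = 1).card with hk
  have hfib : ∀ b : G, (Finset.univ.filter fun a : H => f a = b).card = k := fun b =>
    MonoidHom.card_fiber_eq_of_mem_range f (hf b) (hf 1)
  have hcount : ∀ D : Set G, (f ⁻¹' D).ncard = D.ncard * k := by
    intro D
    have hmaps : Set.MapsTo f ↑(f ⁻¹' D).toFinset ↑D.toFinset := by
      intro a ha
      simpa using ha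
    have h1 := Finset.card_eq_sum_card_fiberwise hmaps
    rw [Set.ncard_eq_toFinset_card', Set.ncard_eq_toFinset_card', h1]
    rw [← smul_eq_mul, ← Finset.sum_const]
    refine Finset.sum_congr rfl fun b hb => ?_
    rw [← hfib b]
    congr 1
    ext a
    simp only [Finset.mem_filter, Set.mem_toFinset, Set.mem_preimage, Finset.mem_univ, true_and]
    constructor
    · exact fun h => h.2
    · intro h
      refine ⟨?_, h⟩
      rw [h]
      simpa using hb
  have hH : Nat.card H = Nat.card G * k := by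
    have := hcount Set.univ
    simpa [Set.ncard_univ] using this
  have hk0 : (k : ℝ) ≠ 0 := by
    have : 0 < Nat.card H := Nat.card_pos
    rw [hH] at this
    have := Nat.pos_of_mul_pos_left this  -- k > 0
    exact_mod_cast this.ne'
  have hG0 : (Nat.card G : ℝ) ≠ 0 := by exact_mod_cast Nat.card_pos.ne'
  rw [hcount C, hH]
  push_cast
  field_simp

open Fermat.Agent.GJ.FrobLift

/-- The number field input (D1 + D2c, abstract form `CrossInput`) for every finite Galois subfield
of `ℚ̄` and every element of its Galois group. -/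
def ChebInputs : Prop :=
  ∀ (E : IntermediateField ℚ Qb) [FiniteDimensional ℚ E] [IsGalois ℚ E] (σ : E ≃ₐ[ℚ] E),
    CrossInput E σ

/-- From a number field Frobenius at an unramified prime above `p` to a Prelude Frobenius lift. -/
theorem exists_isFrobeniusAt_of_frobAt (E : IntermediateField ℚ Qb) [FiniteDimensional ℚ E]
    [IsGalois ℚ E] {p : ℕ} (hp : p.Prime) {g : E ≃ₐ[ℚ] E} (h : FrobAt E p g) :
    ∃ (A : ValuationSubring Qb) (τ : GQ), A.LiesOverPrime p ∧ A.IsFrobeniusAt τ p ∧
      AlgEquiv.restrictNormalHom E τ = g := by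
  obtain ⟨P, hP, hP0, hPp, hI, hF⟩ := h
  obtain ⟨A, hAP⟩ := Fermat.Agent.S14.Reduction.ValAbove.exists_valuationSubring_above E P hP0
  have hpP : ((p : ℕ) : 𝓞 E) ∈ P := by
    have h1 : ((Ideal.absNorm (P.under (𝓞 ℚ)) : ℕ) : 𝓞 ℚ) ∈ P.under (𝓞 ℚ) := Ideal.absNorm_mem _
    rw [hPp, Ideal.under_def, Ideal.mem_comap, map_natCast] at h1
    exact h1
  have hA : A.LiesOverPrime p := by
    have := (hAP _).mp hpP
    show ((p : ℕ) : Qb) ∈ A.nonunits
    convert this using 1
    push_cast
    rfl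
  have hcard : Nat.card (𝓞 ℚ ⧸ P.under (𝓞 ℚ)) = p := by
    rw [← hPp, Ideal.absNorm_apply, Submodule.cardQuot_apply]
  obtain ⟨τ, hτ⟩ := exists_isFrobeniusAt_of_liesOver A p hp hA
  have h1 := isArithFrobAt_restrict E A p P hAP hcard τ hτ
  exact ⟨A, τ, hA, hτ, (Fermat.Agent.S14.isArithFrobAt_unique hI hF h1).symm⟩

/-- **Chebotarev, lower bound, Prelude language.** -/
theorem chebotarev_lower_GQ (hin : ChebInputs) {G : Type} [Group G] [Finite G] (ρ : GQ →* G)
    (hρ : GaloisFactorsThroughFiniteLevel ρ) (hsurj : Function.Surjective ρ)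
    (C : Set G) (hC : ∀ g h : G, g ∈ C → h * g * h⁻¹ ∈ C) (B : Finset ℕ) :
    LowerLogDensityGE {p : ℕ | p.Prime ∧ p ∉ B ∧ ∃ (A : ValuationSubring Qb) (τ : GQ),
        A.LiesOverPrime p ∧ A.IsFrobeniusAt τ p ∧ ρ τ ∈ C}
      ((C.ncard : ℝ) / (Nat.card G : ℝ)) := by
  obtain ⟨E, hfin, hgal, hlevel⟩ := exists_galois_level ρ hρ
  have h1 := hin E
  have hsE : Function.Surjective (AlgEquiv.restrictNormalHom (F := ℚ) (K₁ := Qb) E) :=
    AlgEquiv.restrictNormalHom_surjective Qb
  have hker : (AlgEquiv.restrictNormalHom (F := ℚ) (K₁ := Qb) E).ker ≤ ρ.ker := by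
    intro σ hσ
    rw [MonoidHom.mem_ker] at hσ ⊢
    rw [← map_one ρ]
    exact hlevel σ 1 (by rw [hσ, map_one])
  set ρE : (E ≃ₐ[ℚ] E) →* G :=
    (AlgEquiv.restrictNormalHom (F := ℚ) (K₁ := Qb) E).liftOfRightInverse (Function.surjInv hsE)
      (Function.rightInverse_surjInv hsE) ⟨ρ, hker⟩ with hρE
  have hρE_apply : ∀ σ : GQ, ρE (AlgEquiv.restrictNormalHom E σ) = ρ σ := fun σ =>
    MonoidHom.liftOfRightInverse_comp_apply _ _ _ ⟨ρ, hker⟩ σ
  have hρEsurj : Function.Surjective ρE := by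
    intro g
    obtain ⟨σ, rfl⟩ := hsurj g
    exact ⟨_, hρE_apply σ⟩
  have hCE : ∀ g h : E ≃ₐ[ℚ] E, g ∈ ρE ⁻¹' C → h * g * h⁻¹ ∈ ρE ⁻¹' C := by
    intro g h hg
    simp only [Set.mem_preimage, map_mul, map_inv] at hg ⊢
    exact hC _ _ hg
  have hmain := chebotarev_lower h1 (ρE ⁻¹' C) hCE B
  rw [ncard_preimage_div_card ρE hρEsurj C] at hmain
  refine hmain.mono_set ?_
  rintro p ⟨hp, hpB, g, hg, hF⟩
  obtain ⟨A, τ, hA, hτ, hres⟩ := exists_isFrobeniusAt_of_frobAt E hp hF
  refine ⟨hp, hpB, A, τ, hA, hτ, ?_⟩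
  rw [← hρE_apply τ, hres]
  exact hg

/-- **Deligne–Serre §8, the Chebotarev step**: if every prime (outside a finite set `B`) having a
Frobenius lift with value in the conjugation-stable set `C` lies in a set `X` of upper logarithmic
density `≤ η`, then `|C| ≤ η |G|`. -/
theorem card_le_of_frob_subset (hin : ChebInputs) {G : Type} [Group G] [Finite G] (ρ : GQ →* G)
    (hρ : GaloisFactorsThroughFiniteLevel ρ) (hsurj : Function.Surjective ρ)
    (C : Set G) (hC : ∀ g h : G, g ∈ C → h * g * h⁻¹ ∈ C) (B : Finset ℕ)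
    (X : Set ℕ) (η : ℝ) (hX : UpperLogDensityLE X η)
    (hCX : ∀ p : ℕ, p.Prime → p ∉ B → (∃ (A : ValuationSubring Qb) (τ : GQ),
      A.LiesOverPrime p ∧ A.IsFrobeniusAt τ p ∧ ρ τ ∈ C) → p ∈ X) :
    (C.ncard : ℝ) ≤ η * (Nat.card G : ℝ) := by
  have h1 := chebotarev_lower_GQ hin ρ hρ hsurj C hC B
  have h2 : (C.ncard : ℝ) / (Nat.card G : ℝ) ≤ η := by
    refine le_of_lower_of_upper ∅ ?_ h1 hX
    rintro p ⟨hp, hpB, h⟩
    exact Or.inl (hCX p hp hpB h)
  have hG : (0 : ℝ) < (Nat.card G : ℝ) := by exact_mod_cast Nat.card_pos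
  rwa [div_le_iff₀ hG] at h2

end Fermat.Agent.DS.N8
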