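/-
GATE-N / S48-(N8)-(D3) (helper1), file 4: **weighted Chebotarev lower bound** (output (O4)), in the
exact shape `N7.WeightedChebLower` consumed by helper4's `isIrreducible_of_weightedCheb`:
for a finite-level surjection `π : G_ℚ →* G` and a nonnegative class function `w` on `G`,
`(mean_G w - ε) log (1/(s-1)) ≤ ∑_{p ∈ T} w (π (τ p)) p^{-s}` for suitable finite sets `T` of
primes outside `B` and Frobenius lifts `τ p`.

Hypothesis: `ChebInputs` (D1 + D2c in the abstract form `CrossInput`).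
-/
import Mathlib
import Fermat.Agent.DS.N8.ChebAdapter
import Fermat.Agent.DS.N7.IrredTop

set_option autoImplicit false

open NumberField
open Fermat.Agent.Common_helper32

namespace Fermat.Agent.DS.N8

/-! ### Abstract weighted combination of disjoint lower densities -/

theorem exists_pos_le_of_finset {ι : Type*} (I : Finset ι) (δ : ι → ℝ) (h : ∀ i ∈ I, 0 < δ i) :
    ∃ δ₀ : ℝ, 0 < δ₀ ∧ δ₀ ≤ 1 ∧ ∀ i ∈ I, δ₀ ≤ δ i := by
  classical
  induction I using Finset.induction_on with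
  | empty => exact ⟨1, one_pos, le_rfl, by simp⟩
  | insert a I _ ih =>
    obtain ⟨δ₁, h1, h2, h3⟩ := ih fun i hi => h i (Finset.mem_insert_of_mem hi)
    refine ⟨min δ₁ (δ a), lt_min h1 (h a (Finset.mem_insert_self a I)),
      le_trans (min_le_left _ _) h2, fun i hi => ?_⟩
    rcases Finset.mem_insert.mp hi with rfl | hi
    · exact min_le_right _ _
    · exact le_trans (min_le_left _ _) (h3 i hi)

theorem weighted_of_lower {ι : Type*} (I : Finset ι) (S : ι → Set ℕ) (d v : ι → ℝ)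
    (hv : ∀ i ∈ I, 0 ≤ v i) (h : ∀ i ∈ I, LowerLogDensityGE (S i) (d i)) :
    ∀ ε : ℝ, 0 < ε → ∃ δ : ℝ, 0 < δ ∧ ∀ s : ℝ, 1 < s → s < 1 + δ →
      ∃ T : ι → Finset ℕ, (∀ i ∈ I, ∀ p ∈ T i, p.Prime ∧ p ∈ S i) ∧
        (∑ i ∈ I, v i * d i - ε) * Real.log (1 / (s - 1)) ≤
          ∑ i ∈ I, v i * ∑ p ∈ T i, (p : ℝ) ^ (-s) := by
  classical
  intro ε hε
  set V : ℝ := ∑ i ∈ I, v i + 1 with hV
  have hV0 : 0 < V := by
    have : 0 ≤ ∑ i ∈ I, v i := Finset.sum_nonneg hv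
    linarith
  set ε' : ℝ := ε / V with hε'
  have hε'0 : 0 < ε' := div_pos hε hV0
  have key : ∀ i, ∃ δ : ℝ, 0 < δ ∧ (i ∈ I → ∀ s : ℝ, 1 < s → s < 1 + δ →
      ∃ T : Finset ℕ, (∀ p ∈ T, p.Prime ∧ p ∈ S i) ∧
        (d i - ε') * Real.log (1 / (s - 1)) ≤ ∑ p ∈ T, (p : ℝ) ^ (-s)) := by
    intro i
    by_cases hi : i ∈ I
    · obtain ⟨δ, hδ, H⟩ := h i hi ε' hε'0
      exact ⟨δ, hδ, fun _ => H⟩
    · exact ⟨1, one_pos, fun hi' => absurd hi' hi⟩
  choose δ hδ H using key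
  obtain ⟨δ₀, hδ₀, hδ₀1, hδ₀le⟩ := exists_pos_le_of_finset I δ fun i _ => hδ i
  refine ⟨δ₀, hδ₀, fun s hs1 hs2 => ?_⟩
  have key2 : ∀ i, ∃ T : Finset ℕ, i ∈ I → ((∀ p ∈ T, p.Prime ∧ p ∈ S i) ∧
      (d i - ε') * Real.log (1 / (s - 1)) ≤ ∑ p ∈ T, (p : ℝ) ^ (-s)) := by
    intro i
    by_cases hi : i ∈ I
    · obtain ⟨T, hT⟩ := H i hi s hs1 (by have := hδ₀le i hi; linarith)
      exact ⟨T, fun _ => hT⟩
    · exact ⟨∅, fun hi' => absurd hi' hi⟩
  choose T hT using key2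
  refine ⟨T, fun i hi => (hT i hi).1, ?_⟩
  have hL : 0 ≤ Real.log (1 / (s - 1)) := log_inv_nonneg hs1 (by linarith)
  have h1 : ∑ i ∈ I, v i * ((d i - ε') * Real.log (1 / (s - 1))) ≤
      ∑ i ∈ I, v i * ∑ p ∈ T i, (p : ℝ) ^ (-s) :=
    Finset.sum_le_sum fun i hi => mul_le_mul_of_nonneg_left (hT i hi).2 (hv i hi)
  refine le_trans ?_ h1
  have h2 : ∑ i ∈ I, v i * ((d i - ε') * Real.log (1 / (s - 1))) =
      (∑ i ∈ I, v i * d i - ε' * ∑ i ∈ I, v i) * Real.log (1 / (s - 1)) := by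
    rw [sub_mul, Finset.sum_mul, Finset.mul_sum, Finset.sum_mul, ← Finset.sum_sub_distrib]
    refine Finset.sum_congr rfl fun i _ => ?_
    ring
  rw [h2]
  apply mul_le_mul_of_nonneg_right _ hL
  have h3 : ε' * ∑ i ∈ I, v i ≤ ε := by
    have h4 : ε' * V = ε := by rw [hε']; field_simp
    have h5 : ∑ i ∈ I, v i ≤ V := by rw [hV]; linarith
    calc ε' * ∑ i ∈ I, v i ≤ ε' * V := mul_le_mul_of_nonneg_left h5 hε'0.le
      _ = ε := h4
  linarith

/-! ### Number field form -/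

section NumberFieldForm

variable {L : Type*} [Field L] [NumberField L] [IsGalois ℚ L]

/-- The conjugacy class carrier is stable under conjugation. -/
theorem carrier_conj_mem {G : Type*} [Group G] (c : ConjClasses G) (g h : G)
    (hg : g ∈ c.carrier) : h * g * h⁻¹ ∈ c.carrier := by
  rw [ConjClasses.mem_carrier_iff_mk_eq] at hg ⊢
  rw [← hg, ConjClasses.mk_eq_mk_iff_isConj, isConj_comm, isConj_iff]
  exact ⟨h, rfl⟩

/-- A class function is constant on conjugacy classes. -/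
theorem classFun_eq_of_mem {G : Type*} [Group G] (w : G → ℝ)
    (hwc : ∀ g h : G, w (h * g * h⁻¹) = w g) (c : ConjClasses G) {g g' : G}
    (hg : g ∈ c.carrier) (hg' : g' ∈ c.carrier) : w g = w g' := by
  rw [ConjClasses.mem_carrier_iff_mk_eq] at hg hg'
  have : IsConj g g' := by rw [← ConjClasses.mk_eq_mk_iff_isConj, hg, hg']
  obtain ⟨h, rfl⟩ := isConj_iff.mp this
  exact (hwc g h).symm

/-- `∑_g w g = ∑_c |c| · w(c)` for a class function. -/
theorem sum_classFun_eq {G : Type*} [Group G] [Fintype G] [Fintype (ConjClasses G)]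
    (w : G → ℝ) (v : ConjClasses G → ℝ)
    (hv : ∀ (c : ConjClasses G) (g : G), g ∈ c.carrier → w g = v c) :
    ∑ g : G, w g = ∑ c : ConjClasses G, v c * (c.carrier.ncard : ℝ) := by
  classical
  rw [← Finset.sum_fiberwise (s := Finset.univ) (g := (ConjClasses.mk : G → ConjClasses G))
    (f := w)]
  refine Finset.sum_congr rfl fun c _ => ?_
  have h1 : ∀ g ∈ Finset.univ.filter (fun g : G => ConjClasses.mk g = c), w g = v c := by
    intro g hg
    exact hv c g (ConjClasses.mem_carrier_iff_mk_eq.mpr (Finset.mem_filter.mp hg).2)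
  rw [Finset.sum_congr rfl h1, Finset.sum_const, nsmul_eq_mul, mul_comm]
  congr 2
  rw [Set.ncard_eq_toFinset_card']
  congr 1
  ext g
  simp [ConjClasses.mem_carrier_iff_mk_eq]

/-- **Weighted Chebotarev lower bound, number field form.** -/
theorem weighted_lower [Fintype (L ≃ₐ[ℚ] L)] (h : ∀ σ : L ≃ₐ[ℚ] L, CrossInput L σ)
    (w : (L ≃ₐ[ℚ] L) → ℝ) (hw0 : ∀ g, 0 ≤ w g) (hwc : ∀ g h, w (h * g * h⁻¹) = w g)
    (B : Finset ℕ) :
    ∀ ε : ℝ, 0 < ε → ∃ δ : ℝ, 0 < δ ∧ ∀ s : ℝ, 1 < s → s < 1 + δ →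
      ∃ (T : Finset ℕ) (γ : ℕ → (L ≃ₐ[ℚ] L)),
        (∀ p ∈ T, p.Prime ∧ p ∉ B ∧ FrobAt L p (γ p)) ∧
        ((∑ g : L ≃ₐ[ℚ] L, w g) / (Fintype.card (L ≃ₐ[ℚ] L) : ℝ) - ε) *
            Real.log (1 / (s - 1)) ≤ ∑ p ∈ T, w (γ p) * (p : ℝ) ^ (-s) := by
  classical
  have : Fintype (ConjClasses (L ≃ₐ[ℚ] L)) := Fintype.ofFinite _
  set rep : ConjClasses (L ≃ₐ[ℚ] L) → (L ≃ₐ[ℚ] L) := fun c => c.exists_rep.choose with hrep
  have hrep_mem : ∀ c, rep c ∈ c.carrier := fun c =>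
    ConjClasses.mem_carrier_iff_mk_eq.mpr c.exists_rep.choose_spec
  set v : ConjClasses (L ≃ₐ[ℚ] L) → ℝ := fun c => w (rep c) with hv
  have hvw : ∀ (c : ConjClasses (L ≃ₐ[ℚ] L)) (g : L ≃ₐ[ℚ] L), g ∈ c.carrier → w g = v c :=
    fun c g hg => classFun_eq_of_mem w hwc c hg (hrep_mem c)
  set S : ConjClasses (L ≃ₐ[ℚ] L) → Set ℕ := fun c =>
    {p : ℕ | p.Prime ∧ p ∉ B ∧ ∃ g ∈ c.carrier, FrobAt L p g} with hS
  set d : ConjClasses (L ≃ₐ[ℚ] L) → ℝ := fun c =>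
    (c.carrier.ncard : ℝ) / (Nat.card (L ≃ₐ[ℚ] L) : ℝ) with hd
  have hlow : ∀ c ∈ (Finset.univ : Finset (ConjClasses (L ≃ₐ[ℚ] L))),
      LowerLogDensityGE (S c) (d c) := fun c _ =>
    chebotarev_lower h c.carrier (fun g k hg => carrier_conj_mem c g k hg) B
  have hmean : ∑ c : ConjClasses (L ≃ₐ[ℚ] L), v c * d c =
      (∑ g : L ≃ₐ[ℚ] L, w g) / (Fintype.card (L ≃ₐ[ℚ] L) : ℝ) := by
    rw [sum_classFun_eq w v hvw, Finset.sum_div]
    refine Finset.sum_congr rfl fun c _ => ?_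
    simp only [hd]
    rw [Nat.card_eq_fintype_card]
    ring
  intro ε hε
  obtain ⟨δ, hδ, H⟩ := weighted_of_lower Finset.univ S d v (fun c _ => hw0 _) hlow ε hε
  refine ⟨δ, hδ, fun s hs1 hs2 => ?_⟩
  obtain ⟨T, hT, hsum⟩ := H s hs1 hs2
  set γ : ℕ → (L ≃ₐ[ℚ] L) := fun p => if hp : ∃ g, FrobAt L p g then hp.choose else 1 with hγ
  have hγspec : ∀ c, ∀ p ∈ T c, FrobAt L p (γ p) ∧ γ p ∈ c.carrier := by
    intro c p hp
    obtain ⟨hpp, -, -, g₀, hg₀, hF₀⟩ := hT c (Finset.mem_univ c) p hp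
    have hex : ∃ g, FrobAt L p g := ⟨g₀, hF₀⟩
    have hF : FrobAt L p (γ p) := by
      rw [hγ]
      simp only [dif_pos hex]
      exact hex.choose_spec
    refine ⟨hF, ?_⟩
    obtain ⟨k, hk⟩ := isConj_iff.mp (hF₀.isConj hpp hF)
    rw [← hk]
    exact carrier_conj_mem c g₀ k hg₀
  have hdisj : ∀ c ∈ (Finset.univ : Finset (ConjClasses (L ≃ₐ[ℚ] L))),
      ∀ c' ∈ (Finset.univ : Finset (ConjClasses (L ≃ₐ[ℚ] L))), c ≠ c' →
        Disjoint (T c) (T c') := by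
    intro c _ c' _ hne
    rw [Finset.disjoint_left]
    intro p hp hp'
    apply hne
    rw [← ConjClasses.mem_carrier_iff_mk_eq.mp (hγspec c p hp).2,
      ← ConjClasses.mem_carrier_iff_mk_eq.mp (hγspec c' p hp').2]
  refine ⟨Finset.univ.biUnion T, γ, fun p hp => ?_, ?_⟩
  · obtain ⟨c, _, hpc⟩ := Finset.mem_biUnion.mp hp
    obtain ⟨hpp, -, hpB, -⟩ := hT c (Finset.mem_univ c) p hpc
    exact ⟨hpp, hpB, (hγspec c p hpc).1⟩
  · rw [Finset.sum_biUnion hdisj, ← hmean]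
    refine le_trans hsum (le_of_eq ?_)
    refine Finset.sum_congr rfl fun c _ => ?_
    rw [Finset.mul_sum]
    refine Finset.sum_congr rfl fun p hp => ?_
    rw [hvw c (γ p) (hγspec c p hp).2]

end NumberFieldForm

/-! ### Prelude language -/

open Fermat.Agent.GJ.FrobLift

/-- A finite-level hom `ρ : G_ℚ →* G` factors through `Gal(E/ℚ)` for a finite Galois `E ⊆ ℚ̄`,
as a homomorphism. -/
theorem exists_level_hom {G : Type} [Group G] (ρ : GQ →* G)
    (hρ : GaloisFactorsThroughFiniteLevel ρ) :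
    ∃ (E : IntermediateField ℚ Qb) (_ : FiniteDimensional ℚ E) (_ : IsGalois ℚ E)
      (ρE : (E ≃ₐ[ℚ] E) →* G), ∀ σ : GQ, ρE (AlgEquiv.restrictNormalHom E σ) = ρ σ := by
  obtain ⟨E, hfin, hgal, hlevel⟩ := exists_galois_level ρ hρ
  have hsE : Function.Surjective (AlgEquiv.restrictNormalHom (F := ℚ) (K₁ := Qb) E) :=
    AlgEquiv.restrictNormalHom_surjective Qb
  have hker : (AlgEquiv.restrictNormalHom (F := ℚ) (K₁ := Qb) E).ker ≤ ρ.ker := by
    intro σ hσ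
    rw [MonoidHom.mem_ker] at hσ ⊢
    rw [← map_one ρ]
    exact hlevel σ 1 (by rw [hσ, map_one])
  exact ⟨E, hfin, hgal,
    (AlgEquiv.restrictNormalHom (F := ℚ) (K₁ := Qb) E).liftOfRightInverse (Function.surjInv hsE)
      (Function.rightInverse_surjInv hsE) ⟨ρ, hker⟩,
    fun σ => MonoidHom.liftOfRightInverse_comp_apply _ _ _ ⟨ρ, hker⟩ σ⟩

/-- Means are preserved under pull-back along a surjective homomorphism of finite groups. -/
theorem sum_comp_div_card {H G : Type*} [Group H] [Group G] [Fintype H] [Fintype G]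
    (f : H →* G) (hf : Function.Surjective f) (w : G → ℝ) :
    (∑ h : H, w (f h)) / (Fintype.card H : ℝ) = (∑ g : G, w g) / (Fintype.card G : ℝ) := by
  classical
  set k : ℕ := (Finset.univ.filter fun a : H => f a = 1).card with hk
  have hfib : ∀ b : G, (Finset.univ.filter fun a : H => f a = b).card = k := fun b =>
    MonoidHom.card_fiber_eq_of_mem_range f (hf b) (hf 1)
  have hsum : ∀ u : G → ℝ, ∑ h : H, u (f h) = (k : ℝ) * ∑ g : G, u g := by
    intro u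
    rw [← Finset.sum_fiberwise (s := Finset.univ) (g := (f : H → G)) (f := fun h => u (f h)),
      Finset.mul_sum]
    refine Finset.sum_congr rfl fun b _ => ?_
    have h1 : ∀ a ∈ Finset.univ.filter (fun a : H => f a = b), u (f a) = u b := by
      intro a ha
      rw [(Finset.mem_filter.mp ha).2]
    rw [Finset.sum_congr rfl h1, Finset.sum_const, nsmul_eq_mul, hfib b]
  have hcard : (Fintype.card H : ℝ) = (k : ℝ) * (Fintype.card G : ℝ) := by
    have := hsum fun _ => (1 : ℝ)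
    simpa using this
  have hk0 : (k : ℝ) ≠ 0 := by
    intro h0
    have : (Fintype.card H : ℝ) = 0 := by rw [hcard, h0, zero_mul]
    have h2 : (0 : ℝ) < (Fintype.card H : ℝ) := by exact_mod_cast Fintype.card_pos
    linarith
  have hG0 : (Fintype.card G : ℝ) ≠ 0 := by exact_mod_cast Fintype.card_pos.ne'
  rw [hsum w, hcard]
  field_simp

/-- **(O4)** the weighted Chebotarev lower bound in the shape of `N7.WeightedChebLower`. -/
theorem weightedChebLower_of_chebInputs (hin : ChebInputs) {G : Type} [Group G] [Fintype G]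
    (π : GQ →* G) (hπ : GaloisFactorsThroughFiniteLevel π) (hsurj : Function.Surjective π)
    (B : Finset ℕ) (w : G → ℝ) (hw0 : ∀ g, 0 ≤ w g) (hwc : ∀ g h : G, w (h * g * h⁻¹) = w g) :
    Fermat.Agent.DS.N7.WeightedChebLower π B w := by
  classical
  obtain ⟨E, hfin, hgal, ρE, hρE⟩ := exists_level_hom π hπ
  have : Fintype (E ≃ₐ[ℚ] E) := Fintype.ofFinite _
  have hρEsurj : Function.Surjective ρE := by
    intro g
    obtain ⟨σ, rfl⟩ := hsurj g
    exact ⟨_, hρE σ⟩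
  have hmain := weighted_lower (L := E) (hin E) (fun g => w (ρE g)) (fun g => hw0 _)
    (fun g h => by simp only [map_mul, map_inv]; exact hwc _ _) B
  rw [sum_comp_div_card ρE hρEsurj w] at hmain
  intro ε hε
  obtain ⟨δ, hδ, H⟩ := hmain ε hε
  refine ⟨δ, hδ, fun s hs1 hs2 => ?_⟩
  obtain ⟨T, γ, hT, hsum⟩ := H s hs1 hs2
  have key : ∀ p : ℕ, ∃ τ : GQ, p ∈ T → (∃ A : ValuationSubring Qb,
      A.LiesOverPrime p ∧ A.IsFrobeniusAt τ p) ∧ AlgEquiv.restrictNormalHom E τ = γ p := by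
    intro p
    by_cases hp : p ∈ T
    · obtain ⟨hpp, -, hF⟩ := hT p hp
      obtain ⟨A, τ, hA, hτ, hres⟩ := exists_isFrobeniusAt_of_frobAt E hpp hF
      exact ⟨τ, fun _ => ⟨⟨A, hA, hτ⟩, hres⟩⟩
    · exact ⟨1, fun hp' => absurd hp' hp⟩
  choose τ hτ using key
  refine ⟨T, τ, fun p hp => ⟨(hT p hp).1, (hT p hp).2.1, (hτ p hp).1⟩, ?_⟩
  refine le_trans hsum (le_of_eq ?_)
  refine Finset.sum_congr rfl fun p hp => ?_
  rw [← hρE (τ p), (hτ p hp).2]

end Fermat.Agent.DS.N8
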