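/-
S48-(N8)-(D1)  CYCLO-DISJOINT  (helper3).  Mathlib only.

For a finite extension `L/ℚ` inside a field `Ω` containing all roots of unity, and every `n`, `k`,
there is `m = l₁ ⋯ l_k` (distinct primes `≡ 1 mod n`) with `L ∩ ℚ(ζ_m) = ℚ`; and at least
`(1 - (1 - 1/n)^k) φ(m)` of the `τ ∈ (ℤ/m)ˣ` have order divisible by `n`.
-/
import Mathlib

set_option autoImplicit false

namespace Fermat.Agent.DS.N8.CycloDisjoint

open IntermediateField Module Polynomial

variable {Ω : Type*} [Field Ω] [CharZero Ω]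

/-- The `m`-th cyclotomic subfield of `Ω`: generated over `ℚ` by all `m`-th roots of unity. -/
def cyc (Ω : Type*) [Field Ω] [CharZero Ω] (m : ℕ) : IntermediateField ℚ Ω :=
  adjoin ℚ {x : Ω | x ^ m = 1}

theorem cyc_eq_adjoin_simple {m : ℕ} {ζ : Ω} (hζ : IsPrimitiveRoot ζ m) (hm : m ≠ 0) :
    cyc Ω m = ℚ⟮ζ⟯ := by
  have : NeZero m := ⟨hm⟩
  apply le_antisymm
  · rw [cyc, adjoin_le_iff]
    intro x hx
    obtain ⟨i, -, rfl⟩ := hζ.eq_pow_of_pow_eq_one hx
    exact pow_mem (mem_adjoin_simple_self ℚ ζ) i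
  · rw [adjoin_simple_le_iff]
    exact subset_adjoin _ _ hζ.pow_eq_one

theorem isCyclotomicExtension_cyc {m : ℕ} {ζ : Ω} (hζ : IsPrimitiveRoot ζ m) (hm : m ≠ 0) :
    IsCyclotomicExtension {m} ℚ (cyc Ω m) := by
  have : NeZero m := ⟨hm⟩
  rw [cyc_eq_adjoin_simple hζ hm]
  change IsCyclotomicExtension {m} ℚ (IntermediateField.adjoin ℚ {ζ}).toSubalgebra
  rw [IntermediateField.adjoin_simple_toSubalgebra_of_isAlgebraic
    ((hζ.isIntegral (Nat.pos_of_ne_zero hm)).tower_top.isAlgebraic)]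
  exact hζ.adjoin_isCyclotomicExtension ℚ

theorem mem_cyc_of_pow_eq_one {m : ℕ} {x : Ω} (hx : x ^ m = 1) : x ∈ cyc Ω m :=
  subset_adjoin _ _ hx

theorem cyc_mono {a b : ℕ} (h : a ∣ b) : cyc Ω a ≤ cyc Ω b := by
  rw [cyc, adjoin_le_iff]
  intro x hx
  obtain ⟨c, rfl⟩ := h
  exact mem_cyc_of_pow_eq_one (by rw [pow_mul, show x ^ a = 1 from hx, one_pow])

/-- `Ω` contains primitive roots of unity of every order. -/
def HasAllRoots (Ω : Type*) [Field Ω] : Prop :=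
  ∀ m : ℕ, m ≠ 0 → ∃ ζ : Ω, IsPrimitiveRoot ζ m

theorem hasAllRoots_of_isAlgClosed (Ω : Type*) [Field Ω] [CharZero Ω] [IsAlgClosed Ω] :
    HasAllRoots Ω := fun m hm =>
  have : NeZero (m : Ω) := ⟨by exact_mod_cast hm⟩
  HasEnoughRootsOfUnity.exists_primitiveRoot Ω m

section withRoots

variable (hΩ : HasAllRoots Ω)
include hΩ

theorem finrank_cyc {m : ℕ} (hm : m ≠ 0) : finrank ℚ (cyc Ω m) = m.totient := by
  obtain ⟨ζ, hζ⟩ := hΩ m hm
  have : NeZero m := ⟨hm⟩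
  have := isCyclotomicExtension_cyc hζ hm
  exact IsCyclotomicExtension.Rat.finrank m (cyc Ω m)

theorem finiteDimensional_cyc {m : ℕ} (hm : m ≠ 0) : FiniteDimensional ℚ (cyc Ω m) := by
  obtain ⟨ζ, hζ⟩ := hΩ m hm
  have : NeZero m := ⟨hm⟩
  have := isCyclotomicExtension_cyc hζ hm
  exact IsCyclotomicExtension.finite_of_singleton m ℚ (cyc Ω m)

theorem isGalois_cyc {m : ℕ} (hm : m ≠ 0) : IsGalois ℚ (cyc Ω m) := by
  obtain ⟨ζ, hζ⟩ := hΩ m hm
  have := isCyclotomicExtension_cyc hζ hm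
  exact IsCyclotomicExtension.isGalois {m} ℚ (cyc Ω m)

set_option backward.isDefEq.respectTransparency false in
theorem cyc_sup_cyc {a b : ℕ} (ha : a ≠ 0) (hb : b ≠ 0) :
    cyc Ω a ⊔ cyc Ω b = cyc Ω (a.lcm b) := by
  obtain ⟨ζa, hζa⟩ := hΩ a ha
  obtain ⟨ζb, hζb⟩ := hΩ b hb
  have hab : a.lcm b ≠ 0 := Nat.lcm_ne_zero ha hb
  obtain ⟨ζ, hζ⟩ := hΩ _ hab
  have : NeZero a := ⟨ha⟩
  have : NeZero b := ⟨hb⟩
  have := isCyclotomicExtension_cyc hζa ha
  have := isCyclotomicExtension_cyc hζb hb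
  have := isCyclotomicExtension_cyc hζ hab
  have := IntermediateField.isCyclotomicExtension_lcm_sup ℚ Ω a b (cyc Ω a) (cyc Ω b)
  exact IntermediateField.isCyclotomicExtension_eq {a.lcm b} ℚ Ω _ _

theorem cyc_sup_cyc_of_coprime {a b : ℕ} (ha : a ≠ 0) (hb : b ≠ 0) (hab : a.Coprime b) :
    cyc Ω a ⊔ cyc Ω b = cyc Ω (a * b) := by
  rw [cyc_sup_cyc hΩ ha hb, hab.lcm_eq_mul]

theorem linearDisjoint_cyc_of_coprime {a b : ℕ} (ha : a ≠ 0) (hb : b ≠ 0) (hab : a.Coprime b) :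
    (cyc Ω a).LinearDisjoint (cyc Ω b) := by
  have := finiteDimensional_cyc hΩ ha
  have := finiteDimensional_cyc hΩ hb
  apply IntermediateField.LinearDisjoint.of_finrank_sup
  rw [cyc_sup_cyc_of_coprime hΩ ha hb hab, finrank_cyc hΩ (Nat.mul_ne_zero ha hb),
    finrank_cyc hΩ ha, finrank_cyc hΩ hb, Nat.totient_mul hab]

theorem cyc_inf_cyc_of_coprime {a b : ℕ} (ha : a ≠ 0) (hb : b ≠ 0) (hab : a.Coprime b) :
    cyc Ω a ⊓ cyc Ω b = ⊥ :=
  (linearDisjoint_cyc_of_coprime hΩ ha hb hab).inf_eq_bot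

omit hΩ in
/-- A finite extension of `ℚ` inside `Ω` has only finitely many subfields. -/
theorem finite_setOf_le (L : IntermediateField ℚ Ω) [FiniteDimensional ℚ L] :
    {F : IntermediateField ℚ Ω | F ≤ L}.Finite := by
  have : Finite (IntermediateField ℚ L) :=
    Field.finite_intermediateField_of_exists_primitive_element ℚ L
      (Field.exists_primitive_element ℚ L)
  refine (Set.finite_range
    (fun K : IntermediateField ℚ L => IntermediateField.lift K)).subset ?_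
  intro F hF
  exact ⟨IntermediateField.restrict hF, IntermediateField.lift_restrict hF⟩

/-- For a finite extension `L/ℚ`, all but finitely many primes `l` have `L ∩ ℚ(ζ_l) = ℚ`. -/
theorem finite_bad_primes (L : IntermediateField ℚ Ω) [FiniteDimensional ℚ L] :
    {l : ℕ | l.Prime ∧ L ⊓ cyc Ω l ≠ ⊥}.Finite := by
  apply Set.Finite.of_finite_image (f := fun l => L ⊓ cyc Ω l)
  · refine (finite_setOf_le L).subset ?_
    rintro _ ⟨l, -, rfl⟩
    exact (inf_le_left : L ⊓ cyc Ω l ≤ L)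
  · intro l hl l' hl' h
    by_contra hne
    apply hl.2
    have h' : L ⊓ cyc Ω l = L ⊓ cyc Ω l' := h
    have hle1 : L ⊓ cyc Ω l ≤ cyc Ω l := inf_le_right
    have hle2 : L ⊓ cyc Ω l ≤ cyc Ω l' := h' ▸ (inf_le_right : L ⊓ cyc Ω l' ≤ cyc Ω l')
    have hle : L ⊓ cyc Ω l ≤ cyc Ω l ⊓ cyc Ω l' := le_inf hle1 hle2
    rw [cyc_inf_cyc_of_coprime hΩ hl.1.ne_zero hl'.1.ne_zero
      ((Nat.coprime_primes hl.1 hl'.1).2 hne)] at hle
    exact le_bot_iff.1 hle

set_option backward.isDefEq.respectTransparency false in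
/-- The step: `L ∩ ℚ(ζ_m) = ℚ` and `L(ζ_m) ∩ ℚ(ζ_l) = ℚ` (with `(m,l) = 1`) give
`L ∩ ℚ(ζ_{ml}) = ℚ`. -/
theorem inf_cyc_mul_eq_bot (L : IntermediateField ℚ Ω) [FiniteDimensional ℚ L] {m l : ℕ}
    (hm : m ≠ 0) (hl : l ≠ 0) (hml : m.Coprime l)
    (h1 : L ⊓ cyc Ω m = ⊥) (h2 : (L ⊔ cyc Ω m) ⊓ cyc Ω l = ⊥) :
    L ⊓ cyc Ω (m * l) = ⊥ := by
  have := finiteDimensional_cyc hΩ hm
  have := finiteDimensional_cyc hΩ hl
  have := finiteDimensional_cyc hΩ (mul_ne_zero hm hl)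
  have := isGalois_cyc hΩ hm
  have := isGalois_cyc hΩ hl
  have d1 : (cyc Ω m).LinearDisjoint L :=
    IntermediateField.LinearDisjoint.of_inf_eq_bot (by rwa [inf_comm])
  have d2 : (cyc Ω l).LinearDisjoint (L ⊔ cyc Ω m : IntermediateField ℚ Ω) :=
    IntermediateField.LinearDisjoint.of_inf_eq_bot (by rwa [inf_comm])
  have e1 := d1.finrank_sup
  have e2 := d2.finrank_sup
  have hL : L.LinearDisjoint (cyc Ω (m * l)) := by
    apply IntermediateField.LinearDisjoint.of_finrank_sup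
    have hs : L ⊔ cyc Ω (m * l) = cyc Ω l ⊔ (L ⊔ cyc Ω m) := by
      rw [← cyc_sup_cyc_of_coprime hΩ hm hl hml, ← sup_assoc, sup_comm]
    have hs' : L ⊔ cyc Ω m = cyc Ω m ⊔ L := sup_comm _ _
    rw [hs, e2, hs', e1, finrank_cyc hΩ hm, finrank_cyc hΩ hl,
      finrank_cyc hΩ (mul_ne_zero hm hl), Nat.totient_mul hml]
    ring
  exact hL.inf_eq_bot

omit hΩ in
theorem cyc_one : cyc Ω 1 = ⊥ := by
  rw [cyc, eq_bot_iff, adjoin_le_iff]
  intro x hx
  have hx1 : x = 1 := by simpa using hx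
  rw [hx1]
  exact one_mem _

/-- **Cyclotomic avoidance.**  For every finite `L/ℚ` inside `Ω`, every `n ≠ 0`, every bound `B`
and every `k` there is a set `s` of `k` primes `l ≡ 1 mod n`, `l > B`, with
`L ∩ ℚ(ζ_m) = ℚ` for `m = ∏_{l ∈ s} l`. -/
theorem exists_primes_disjoint (L : IntermediateField ℚ Ω) [FiniteDimensional ℚ L]
    {n : ℕ} (hn : n ≠ 0) (B : ℕ) (k : ℕ) :
    ∃ s : Finset ℕ, s.card = k ∧ (∀ l ∈ s, l.Prime ∧ B < l ∧ l ≡ 1 [MOD n]) ∧
      L ⊓ cyc Ω (∏ l ∈ s, l) = ⊥ := by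
  induction k with
  | zero =>
    refine ⟨∅, rfl, by simp, ?_⟩
    rw [Finset.prod_empty, cyc_one, inf_bot_eq]
  | succ k ih =>
    obtain ⟨s, hcard, hs, hdisj⟩ := ih
    set m := ∏ l ∈ s, l with hm_def
    have hm : m ≠ 0 := Finset.prod_ne_zero_iff.2 fun l hl => (hs l hl).1.ne_zero
    have := finiteDimensional_cyc hΩ hm
    have hfd : FiniteDimensional ℚ (L ⊔ cyc Ω m : IntermediateField ℚ Ω) :=
      IntermediateField.finiteDimensional_sup L (cyc Ω m)
    have hbad := finite_bad_primes hΩ (L ⊔ cyc Ω m)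
    obtain ⟨C, hC⟩ := (hbad.union s.finite_toSet).bddAbove
    obtain ⟨l, hl, hlgt, hl1⟩ := Nat.exists_prime_gt_modEq_one (max B C) hn
    have hlB : B < l := lt_of_le_of_lt (le_max_left _ _) hlgt
    have hlC : C < l := lt_of_le_of_lt (le_max_right _ _) hlgt
    have hls : l ∉ s := fun h => absurd (hC (Or.inr h)) (not_le.2 hlC)
    have hlbad : (L ⊔ cyc Ω m) ⊓ cyc Ω l = ⊥ := by
      by_contra h
      exact absurd (hC (Or.inl ⟨hl, h⟩)) (not_le.2 hlC)
    have hcop : m.Coprime l := by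
      rw [Nat.coprime_comm, hl.coprime_iff_not_dvd, hm_def,
        (Nat.prime_iff.1 hl).dvd_finsetProd_iff]
      rintro ⟨l', hl', hdvd⟩
      have := (Nat.prime_dvd_prime_iff_eq hl (hs l' hl').1).1 hdvd
      exact hls (this ▸ hl')
    refine ⟨insert l s, ?_, ?_, ?_⟩
    · rw [Finset.card_insert_of_notMem hls, hcard]
    · intro l' hl'
      rcases Finset.mem_insert.1 hl' with rfl | h
      · exact ⟨hl, hlB, hl1⟩
      · exact hs l' h
    · rw [Finset.prod_insert hls, mul_comm]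
      exact inf_cyc_mul_eq_bot hΩ L hm hl.ne_zero hcop hdisj hlbad

end withRoots

/-! ### Counting elements of order divisible by `n` -/

section Counting

/-- The number of elements of `G` whose order is **not** divisible by `n`. -/
noncomputable def badCard (n : ℕ) (G : Type*) [Monoid G] : ℕ :=
  Nat.card {x : G // ¬ n ∣ orderOf x}

/-- The number of elements of `G` whose order is divisible by `n`. -/
noncomputable def goodCard (n : ℕ) (G : Type*) [Monoid G] : ℕ :=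
  Nat.card {x : G // n ∣ orderOf x}

theorem goodCard_add_badCard (n : ℕ) (G : Type*) [Monoid G] [Finite G] :
    goodCard n G + badCard n G = Nat.card G := by
  classical
  have := Fintype.ofFinite G
  rw [goodCard, badCard, Nat.card_eq_fintype_card, Nat.card_eq_fintype_card,
    Nat.card_eq_fintype_card, Fintype.card_subtype_compl, ← Nat.add_sub_assoc
      (Fintype.card_subtype_le _), Nat.add_sub_cancel_left]

theorem badCard_le_card (n : ℕ) (G : Type*) [Monoid G] [Finite G] : badCard n G ≤ Nat.card G := by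
  rw [← goodCard_add_badCard n G]
  exact Nat.le_add_left _ _

theorem badCard_congr {G H : Type*} [Monoid G] [Monoid H] (e : G ≃* H) (n : ℕ) :
    badCard n G = badCard n H :=
  Nat.card_congr (e.toEquiv.subtypeEquiv fun x => by
    rw [MulEquiv.toEquiv_eq_coe, MulEquiv.coe_toEquiv, MulEquiv.orderOf_eq])

theorem goodCard_congr {G H : Type*} [Monoid G] [Monoid H] (e : G ≃* H) (n : ℕ) :
    goodCard n G = goodCard n H :=
  Nat.card_congr (e.toEquiv.subtypeEquiv fun x => by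
    rw [MulEquiv.toEquiv_eq_coe, MulEquiv.coe_toEquiv, MulEquiv.orderOf_eq])

theorem badCard_prod_le (n : ℕ) (G H : Type*) [Monoid G] [Monoid H] [Finite G] [Finite H] :
    badCard n (G × H) ≤ badCard n G * badCard n H := by
  rw [badCard, badCard, badCard, ← Nat.card_prod]
  refine Nat.card_le_card_of_injective
    (fun x => (⟨x.1.1, fun h => x.2 ?_⟩, ⟨x.1.2, fun h => x.2 ?_⟩)) ?_
  · rw [Prod.orderOf]
    exact h.trans (Nat.dvd_lcm_left _ _)
  · rw [Prod.orderOf]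
    exact h.trans (Nat.dvd_lcm_right _ _)
  · rintro ⟨⟨a, b⟩, hab⟩ ⟨⟨a', b'⟩, hab'⟩ h
    simp only [Prod.mk.injEq, Subtype.mk.injEq] at h
    obtain ⟨rfl, rfl⟩ := h
    rfl

/-- In a finite cyclic group whose order is divisible by `n`, at least `1/n` of the elements
have order divisible by `n`. -/
theorem card_le_mul_goodCard_of_isCyclic {n : ℕ} (hn : n ≠ 0) (G : Type*) [Group G] [Finite G]
    [IsCyclic G] (hdvd : n ∣ Nat.card G) : Nat.card G ≤ n * goodCard n G := by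
  obtain ⟨t, ht⟩ := hdvd
  obtain ⟨g, hg⟩ := IsCyclic.exists_generator (α := G)
  have hord : orderOf g = n * t := by
    rw [orderOf_eq_card_of_forall_mem_zpowers hg, ht]
  have hN : n * t ≠ 0 := by
    rw [← ht]; exact Nat.card_pos.ne'
  have ht0 : t ≠ 0 := fun h => hN (by rw [h, mul_zero])
  rw [ht]
  refine Nat.mul_le_mul_left n ?_
  have hgood : ∀ i : Fin t, n ∣ orderOf (g ^ (1 + n * (i : ℕ))) := by
    intro i
    rw [orderOf_pow' g (by omega), hord]
    set d := Nat.gcd (n * t) (1 + n * (i : ℕ)) with hd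
    have hd1 : d ∣ n * t := Nat.gcd_dvd_left _ _
    have hd2 : d ∣ 1 + n * (i : ℕ) := Nat.gcd_dvd_right _ _
    have hcop : Nat.Coprime d n := by
      apply Nat.Coprime.coprime_dvd_left hd2
      rw [Nat.coprime_comm]
      simp
    have hdt : d ∣ t := hcop.dvd_of_dvd_mul_left hd1
    obtain ⟨c, hc⟩ := hdt
    have hd0 : d ≠ 0 := fun h => ht0 (by rw [hc, h, zero_mul])
    refine ⟨c, ?_⟩
    rw [hc, ← mul_assoc, mul_comm n d, mul_assoc, Nat.mul_div_cancel_left _ (Nat.pos_of_ne_zero hd0)]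
  have hcard : t = Nat.card (Fin t) := by simp
  rw [hcard, goodCard]
  refine Nat.card_le_card_of_injective (fun i => ⟨g ^ (1 + n * (i : ℕ)), hgood i⟩) ?_
  intro i j hij
  simp only [Subtype.mk.injEq] at hij
  rw [pow_inj_mod, hord] at hij
  have h1 : 1 + n * (i : ℕ) ≡ 1 + n * (j : ℕ) [MOD n * t] := hij
  have h2 : n * (i : ℕ) ≡ n * (j : ℕ) [MOD n * t] := Nat.ModEq.add_left_cancel' 1 h1
  have h3 : (i : ℕ) ≡ (j : ℕ) [MOD t] := Nat.ModEq.mul_left_cancel' hn h2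
  exact Fin.ext (h3.eq_of_lt_of_lt i.2 j.2)

theorem mul_badCard_le_of_isCyclic {n : ℕ} (hn : n ≠ 0) (G : Type*) [Group G] [Finite G]
    [IsCyclic G] (hdvd : n ∣ Nat.card G) : n * badCard n G ≤ (n - 1) * Nat.card G := by
  have h1 := card_le_mul_goodCard_of_isCyclic hn G hdvd
  have h2 := goodCard_add_badCard n G
  obtain ⟨n', rfl⟩ := Nat.exists_eq_succ_of_ne_zero hn
  rw [← h2] at h1 ⊢
  simp only [Nat.succ_eq_add_one, Nat.add_sub_cancel] at h1 ⊢
  nlinarith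

theorem mul_badCard_zmod_prime_le {n l : ℕ} (hn : n ≠ 0) (hl : l.Prime) (hl1 : l ≡ 1 [MOD n]) :
    n * badCard n (ZMod l)ˣ ≤ (n - 1) * l.totient := by
  have : Fact l.Prime := ⟨hl⟩
  have hcard : Nat.card (ZMod l)ˣ = l.totient := by
    rw [Nat.card_eq_fintype_card, ZMod.card_units_eq_totient]
  rw [← hcard]
  apply mul_badCard_le_of_isCyclic hn
  rw [hcard, Nat.totient_prime hl]
  exact (Nat.modEq_iff_dvd' hl.one_le).1 hl1.symm

/-- CRT on unit groups. -/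
noncomputable def unitsChineseRemainder {a b : ℕ} (h : a.Coprime b) :
    (ZMod (a * b))ˣ ≃* (ZMod a)ˣ × (ZMod b)ˣ :=
  (Units.mapEquiv (ZMod.chineseRemainder h).toMulEquiv).trans MulEquiv.prodUnits

theorem badCard_zmod_mul_le (n : ℕ) {a b : ℕ} (ha : a ≠ 0) (hb : b ≠ 0) (h : a.Coprime b) :
    badCard n (ZMod (a * b))ˣ ≤ badCard n (ZMod a)ˣ * badCard n (ZMod b)ˣ := by
  have : NeZero a := ⟨ha⟩
  have : NeZero b := ⟨hb⟩
  rw [badCard_congr (unitsChineseRemainder h)]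
  exact badCard_prod_le n _ _

theorem pow_mul_badCard_le {n : ℕ} (hn : n ≠ 0) (s : Finset ℕ)
    (hs : ∀ l ∈ s, l.Prime ∧ l ≡ 1 [MOD n]) :
    n ^ s.card * badCard n (ZMod (∏ l ∈ s, l))ˣ ≤ (n - 1) ^ s.card * (∏ l ∈ s, l).totient := by
  classical
  induction s using Finset.induction_on with
  | empty =>
    simp only [Finset.card_empty, pow_zero, one_mul, Finset.prod_empty, Nat.totient_one]
    refine (badCard_le_card n (ZMod 1)ˣ).trans ?_
    rw [Nat.card_eq_fintype_card, ZMod.card_units_eq_totient, Nat.totient_one]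
  | insert l s hl ih =>
    have hs' : ∀ l ∈ s, l.Prime ∧ l ≡ 1 [MOD n] := fun l' h' => hs l' (Finset.mem_insert_of_mem h')
    have ih' := ih hs'
    obtain ⟨hlp, hl1⟩ := hs l (Finset.mem_insert_self l s)
    set m := ∏ l ∈ s, l with hm_def
    have hm : m ≠ 0 := Finset.prod_ne_zero_iff.2 fun l' h' => (hs' l' h').1.ne_zero
    have hcop : l.Coprime m := by
      rw [hlp.coprime_iff_not_dvd, hm_def, (Nat.prime_iff.1 hlp).dvd_finsetProd_iff]
      rintro ⟨l', hl', hdvd⟩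
      have := (Nat.prime_dvd_prime_iff_eq hlp (hs' l' hl').1).1 hdvd
      exact hl (this ▸ hl')
    rw [Finset.prod_insert hl, Finset.card_insert_of_notMem hl, Nat.totient_mul hcop]
    have h1 := mul_badCard_zmod_prime_le hn hlp hl1
    have h2 := badCard_zmod_mul_le n hlp.ne_zero hm hcop
    calc n ^ (s.card + 1) * badCard n (ZMod (l * m))ˣ
        ≤ n ^ (s.card + 1) * (badCard n (ZMod l)ˣ * badCard n (ZMod m)ˣ) :=
          Nat.mul_le_mul_left _ h2
      _ = (n * badCard n (ZMod l)ˣ) * (n ^ s.card * badCard n (ZMod m)ˣ) := by ring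
      _ ≤ ((n - 1) * l.totient) * ((n - 1) ^ s.card * m.totient) := Nat.mul_le_mul h1 ih'
      _ = (n - 1) ^ (s.card + 1) * (l.totient * m.totient) := by ring

theorem card_units_zmod (m : ℕ) [NeZero m] : Nat.card (ZMod m)ˣ = m.totient := by
  rw [Nat.card_eq_fintype_card, ZMod.card_units_eq_totient]

/-- Real form of the counting bound: for `m` a product of `k` distinct primes `≡ 1 mod n`, at least
`(1 - (1 - 1/n)^k) φ(m)` of the `τ ∈ (ℤ/m)ˣ` have order divisible by `n`. -/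
theorem goodCard_ge {n : ℕ} (hn : n ≠ 0) (s : Finset ℕ)
    (hs : ∀ l ∈ s, l.Prime ∧ l ≡ 1 [MOD n]) :
    (1 - (1 - 1 / (n : ℝ)) ^ s.card) * ((∏ l ∈ s, l).totient : ℝ) ≤
      (goodCard n (ZMod (∏ l ∈ s, l))ˣ : ℝ) := by
  set m := ∏ l ∈ s, l with hm_def
  have hm : m ≠ 0 := Finset.prod_ne_zero_iff.2 fun l' h' => (hs l' h').1.ne_zero
  have : NeZero m := ⟨hm⟩
  have h1 := pow_mul_badCard_le hn s hs
  rw [← hm_def] at h1
  have h2 := goodCard_add_badCard n (ZMod m)ˣ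
  rw [card_units_zmod] at h2
  have h1' : (n : ℝ) ^ s.card * (badCard n (ZMod m)ˣ : ℝ) ≤
      ((n : ℝ) - 1) ^ s.card * (m.totient : ℝ) := by
    have := (Nat.cast_le (α := ℝ)).2 h1
    push_cast [Nat.cast_pred (Nat.pos_of_ne_zero hn)] at this
    exact this
  have h2' : (goodCard n (ZMod m)ˣ : ℝ) + (badCard n (ZMod m)ˣ : ℝ) = (m.totient : ℝ) := by
    exact_mod_cast h2
  have hnpos : (0 : ℝ) < n := by exact_mod_cast Nat.pos_of_ne_zero hn
  have hpow : (0 : ℝ) < (n : ℝ) ^ s.card := pow_pos hnpos _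
  have hb : (badCard n (ZMod m)ˣ : ℝ) ≤ (1 - 1 / (n : ℝ)) ^ s.card * (m.totient : ℝ) := by
    have e : (1 - 1 / (n : ℝ)) = ((n : ℝ) - 1) / n := by field_simp
    rw [e, div_pow, div_mul_eq_mul_div, le_div_iff₀ hpow, mul_comm]
    exact h1'
  linarith

end Counting

/-- **(D1) CYCLO-DISJOINT, packaged.**  For every finite `L/ℚ` inside `Ω`, every `n ≠ 0`, every
bound `B` and every `ε > 0` there is a squarefree modulus `m > B`, all of whose prime factors
are `> B` and `≡ 1 mod n`, with `L ∩ ℚ(ζ_m) = ℚ` and such that at least `(1 - ε) φ(m)` of the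
`τ ∈ (ℤ/m)ˣ` have order divisible by `n`. -/
theorem exists_modulus (hΩ : HasAllRoots Ω) (L : IntermediateField ℚ Ω) [FiniteDimensional ℚ L]
    {n : ℕ} (hn : n ≠ 0) (B : ℕ) {ε : ℝ} (hε : 0 < ε) :
    ∃ m : ℕ, B < m ∧ Squarefree m ∧ (∀ p : ℕ, p.Prime → p ∣ m → B < p ∧ p ≡ 1 [MOD n]) ∧
      L ⊓ cyc Ω m = ⊥ ∧
      (1 - ε) * (m.totient : ℝ) ≤ (Nat.card {τ : (ZMod m)ˣ // n ∣ orderOf τ} : ℝ) := by
  have hnpos : (0 : ℝ) < n := by exact_mod_cast Nat.pos_of_ne_zero hn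
  have hx1 : (1 - 1 / (n : ℝ)) < 1 := by
    have : (0 : ℝ) < 1 / n := by positivity
    linarith
  have hx0 : (0 : ℝ) ≤ 1 - 1 / (n : ℝ) := by
    have : (1 : ℝ) ≤ n := by exact_mod_cast Nat.pos_of_ne_zero hn
    have : 1 / (n : ℝ) ≤ 1 := by
      rw [div_le_one hnpos]; exact this
    linarith
  obtain ⟨k, hk⟩ := exists_pow_lt_of_lt_one hε hx1
  obtain ⟨s, hcard, hs, hdisj⟩ := exists_primes_disjoint hΩ L hn B (k + 1)
  have hs' : ∀ l ∈ s, l.Prime ∧ l ≡ 1 [MOD n] := fun l hl => ⟨(hs l hl).1, (hs l hl).2.2⟩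
  refine ⟨∏ l ∈ s, l, ?_, ?_, ?_, hdisj, ?_⟩
  · have hne : s.Nonempty := by
      rw [← Finset.card_pos, hcard]; omega
    obtain ⟨l, hl⟩ := hne
    have h1 : l ∣ ∏ l ∈ s, l := Finset.dvd_prod_of_mem _ hl
    have hpos : 0 < ∏ l ∈ s, l :=
      Finset.prod_pos fun l' h' => (hs l' h').1.pos
    exact lt_of_lt_of_le (hs l hl).2.1 (Nat.le_of_dvd hpos h1)
  · refine Finset.squarefree_prod_of_pairwise_isCoprime (fun p hp q hq hpq => ?_)
      fun p hp => (hs p hp).1.squarefree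
    simp only [Function.onFun, ← Nat.coprime_iff_isRelPrime]
    exact (Nat.coprime_primes (hs p hp).1 (hs q hq).1).2 hpq
  · intro p hp hdvd
    rw [(Nat.prime_iff.1 hp).dvd_finsetProd_iff] at hdvd
    obtain ⟨l, hl, hpl⟩ := hdvd
    have := (Nat.prime_dvd_prime_iff_eq hp (hs l hl).1).1 hpl
    rw [this]
    exact (hs l hl).2
  · have hg := goodCard_ge hn s hs'
    rw [hcard] at hg
    have hφ : (0 : ℝ) ≤ ((∏ l ∈ s, l).totient : ℝ) := Nat.cast_nonneg _
    have hpow : (1 - 1 / (n : ℝ)) ^ (k + 1) ≤ ε := by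
      calc (1 - 1 / (n : ℝ)) ^ (k + 1) = (1 - 1 / (n : ℝ)) ^ k * (1 - 1 / (n : ℝ)) := pow_succ _ _
        _ ≤ (1 - 1 / (n : ℝ)) ^ k * 1 :=
            mul_le_mul_of_nonneg_left hx1.le (pow_nonneg hx0 _)
        _ = (1 - 1 / (n : ℝ)) ^ k := mul_one _
        _ ≤ ε := hk.le
    refine le_trans ?_ hg
    exact mul_le_mul_of_nonneg_right (by linarith) hφ

/-- The algebraically closed case, e.g. `Ω = AlgebraicClosure ℚ` or `ℂ`. -/
theorem exists_modulus_of_isAlgClosed [IsAlgClosed Ω] (L : IntermediateField ℚ Ω)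
    [FiniteDimensional ℚ L] {n : ℕ} (hn : n ≠ 0) (B : ℕ) {ε : ℝ} (hε : 0 < ε) :
    ∃ m : ℕ, B < m ∧ Squarefree m ∧ (∀ p : ℕ, p.Prime → p ∣ m → B < p ∧ p ≡ 1 [MOD n]) ∧
      L ⊓ cyc Ω m = ⊥ ∧
      (1 - ε) * (m.totient : ℝ) ≤ (Nat.card {τ : (ZMod m)ˣ // n ∣ orderOf τ} : ℝ) :=
  exists_modulus (hasAllRoots_of_isAlgClosed Ω) L hn B hε

end Fermat.Agent.DS.N8.CycloDisjoint
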