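/-
S48-(N8)-(D1), `Γ_m = (ℤ/m)ˣ/{±1}` form (helper3), per the N8 contract (board 3363, (R4)).
Mathlib + `DS/N8/CycloDisjoint` only.
-/
import Mathlib
import Fermat.Agent.DS.N8.CycloDisjoint

set_option autoImplicit false

namespace Fermat.Agent.DS.N8.CycloDisjointPM

open Fermat.Agent.DS.N8.CycloDisjoint

/-- If every element of the normal subgroup `Z` squares to `1`, then `2n ∣ ord x` implies
`n ∣ ord (x mod Z)`. -/
theorem dvd_orderOf_mk {G : Type*} [Group G] (Z : Subgroup G) [Z.Normal]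
    (hZ : ∀ z ∈ Z, z ^ 2 = 1) {n : ℕ} {x : G} (hx : 2 * n ∣ orderOf x) :
    n ∣ orderOf (x : G ⧸ Z) := by
  set r := orderOf (x : G ⧸ Z) with hr
  have h1 : ((x ^ r : G) : G ⧸ Z) = 1 := by
    rw [QuotientGroup.mk_pow, hr, pow_orderOf_eq_one]
  have h2 : x ^ r ∈ Z := (QuotientGroup.eq_one_iff _).1 h1
  have h3 : x ^ (r * 2) = 1 := by
    rw [pow_mul]; exact hZ _ h2
  have h4 : orderOf x ∣ r * 2 := orderOf_dvd_of_pow_eq_one h3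
  have h5 : 2 * n ∣ 2 * r := by
    rw [mul_comm 2 r]; exact hx.trans h4
  exact Nat.dvd_of_mul_dvd_mul_left (by norm_num) h5

theorem goodCard_two_mul_le {G : Type*} [Group G] [Finite G] (Z : Subgroup G) [Z.Normal]
    (hZ : ∀ z ∈ Z, z ^ 2 = 1) (n : ℕ) :
    goodCard (2 * n) G ≤ Nat.card Z * goodCard n (G ⧸ Z) := by
  set t : Set (G ⧸ Z) := {y | n ∣ orderOf y} with ht
  have h1 : Nat.card (QuotientGroup.mk ⁻¹' t : Set G) = Nat.card Z * Nat.card t := by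
    rw [← Nat.card_prod]
    exact Nat.card_congr (QuotientGroup.preimageMkEquivSubgroupProdSet Z t)
  have h2 : goodCard n (G ⧸ Z) = Nat.card t := rfl
  rw [h2, ← h1, goodCard]
  refine Nat.card_le_card_of_injective (fun x => ⟨x.1, dvd_orderOf_mk Z hZ x.2⟩) ?_
  intro x y hxy
  simp only [Subtype.mk.injEq] at hxy
  exact Subtype.ext hxy

theorem sq_eq_one_of_mem_zpowers_neg_one {G : Type*} [Group G] [HasDistribNeg G] (z : G)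
    (hz : z ∈ Subgroup.zpowers (-1 : G)) : z ^ 2 = 1 := by
  obtain ⟨k, rfl⟩ := Subgroup.mem_zpowers_iff.1 hz
  rw [← zpow_natCast, ← zpow_mul, mul_comm, zpow_mul, zpow_natCast]
  simp

variable {Ω : Type*} [Field Ω] [CharZero Ω]

/-- **(D1) in `Γ_m = (ℤ/m)ˣ/{±1}` form.**  For every finite `L/ℚ` inside `Ω`, `n ≠ 0`, bound `B`,
`ε > 0` there is a squarefree `m > max B 2`, all of whose prime factors are `> B` and
`≡ 1 mod 2n`, with `L ∩ ℚ(ζ_m) = ℚ` and such that at least `(1 - ε) |Γ_m|` of the `τ ∈ Γ_m` have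
order divisible by `n`.  (The quotient below is the reducible unfolding of
`DS.N8b.NormPM.GammaPM m`.) -/
theorem exists_modulus_PM (hΩ : HasAllRoots Ω) (L : IntermediateField ℚ Ω)
    [FiniteDimensional ℚ L] {n : ℕ} (hn : n ≠ 0) (B : ℕ) {ε : ℝ} (hε : 0 < ε) :
    ∃ m : ℕ, B < m ∧ 2 < m ∧ Squarefree m ∧
      (∀ p : ℕ, p.Prime → p ∣ m → B < p ∧ p ≡ 1 [MOD 2 * n]) ∧
      L ⊓ cyc Ω m = ⊥ ∧
      (1 - ε) * (Nat.card ((ZMod m)ˣ ⧸ Subgroup.zpowers (-1 : (ZMod m)ˣ)) : ℝ) ≤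
        (Nat.card {τ : (ZMod m)ˣ ⧸ Subgroup.zpowers (-1 : (ZMod m)ˣ) // n ∣ orderOf τ} : ℝ) := by
  have h2n : 2 * n ≠ 0 := by omega
  obtain ⟨m, hBm, hsq, hp, hdisj, hcount⟩ := exists_modulus hΩ L h2n (max B 2) hε
  have hB : B < m := lt_of_le_of_lt (le_max_left _ _) hBm
  have h2 : 2 < m := lt_of_le_of_lt (le_max_right _ _) hBm
  refine ⟨m, hB, h2, hsq, fun p hpp hpm => ⟨lt_of_le_of_lt (le_max_left _ _) (hp p hpp hpm).1,
    (hp p hpp hpm).2⟩, hdisj, ?_⟩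
  have : NeZero m := ⟨by omega⟩
  set Z : Subgroup (ZMod m)ˣ := Subgroup.zpowers (-1 : (ZMod m)ˣ) with hZdef
  have hZ : ∀ z ∈ Z, z ^ 2 = 1 := fun z hz => sq_eq_one_of_mem_zpowers_neg_one z hz
  have hcard : Nat.card (ZMod m)ˣ = Nat.card ((ZMod m)ˣ ⧸ Z) * Nat.card Z :=
    Subgroup.card_eq_card_quotient_mul_card_subgroup Z
  have hgood := goodCard_two_mul_le Z hZ n
  have hφ : (m.totient : ℝ) = (Nat.card ((ZMod m)ˣ ⧸ Z) : ℝ) * (Nat.card Z : ℝ) := by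
    rw [← card_units_zmod m, hcard]; push_cast; ring
  have hgood' : (goodCard (2 * n) (ZMod m)ˣ : ℝ) ≤
      (Nat.card Z : ℝ) * (goodCard n ((ZMod m)ˣ ⧸ Z) : ℝ) := by
    exact_mod_cast hgood
  have hcount' : (1 - ε) * (m.totient : ℝ) ≤ (goodCard (2 * n) (ZMod m)ˣ : ℝ) := hcount
  have hZpos : (0 : ℝ) < (Nat.card Z : ℝ) := by
    exact_mod_cast Nat.card_pos
  change (1 - ε) * (Nat.card ((ZMod m)ˣ ⧸ Z) : ℝ) ≤ (goodCard n ((ZMod m)ˣ ⧸ Z) : ℝ)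
  rw [hφ] at hcount'
  have h3 : (Nat.card Z : ℝ) * ((1 - ε) * (Nat.card ((ZMod m)ˣ ⧸ Z) : ℝ)) ≤
      (Nat.card Z : ℝ) * (goodCard n ((ZMod m)ˣ ⧸ Z) : ℝ) := by
    calc (Nat.card Z : ℝ) * ((1 - ε) * (Nat.card ((ZMod m)ˣ ⧸ Z) : ℝ))
        = (1 - ε) * ((Nat.card ((ZMod m)ˣ ⧸ Z) : ℝ) * (Nat.card Z : ℝ)) := by ring
      _ ≤ (goodCard (2 * n) (ZMod m)ˣ : ℝ) := hcount'
      _ ≤ _ := hgood'
  exact le_of_mul_le_mul_left h3 hZpos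

/-- The algebraically closed case, e.g. `Ω = AlgebraicClosure ℚ` or `ℂ`. -/
theorem exists_modulus_PM_of_isAlgClosed [IsAlgClosed Ω] (L : IntermediateField ℚ Ω)
    [FiniteDimensional ℚ L] {n : ℕ} (hn : n ≠ 0) (B : ℕ) {ε : ℝ} (hε : 0 < ε) :
    ∃ m : ℕ, B < m ∧ 2 < m ∧ Squarefree m ∧
      (∀ p : ℕ, p.Prime → p ∣ m → B < p ∧ p ≡ 1 [MOD 2 * n]) ∧
      L ⊓ cyc Ω m = ⊥ ∧
      (1 - ε) * (Nat.card ((ZMod m)ˣ ⧸ Subgroup.zpowers (-1 : (ZMod m)ˣ)) : ℝ) ≤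
        (Nat.card {τ : (ZMod m)ˣ ⧸ Subgroup.zpowers (-1 : (ZMod m)ˣ) // n ∣ orderOf τ} : ℝ) :=
  exists_modulus_PM (hasAllRoots_of_isAlgClosed Ω) L hn B hε

end Fermat.Agent.DS.N8.CycloDisjointPM
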