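/-
GATE-N / S48-(N8)-(D3) (helper1), file 5: discharge of `ChebInputs` from
  * D1 in `Γ_m`-form (helper3, `CycloDisjointPM.exists_modulus_PM_of_isAlgClosed`, on main), and
  * the crossing theorem in its final rational form (`CrossFinalStmt`, the announced output shape of
    helper82's `DS/N8/CrossFinal.lean`), taken here as a hypothesis.
-/
import Mathlib
import Fermat.Agent.DS.N8.ChebAdapter
import Fermat.Agent.DS.N8.CycloDisjointPM

set_option autoImplicit false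

open NumberField
open Fermat.Agent.Common_helper32

namespace Fermat.Agent.DS.N8

/-- The final crossing statement over `ℚ` (D2c): for `E ⊆ ℚ̄` finite Galois, `m` with
`E ∩ ℚ(ζ_m) = ℚ`, `σ ∈ Gal(E/ℚ)` and `τ ∈ Γ_m = (ℤ/m)ˣ/{±1}` with `ord σ ∣ ord τ`, the primes `p`
with `[p] = τ` and Frobenius class `[σ]` have lower density `≥ |class σ| / (|G| |Γ_m|)`. -/
def CrossFinalStmt : Prop :=
  ∀ (E : IntermediateField ℚ Qb) [FiniteDimensional ℚ E] [IsGalois ℚ E] (m : ℕ), 2 < m →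
    Squarefree m → E ⊓ CycloDisjoint.cyc Qb m = ⊥ →
    ∀ (σ : E ≃ₐ[ℚ] E) (τ : (ZMod m)ˣ ⧸ Subgroup.zpowers (-1 : (ZMod m)ˣ)),
      orderOf σ ∣ orderOf τ →
      ∃ Cst δ : ℝ, 0 < δ ∧ ∀ s : ℝ, 1 < s → s < 1 + δ →
        ∃ T : Finset ℕ,
          (∀ p ∈ T, p.Prime ∧
            (∃ u : (ZMod m)ˣ, (u : ZMod m) = (p : ZMod m) ∧
              (QuotientGroup.mk u : (ZMod m)ˣ ⧸ Subgroup.zpowers (-1 : (ZMod m)ˣ)) = τ) ∧
            ∃ g, IsConj σ g ∧ FrobAt E p g) ∧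
          ((Nat.card (ConjClasses.mk σ).carrier : ℝ) /
              ((Nat.card (E ≃ₐ[ℚ] E) : ℝ) *
                (Nat.card ((ZMod m)ˣ ⧸ Subgroup.zpowers (-1 : (ZMod m)ˣ)) : ℝ))) *
              Real.log (1 / (s - 1)) - Cst ≤
            ∑ p ∈ T, (p : ℝ) ^ (-s)

open Classical in
/-- The class of a rational prime in `Γ_m` (junk value `1` when `p ∣ m`). -/
noncomputable def clsPM (m : ℕ) (p : ℕ) : (ZMod m)ˣ ⧸ Subgroup.zpowers (-1 : (ZMod m)ˣ) :=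
  if h : ∃ u : (ZMod m)ˣ, (u : ZMod m) = (p : ZMod m) then QuotientGroup.mk h.choose else 1

theorem clsPM_eq {m p : ℕ} {u : (ZMod m)ˣ} (hu : (u : ZMod m) = (p : ZMod m)) :
    clsPM m p = QuotientGroup.mk u := by
  have h : ∃ u : (ZMod m)ˣ, (u : ZMod m) = (p : ZMod m) := ⟨u, hu⟩
  rw [clsPM, dif_pos h]
  congr 1
  exact Units.ext (h.choose_spec.trans hu.symm)

/-- `ChebInputs` from D1 (on main) and the final crossing statement. -/
theorem chebInputs_of_crossFinal (h : CrossFinalStmt) : ChebInputs := by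
  intro E _ _ σ ε hε
  obtain ⟨m, -, h2, hsq, -, hdisj, hcount⟩ :=
    CycloDisjointPM.exists_modulus_PM_of_isAlgClosed (Ω := Qb) E (n := orderOf σ)
      (orderOf_pos σ).ne' 0 hε
  have : NeZero m := ⟨by omega⟩
  refine ⟨(ZMod m)ˣ ⧸ Subgroup.zpowers (-1 : (ZMod m)ˣ), inferInstance, inferInstance,
    clsPM m, hcount, fun τ hτ => ?_⟩
  obtain ⟨Cst, δ, hδ, H⟩ := h E m h2 hsq hdisj σ τ hτ
  refine ⟨Cst, δ, hδ, fun s hs1 hs2 => ?_⟩
  obtain ⟨T, hT, hsum⟩ := H s hs1 hs2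
  refine ⟨T, fun p hp => ?_, hsum⟩
  obtain ⟨hpp, ⟨u, hu, huτ⟩, hg⟩ := hT p hp
  exact ⟨hpp, (clsPM_eq hu).trans huτ, hg⟩

end Fermat.Agent.DS.N8
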