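/-
S48 / (N8d2b) CROSS-GALOIS (helper55).  Mathlib only.

Galois theory of a compositum, in the form used by the crossing step of Chebotarev's theorem.
`L/K` finite Galois, `E P : IntermediateField K L` both Galois over `K`, `E ⊔ P = ⊤`.

* `resProd E P : Gal(L/K) →* Gal(E/K) × Gal(P/K)` (the two restrictions), INJECTIVE;
* BIJECTIVE when moreover `E ⊓ P = ⊥` (linear disjointness);
* for `γ ↦ (σ, τ)` with `orderOf σ ∣ orderOf τ`: `orderOf γ = orderOf τ` and the restriction to `P`
  is injective on `zpowers γ` (`γ ^ j|_P = 1 → γ ^ j = 1`);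
* conjugacy: `IsConj γ γ' ↔ IsConj σ σ' ∧ IsConj τ τ'`; centraliser count
  `#Cent(γ) = #Cent(σ) * #Cent(τ)` (so `= #Cent(σ) * #Gal(P/K)` when `Gal(P/K)` is commutative).
-/
import Mathlib

set_option autoImplicit false

open IntermediateField

namespace Fermat.Agent.DS.N8.CrossGalois

variable {K L : Type*} [Field K] [Field L] [Algebra K L]
variable (E P : IntermediateField K L) [Normal K E] [Normal K P]

/-- the two restrictions -/
noncomputable def resProd : (L ≃ₐ[K] L) →* (E ≃ₐ[K] E) × (P ≃ₐ[K] P) :=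
  (AlgEquiv.restrictNormalHom E).prod (AlgEquiv.restrictNormalHom P)

@[simp] theorem resProd_fst (γ : L ≃ₐ[K] L) : (resProd E P γ).1 = AlgEquiv.restrictNormalHom E γ :=
  rfl

@[simp] theorem resProd_snd (γ : L ≃ₐ[K] L) : (resProd E P γ).2 = AlgEquiv.restrictNormalHom P γ :=
  rfl

variable {E P}

/-- **(G2a)** the restriction to both factors of a compositum is injective -/
theorem resProd_injective (hsup : E ⊔ P = ⊤) : Function.Injective (resProd E P) := by
  rw [injective_iff_map_eq_one]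
  intro γ hγ
  have h1 : γ ∈ (AlgEquiv.restrictNormalHom E).ker := by
    rw [MonoidHom.mem_ker]
    exact congrArg Prod.fst hγ
  have h2 : γ ∈ (AlgEquiv.restrictNormalHom P).ker := by
    rw [MonoidHom.mem_ker]
    exact congrArg Prod.snd hγ
  rw [IntermediateField.restrictNormalHom_ker] at h1 h2
  have h3 : γ ∈ (E ⊔ P).fixingSubgroup := by
    rw [IntermediateField.fixingSubgroup_sup]
    exact ⟨h1, h2⟩
  rw [hsup, IntermediateField.fixingSubgroup_top] at h3
  exact h3

/-- **(G2b)** for linearly disjoint Galois factors the restriction is bijective -/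
theorem resProd_bijective [FiniteDimensional K L] [IsGalois K L] [IsGalois K E] [IsGalois K P]
    (hsup : E ⊔ P = ⊤) (hinf : E ⊓ P = ⊥) : Function.Bijective (resProd E P) := by
  have : FiniteDimensional K E := inferInstance
  have : FiniteDimensional K P := inferInstance
  have hld : E.LinearDisjoint P := IntermediateField.LinearDisjoint.of_inf_eq_bot hinf
  have hcard : Nat.card (L ≃ₐ[K] L) = Nat.card ((E ≃ₐ[K] E) × (P ≃ₐ[K] P)) := by
    rw [Nat.card_prod, IsGalois.card_aut_eq_finrank, IsGalois.card_aut_eq_finrank,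
      IsGalois.card_aut_eq_finrank, ← hld.finrank_sup, hsup, IntermediateField.finrank_top']
  have : Finite (L ≃ₐ[K] L) := inferInstance
  have : Finite ((E ≃ₐ[K] E) × (P ≃ₐ[K] P)) := inferInstance
  exact (Nat.bijective_iff_injective_and_card _).mpr ⟨resProd_injective hsup, hcard⟩

/-- **(G3a)** order of `γ ↦ (σ, τ)` when `orderOf σ ∣ orderOf τ` -/
theorem orderOf_eq_of_dvd (hsup : E ⊔ P = ⊤) (γ : L ≃ₐ[K] L)
    (h : orderOf (AlgEquiv.restrictNormalHom E γ) ∣ orderOf (AlgEquiv.restrictNormalHom P γ)) :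
    orderOf γ = orderOf (AlgEquiv.restrictNormalHom P γ) := by
  rw [← orderOf_injective (resProd E P) (resProd_injective hsup) γ, Prod.orderOf]
  exact Nat.lcm_eq_right_iff_dvd.mpr h

/-- **(G3b)** the restriction to `P` is injective on `zpowers γ` when `orderOf σ ∣ orderOf τ` -/
theorem pow_eq_one_of_restrict (hsup : E ⊔ P = ⊤) (γ : L ≃ₐ[K] L)
    (h : orderOf (AlgEquiv.restrictNormalHom E γ) ∣ orderOf (AlgEquiv.restrictNormalHom P γ))
    (j : ℕ) (hj : AlgEquiv.restrictNormalHom P (γ ^ j) = 1) : γ ^ j = 1 := by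
  rw [map_pow] at hj
  have h1 : orderOf (AlgEquiv.restrictNormalHom P γ) ∣ j := orderOf_dvd_of_pow_eq_one hj
  have h2 : (AlgEquiv.restrictNormalHom E γ) ^ j = 1 :=
    orderOf_dvd_iff_pow_eq_one.mp (h.trans h1)
  apply resProd_injective hsup
  rw [map_one, map_pow]
  exact Prod.ext (by simpa using h2) (by simpa using hj)

/-- `zpowers` version of (G3b) -/
theorem eq_one_of_mem_zpowers_of_restrict [Finite (L ≃ₐ[K] L)] (hsup : E ⊔ P = ⊤) (γ : L ≃ₐ[K] L)
    (h : orderOf (AlgEquiv.restrictNormalHom E γ) ∣ orderOf (AlgEquiv.restrictNormalHom P γ))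
    {g : L ≃ₐ[K] L} (hg : g ∈ Subgroup.zpowers γ) (hgP : AlgEquiv.restrictNormalHom P g = 1) :
    g = 1 := by
  rw [← mem_powers_iff_mem_zpowers, Submonoid.mem_powers_iff] at hg
  obtain ⟨j, rfl⟩ := hg
  exact pow_eq_one_of_restrict hsup γ h j hgP

/-- **(G4a)** conjugacy in `Gal(L/K)` is componentwise conjugacy when `resProd` is bijective -/
theorem isConj_iff_restrict (hbij : Function.Bijective (resProd E P)) (γ γ' : L ≃ₐ[K] L) :
    IsConj γ γ' ↔ IsConj (AlgEquiv.restrictNormalHom E γ) (AlgEquiv.restrictNormalHom E γ') ∧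
      IsConj (AlgEquiv.restrictNormalHom P γ) (AlgEquiv.restrictNormalHom P γ') := by
  constructor
  · intro h
    exact ⟨MonoidHom.map_isConj _ h, MonoidHom.map_isConj _ h⟩
  · rintro ⟨ha, hb⟩
    obtain ⟨a, ha⟩ := isConj_iff.mp ha
    obtain ⟨b, hb⟩ := isConj_iff.mp hb
    obtain ⟨c, hc⟩ := hbij.2 (a, b)
    have hc1 : AlgEquiv.restrictNormalHom E c = a := congrArg Prod.fst hc
    have hc2 : AlgEquiv.restrictNormalHom P c = b := congrArg Prod.snd hc
    refine isConj_iff.mpr ⟨c, hbij.1 ?_⟩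
    refine Prod.ext ?_ ?_
    · simp only [map_mul, map_inv, resProd_fst, Prod.fst_mul, Prod.fst_inv, hc1, ha]
    · simp only [map_mul, map_inv, resProd_snd, Prod.snd_mul, Prod.snd_inv, hc2, hb]

/-- **(G3c)** with `F = L^⟨γ⟩` and `orderOf σ ∣ orderOf τ`: `L = F ⊔ P`, i.e. `L/F` is a
sub-extension of `F·P / F` (so it is "cyclotomic over `F`" when `P` is cyclotomic over `K`) -/
theorem fixedField_zpowers_sup [FiniteDimensional K L] [IsGalois K L] (hsup : E ⊔ P = ⊤)
    (γ : L ≃ₐ[K] L)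
    (h : orderOf (AlgEquiv.restrictNormalHom E γ) ∣ orderOf (AlgEquiv.restrictNormalHom P γ)) :
    IntermediateField.fixedField (Subgroup.zpowers γ) ⊔ P = ⊤ := by
  have h1 : (IntermediateField.fixedField (Subgroup.zpowers γ) ⊔ P).fixingSubgroup = ⊥ := by
    rw [IntermediateField.fixingSubgroup_sup, IntermediateField.fixingSubgroup_fixedField,
      Subgroup.eq_bot_iff_forall]
    rintro g ⟨hg1, hg2⟩
    have hg2' : g ∈ (AlgEquiv.restrictNormalHom P).ker := by
      rw [IntermediateField.restrictNormalHom_ker]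
      exact hg2
    exact eq_one_of_mem_zpowers_of_restrict hsup γ h hg1 (MonoidHom.mem_ker.mp hg2')
  rw [← IsGalois.fixedField_fixingSubgroup
    (IntermediateField.fixedField (Subgroup.zpowers γ) ⊔ P), h1,
    IntermediateField.fixedField_bot]

/-! ### transporters (pure group theory) -/

section Transporter

variable {G : Type*} [Group G]

/-- if `c` conjugates `σ₀` to `σ`, the transporter `{g | g σ₀ g⁻¹ = σ}` is a coset of the
centraliser of `σ` -/
noncomputable def transporterEquiv {σ₀ σ c : G} (hc : c * σ₀ * c⁻¹ = σ) :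
    {g : G // g * σ₀ * g⁻¹ = σ} ≃ {g : G // g * σ * g⁻¹ = σ} where
  toFun g := ⟨g.1 * c⁻¹, by
    have h1 : g.1 * σ₀ * (g.1)⁻¹ = σ := g.2
    calc g.1 * c⁻¹ * σ * (g.1 * c⁻¹)⁻¹ = g.1 * c⁻¹ * (c * σ₀ * c⁻¹) * (g.1 * c⁻¹)⁻¹ := by rw [hc]
      _ = g.1 * σ₀ * (g.1)⁻¹ := by group
      _ = σ := h1⟩
  invFun g := ⟨g.1 * c, by
    have h1 : g.1 * σ * (g.1)⁻¹ = σ := g.2
    calc g.1 * c * σ₀ * (g.1 * c)⁻¹ = g.1 * (c * σ₀ * c⁻¹) * (g.1)⁻¹ := by group
      _ = σ := by rw [hc, h1]⟩
  left_inv g := by ext; simp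
  right_inv g := by ext; simp

theorem card_transporter_of_isConj {σ₀ σ : G} (h : IsConj σ₀ σ) :
    Nat.card {g : G // g * σ₀ * g⁻¹ = σ} = Nat.card {g : G // g * σ * g⁻¹ = σ} := by
  obtain ⟨c, hc⟩ := isConj_iff.mp h
  exact Nat.card_congr (transporterEquiv hc)

theorem card_transporter_of_not_isConj {σ₀ σ : G} (h : ¬ IsConj σ₀ σ) :
    Nat.card {g : G // g * σ₀ * g⁻¹ = σ} = 0 := by
  have : IsEmpty {g : G // g * σ₀ * g⁻¹ = σ} := ⟨fun g => h (isConj_iff.mpr ⟨g.1, g.2⟩)⟩
  exact Nat.card_of_isEmpty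

/-- in a commutative group the transporter is everything or nothing -/
theorem card_transporter_of_comm (hcomm : ∀ a b : G, a * b = b * a) (σ₀ σ : G)
    [Decidable (σ₀ = σ)] :
    Nat.card {g : G // g * σ₀ * g⁻¹ = σ} = if σ₀ = σ then Nat.card G else 0 := by
  have key : ∀ g : G, g * σ₀ * g⁻¹ = σ₀ := fun g => by
    rw [hcomm g σ₀, mul_assoc, mul_inv_cancel, mul_one]
  split_ifs with h
  · subst h
    exact Nat.card_congr (Equiv.subtypeUnivEquiv key)
  · have : IsEmpty {g : G // g * σ₀ * g⁻¹ = σ} := ⟨fun g => h ((key g.1).symm.trans g.2)⟩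
    exact Nat.card_of_isEmpty

theorem card_transporter_self_of_comm (hcomm : ∀ a b : G, a * b = b * a) (σ : G) :
    Nat.card {g : G // g * σ * g⁻¹ = σ} = Nat.card G := by
  classical
  rw [card_transporter_of_comm hcomm, if_pos rfl]

/-- orbit–stabiliser for conjugation, in transporter form -/
theorem card_centralizer_mul_card_class [Finite G] (σ : G) :
    Nat.card {g : G // g * σ * g⁻¹ = σ} * Nat.card {τ : G // IsConj σ τ} = Nat.card G := by
  classical
  have hc : ∀ τ : {τ : G // IsConj σ τ}, ∃ c : G, c * σ * c⁻¹ = τ.1 := fun τ => isConj_iff.mp τ.2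
  choose c hc using hc
  let e : G ≃ {g : G // g * σ * g⁻¹ = σ} × {τ : G // IsConj σ τ} :=
    { toFun := fun g =>
        (⟨(c ⟨g * σ * g⁻¹, isConj_iff.mpr ⟨g, rfl⟩⟩)⁻¹ * g, by
          have h1 := hc ⟨g * σ * g⁻¹, isConj_iff.mpr ⟨g, rfl⟩⟩
          simp only at h1
          generalize c ⟨g * σ * g⁻¹, isConj_iff.mpr ⟨g, rfl⟩⟩ = d at h1
          calc d⁻¹ * g * σ * (d⁻¹ * g)⁻¹ = d⁻¹ * (g * σ * g⁻¹) * d := by group
            _ = d⁻¹ * (d * σ * d⁻¹) * d := by rw [h1]
            _ = σ := by group⟩, ⟨g * σ * g⁻¹, isConj_iff.mpr ⟨g, rfl⟩⟩)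
      invFun := fun x => c x.2 * x.1.1
      left_inv := fun g => by simp
      right_inv := fun x => by
        obtain ⟨⟨z, hz⟩, τ⟩ := x
        have h2 : c τ * z * σ * (c τ * z)⁻¹ = τ.1 := by
          calc c τ * z * σ * (c τ * z)⁻¹ = c τ * (z * σ * z⁻¹) * (c τ)⁻¹ := by group
            _ = τ.1 := by rw [hz, hc τ]
        have h3 : (⟨c τ * z * σ * (c τ * z)⁻¹, isConj_iff.mpr ⟨c τ * z, rfl⟩⟩ :
            {τ : G // IsConj σ τ}) = τ := Subtype.ext h2
        refine Prod.ext (Subtype.ext ?_) ?_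
        · simp only [h3]
          group
        · exact h3 }
  rw [← Nat.card_prod]
  exact (Nat.card_congr e).symm

end Transporter

/-- **(G4b)** transporters in `Gal(L/K)` are products of transporters when `resProd` is bijective -/
theorem card_transporter (hbij : Function.Bijective (resProd E P)) (γ₀ γ : L ≃ₐ[K] L) :
    Nat.card {g : L ≃ₐ[K] L // g * γ₀ * g⁻¹ = γ} =
      Nat.card {a : E ≃ₐ[K] E // a * AlgEquiv.restrictNormalHom E γ₀ * a⁻¹ =
        AlgEquiv.restrictNormalHom E γ} *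
      Nat.card {b : P ≃ₐ[K] P // b * AlgEquiv.restrictNormalHom P γ₀ * b⁻¹ =
        AlgEquiv.restrictNormalHom P γ} := by
  rw [← Nat.card_prod]
  refine Nat.card_congr (((Equiv.ofBijective _ hbij).subtypeEquiv ?_).trans
    (Equiv.subtypeProdEquivProd (p := fun a => a * AlgEquiv.restrictNormalHom E γ₀ * a⁻¹ =
        AlgEquiv.restrictNormalHom E γ) (q := fun b => b * AlgEquiv.restrictNormalHom P γ₀ * b⁻¹ =
        AlgEquiv.restrictNormalHom P γ)))
  intro g
  constructor
  · intro h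
    subst h
    simp
  · rintro ⟨h1, h2⟩
    apply hbij.1
    refine Prod.ext ?_ ?_
    · simpa using h1
    · simpa using h2

/-- **(G4c)** the centraliser count used by the crossing step: `Gal(P/K)` commutative -/
theorem card_centralizer (hbij : Function.Bijective (resProd E P))
    (hcomm : ∀ a b : P ≃ₐ[K] P, a * b = b * a) (γ : L ≃ₐ[K] L) :
    Nat.card {g : L ≃ₐ[K] L // g * γ * g⁻¹ = γ} =
      Nat.card {a : E ≃ₐ[K] E // a * AlgEquiv.restrictNormalHom E γ * a⁻¹ =
        AlgEquiv.restrictNormalHom E γ} * Nat.card (P ≃ₐ[K] P) := by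
  rw [card_transporter hbij, card_transporter_self_of_comm hcomm]

end Fermat.Agent.DS.N8.CrossGalois
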