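/-
S48 / (N8d2c) CROSS-CONST (helper55).  The constant of the crossing step.

`M/K` finite Galois, `E P : IntermediateField K M` Galois over `K` with `resProd E P` bijective
(`M = E·P`, `E ∩ P = K`) and `Gal(P/K)` commutative; `γ ∈ Gal(M/K)`, `σ = γ|_E`:

  `1 / #Cent(γ) = #class(σ) / (#Gal(E/K) * #Gal(P/K))`.

Plus transport of class cardinalities along a `MulEquiv`.  Mathlib + `CrossGalois` only.
-/
import Mathlib
import Fermat.Agent.DS.N8.CrossGalois

set_option autoImplicit false

namespace Fermat.Agent.DS.N8.CrossConst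

open Fermat.Agent.DS.N8.CrossGalois

section Group

variable {G H : Type*} [Group G] [Group H]

/-- the centraliser of `γ`, in transporter form -/
theorem card_centralizer_eq_card_transporter (γ : G) :
    Nat.card (Subgroup.centralizer ({γ} : Set G)) = Nat.card {g : G // g * γ * g⁻¹ = γ} := by
  refine Nat.card_congr (Equiv.subtypeEquivRight fun g => ?_)
  rw [Subgroup.mem_centralizer_singleton_iff, mul_inv_eq_iff_eq_mul]

/-- the conjugacy class of `σ`, as a subtype -/
theorem card_carrier_eq_card_isConj (σ : G) :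
    Nat.card (ConjClasses.mk σ).carrier = Nat.card {τ : G // IsConj σ τ} := by
  refine Nat.card_congr (Equiv.subtypeEquivRight fun τ => ?_)
  rw [ConjClasses.mem_carrier_iff_mk_eq, ConjClasses.mk_eq_mk_iff_isConj]
  exact isConj_comm

/-- `#Cent(σ) * #class(σ) = #G` -/
theorem card_centralizer_mul_card_carrier [Finite G] (σ : G) :
    Nat.card (Subgroup.centralizer ({σ} : Set G)) * Nat.card (ConjClasses.mk σ).carrier =
      Nat.card G := by
  rw [card_centralizer_eq_card_transporter, card_carrier_eq_card_isConj,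
    card_centralizer_mul_card_class]

/-- class cardinalities are invariant under group isomorphisms -/
theorem card_carrier_map (e : G ≃* H) (σ : G) :
    Nat.card (ConjClasses.mk (e σ)).carrier = Nat.card (ConjClasses.mk σ).carrier := by
  rw [card_carrier_eq_card_isConj, card_carrier_eq_card_isConj]
  refine (Nat.card_congr (e.toEquiv.subtypeEquiv fun τ => ?_)).symm
  constructor
  · exact fun h => e.toMonoidHom.map_isConj h
  · intro h
    have := e.symm.toMonoidHom.map_isConj h
    simpa using this

/-- centraliser cardinalities are invariant under group isomorphisms -/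
theorem card_centralizer_map (e : G ≃* H) (σ : G) :
    Nat.card (Subgroup.centralizer ({e σ} : Set H)) =
      Nat.card (Subgroup.centralizer ({σ} : Set G)) := by
  rw [card_centralizer_eq_card_transporter, card_centralizer_eq_card_transporter]
  refine (Nat.card_congr (e.toEquiv.subtypeEquiv fun g => ?_)).symm
  show g * σ * g⁻¹ = σ ↔ e g * e σ * (e g)⁻¹ = e σ
  rw [← map_inv, ← map_mul, ← map_mul, e.apply_eq_iff_eq]

end Group

variable {K M : Type*} [Field K] [Field M] [Algebra K M]
  {E P : IntermediateField K M} [Normal K E] [Normal K P]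

/-- `#Cent(γ) = #Cent(γ|_E) * #Gal(P/K)` in `Subgroup.centralizer` form -/
theorem card_centralizer_eq (hbij : Function.Bijective (resProd E P))
    (hcomm : ∀ a b : P ≃ₐ[K] P, a * b = b * a) (γ : M ≃ₐ[K] M) :
    Nat.card (Subgroup.centralizer ({γ} : Set (M ≃ₐ[K] M))) =
      Nat.card (Subgroup.centralizer
        ({AlgEquiv.restrictNormalHom E γ} : Set (E ≃ₐ[K] E))) * Nat.card (P ≃ₐ[K] P) := by
  rw [card_centralizer_eq_card_transporter, card_centralizer_eq_card_transporter,
    card_centralizer hbij hcomm]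

/-- **the constant of the crossing step** -/
theorem one_div_card_centralizer_eq [Finite (E ≃ₐ[K] E)] [Finite (P ≃ₐ[K] P)]
    (hbij : Function.Bijective (resProd E P))
    (hcomm : ∀ a b : P ≃ₐ[K] P, a * b = b * a) (γ : M ≃ₐ[K] M) :
    (1 : ℝ) / (Nat.card (Subgroup.centralizer ({γ} : Set (M ≃ₐ[K] M))) : ℝ) =
      (Nat.card (ConjClasses.mk (AlgEquiv.restrictNormalHom E γ)).carrier : ℝ) /
        ((Nat.card (E ≃ₐ[K] E) : ℝ) * (Nat.card (P ≃ₐ[K] P) : ℝ)) := by
  rw [card_centralizer_eq hbij hcomm,
    ← card_centralizer_mul_card_carrier (AlgEquiv.restrictNormalHom E γ)]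
  have h1 : (0 : ℝ) < (Nat.card (Subgroup.centralizer
      ({AlgEquiv.restrictNormalHom E γ} : Set (E ≃ₐ[K] E))) : ℝ) := by
    exact_mod_cast Nat.card_pos
  have h2 : (0 : ℝ) < (Nat.card (P ≃ₐ[K] P) : ℝ) := by exact_mod_cast Nat.card_pos
  have h3 : (0 : ℝ) < (Nat.card (ConjClasses.mk (AlgEquiv.restrictNormalHom E γ)).carrier : ℝ) := by
    have : Nonempty (ConjClasses.mk (AlgEquiv.restrictNormalHom E γ)).carrier :=
      ⟨⟨_, ConjClasses.mem_carrier_mk⟩⟩
    exact_mod_cast Nat.card_pos
  push_cast
  field_simp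

end Fermat.Agent.DS.N8.CrossConst
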