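/-
GATE-N / S48-(N8d2) CROSSING (helper82), blueprint helper55 (board 3291, node D2).

General-`γ` form of Chebotarev's crossing step, pure algebra on top of `GJ/Frob/Alg` and
`S14/Artin`:

`K` a number field, `M/K` finite Galois, `γ ∈ Gal(M/K)`, `F := M^⟨γ⟩`, `gammaF γ ∈ Gal(M/F)` the
element `γ` itself.  For a nonzero prime `𝔭` of `K` unramified in `M`:

* `frobPrimes γ 𝔭`  : primes `P` of `M` over `𝔭` whose Frobenius element (over `K`) is `γ`;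
* `crossPrimes γ 𝔭` : primes `q` of `F` over `𝔭` of residue degree one over `K` such that some
  prime `P` of `M` over `q` has Frobenius element (over `F`) equal to `γ`.

(X1) `P ↦ P ∩ 𝓞 F` is a bijection `frobPrimes γ 𝔭 → crossPrimes γ 𝔭`;
(X2) if `frobPrimes γ 𝔭` is nonempty, it has `|Cent(γ)| / ord(γ)` elements;
(X3) hence `#crossPrimes γ 𝔭 * ord γ = |Cent γ|` or `0`, and `N q = N 𝔭` on `crossPrimes`.
-/
import Mathlib
import Fermat.Agent.GJ.Frob.Alg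
import Fermat.Agent.S14.Artin

set_option autoImplicit false
set_option linter.unusedSectionVars false

open NumberField IntermediateField
open scoped Pointwise

namespace Fermat.Agent.DS.N8.Crossing

open Fermat.Agent.S14 Fermat.Agent.S14.CR Fermat.Agent.GJ.FrobAlg

variable {K M : Type*} [Field K] [NumberField K] [Field M] [NumberField M] [Algebra K M]
  [IsGalois K M]

/-- The fixed field of the cyclic group generated by `γ`. -/
abbrev crossField (γ : M ≃ₐ[K] M) : IntermediateField K M :=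
  fixedField (Subgroup.zpowers γ)

theorem mem_fixingSubgroup_crossField (γ : M ≃ₐ[K] M) :
    γ ∈ (crossField γ).fixingSubgroup := by
  rw [fixingSubgroup_fixedField]
  exact Subgroup.mem_zpowers γ

/-- `γ`, seen as an element of `Gal(M/F)`, `F = M^⟨γ⟩`. -/
noncomputable def gammaF (γ : M ≃ₐ[K] M) : M ≃ₐ[crossField γ] M :=
  fixingSubgroupEquiv (crossField γ) ⟨γ, mem_fixingSubgroup_crossField γ⟩

@[simp]
theorem gammaF_apply (γ : M ≃ₐ[K] M) (x : M) : gammaF γ x = γ x := rfl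

theorem gammaF_restrictScalars (γ : M ≃ₐ[K] M) : (gammaF γ).restrictScalars K = γ := by
  ext x
  rfl

/-- Every element of `Gal(M/F)` is a power of `γ`. -/
theorem restrictScalars_mem_zpowers (γ : M ≃ₐ[K] M) (t : M ≃ₐ[crossField γ] M) :
    t.restrictScalars K ∈ Subgroup.zpowers γ := by
  have h : t.restrictScalars K ∈ (crossField γ).fixingSubgroup := by
    rw [IntermediateField.mem_fixingSubgroup_iff]
    intro x hx
    exact t.commutes ⟨x, hx⟩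
  rwa [fixingSubgroup_fixedField] at h

/-- Primes of `M` over `𝔭` with Frobenius element `γ`. -/
def frobPrimes (γ : M ≃ₐ[K] M) (𝔭 : Ideal (𝓞 K)) : Set (Ideal (𝓞 M)) :=
  {P | P.IsPrime ∧ P.under (𝓞 K) = 𝔭 ∧ IsArithFrobAt (𝓞 K) γ P}

/-- Degree one primes `q` of `F = M^⟨γ⟩` over `𝔭` whose Frobenius element in `Gal(M/F)` is `γ`. -/
def crossPrimes (γ : M ≃ₐ[K] M) (𝔭 : Ideal (𝓞 K)) : Set (Ideal (𝓞 (crossField γ))) :=
  {q | q.IsPrime ∧ q.under (𝓞 K) = 𝔭 ∧ q.inertiaDeg (𝓞 K) = 1 ∧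
    ∃ P : Ideal (𝓞 M), P.IsPrime ∧ P.under (𝓞 (crossField γ)) = q ∧
      IsArithFrobAt (𝓞 (crossField γ)) (gammaF γ) P}

omit [IsGalois K M] in
theorem ne_bot_of_under_ne_bot {F : Type*} [Field F] [NumberField F] [Algebra F M]
    (P : Ideal (𝓞 M)) (h : P.under (𝓞 F) ≠ ⊥) : P ≠ ⊥ := by
  rintro rfl
  apply h
  rw [Ideal.under_def, Ideal.comap_bot_of_injective]
  exact RingOfIntegers.algebraMap.injective F M

section X1

variable (γ : M ≃ₐ[K] M) {𝔭 : Ideal (𝓞 K)}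

theorem under_mem_crossPrimes (h𝔭 : 𝔭 ≠ ⊥)
    (hunr : ∀ P : Ideal (𝓞 M), P.IsPrime → P.under (𝓞 K) = 𝔭 → P.inertia (M ≃ₐ[K] M) = ⊥)
    {P : Ideal (𝓞 M)} (hP : P ∈ frobPrimes γ 𝔭) :
    P.under (𝓞 (crossField γ)) ∈ crossPrimes γ 𝔭 := by
  obtain ⟨hPp, hPu, hF⟩ := hP
  have hP0 : P ≠ ⊥ := ne_bot_of_under_ne_bot (F := K) P (hPu ▸ h𝔭)
  have hI := hunr P hPp hPu
  refine ⟨inferInstance, ?_, ?_, P, hPp, rfl, ?_⟩
  · rw [Ideal.under_under, hPu]
  · exact (mem_iff_inertiaDeg_fixedField (Subgroup.zpowers γ) P hP0 hI hF).mp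
      (Subgroup.mem_zpowers γ)
  · apply isArithFrobAt_of_restrictScalars (K := K) hP0
    rw [gammaF_restrictScalars]
    exact hF

theorem mem_frobPrimes_of_crossPrimes
    {q : Ideal (𝓞 (crossField γ))} (hq : q ∈ crossPrimes γ 𝔭) (h𝔭 : 𝔭 ≠ ⊥) :
    ∃ P ∈ frobPrimes γ 𝔭, P.under (𝓞 (crossField γ)) = q := by
  obtain ⟨hqp, hqu, hdeg, P, hPp, hPq, hF⟩ := hq
  have hq0 : q ≠ ⊥ := ne_bot_of_under_ne_bot (F := K) q (hqu ▸ h𝔭)
  have hPuK : P.under (𝓞 K) = 𝔭 := by rw [← hqu, ← hPq, Ideal.under_under]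
  refine ⟨P, ⟨hPp, hPuK, ?_⟩, hPq⟩
  have hN : Ideal.absNorm (P.under (𝓞 (crossField γ))) = Ideal.absNorm (P.under (𝓞 K)) := by
    rw [hPq, hPuK, ← hqu]
    exact (absNorm_eq_absNorm_under_iff (F := K) q hq0).mpr hdeg
  have := isArithFrobAt_restrictScalars_of_absNorm_eq (F := K) hF hN
  rwa [gammaF_restrictScalars] at this

/-- Two primes of `M` with Frobenius `γ` over the same prime of `F = M^⟨γ⟩` coincide. -/
theorem eq_of_under_eq {P P' : Ideal (𝓞 M)} (hP : P ∈ frobPrimes γ 𝔭)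
    (hP' : P' ∈ frobPrimes γ 𝔭)
    (h : P.under (𝓞 (crossField γ)) = P'.under (𝓞 (crossField γ))) : P = P' := by
  obtain ⟨hPp, hPu, hF⟩ := hP
  obtain ⟨hPp', -, -⟩ := hP'
  obtain ⟨t, ht⟩ := Algebra.IsInvariant.exists_smul_of_under_eq (𝓞 (crossField γ)) (𝓞 M)
    (M ≃ₐ[crossField γ] M) P P' h
  have hmem := restrictScalars_mem_zpowers γ t
  have hstab : Subgroup.zpowers γ ≤ MulAction.stabilizer (M ≃ₐ[K] M) P :=
    Subgroup.zpowers_le.mpr hF.mem_stabilizer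
  have h1 : (t.restrictScalars K) • P = P := MulAction.mem_stabilizer_iff.mp (hstab hmem)
  have h2 : (t.restrictScalars K) • P = t • P := rfl
  rw [ht, ← h2, h1]

theorem bijOn_under (h𝔭 : 𝔭 ≠ ⊥)
    (hunr : ∀ P : Ideal (𝓞 M), P.IsPrime → P.under (𝓞 K) = 𝔭 → P.inertia (M ≃ₐ[K] M) = ⊥) :
    Set.BijOn (fun P : Ideal (𝓞 M) => P.under (𝓞 (crossField γ)))
      (frobPrimes γ 𝔭) (crossPrimes γ 𝔭) := by
  refine ⟨fun P hP => under_mem_crossPrimes γ h𝔭 hunr hP,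
    fun P hP P' hP' h => eq_of_under_eq γ hP hP' h, fun q hq => ?_⟩
  obtain ⟨P, hP, hPq⟩ := mem_frobPrimes_of_crossPrimes γ hq h𝔭
  exact ⟨P, hP, hPq⟩

end X1

section X2

variable (γ : M ≃ₐ[K] M) {𝔭 : Ideal (𝓞 K)}

/-- At an unramified prime the decomposition group is generated by the Frobenius element. -/
theorem stabilizer_eq_zpowers {P : Ideal (𝓞 M)} [P.IsPrime] (hP0 : P ≠ ⊥)
    (hI : P.inertia (M ≃ₐ[K] M) = ⊥) (hF : IsArithFrobAt (𝓞 K) γ P) :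
    MulAction.stabilizer (M ≃ₐ[K] M) P = Subgroup.zpowers γ := by
  symm
  apply Subgroup.eq_of_le_of_card_ge (Subgroup.zpowers_le.mpr hF.mem_stabilizer)
  rw [card_stabilizer_eq_inertiaDeg P hI, Nat.card_zpowers, orderOf_eq_inertiaDeg hP0 hI hF]

/-- The primes with Frobenius `γ` over `𝔭` form one orbit under the centralizer of `γ`. -/
theorem frobPrimes_eq_orbit
    (hunr : ∀ P : Ideal (𝓞 M), P.IsPrime → P.under (𝓞 K) = 𝔭 → P.inertia (M ≃ₐ[K] M) = ⊥)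
    {P₀ : Ideal (𝓞 M)} (hP₀ : P₀ ∈ frobPrimes γ 𝔭) :
    frobPrimes γ 𝔭 = MulAction.orbit (Subgroup.centralizer {γ}) P₀ := by
  obtain ⟨hP₀p, hP₀u, hF₀⟩ := hP₀
  ext P
  constructor
  · rintro ⟨hPp, hPu, hF⟩
    obtain ⟨g, hg⟩ := Algebra.IsInvariant.exists_smul_of_under_eq (𝓞 K) (𝓞 M) (M ≃ₐ[K] M)
      P₀ P (hP₀u.trans hPu.symm)
    have hconj := hF₀.conj g
    rw [← hg] at hconj
    have heq : γ = g * γ * g⁻¹ := isArithFrobAt_unique (hunr P hPp hPu) hF hconj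
    refine ⟨⟨g, ?_⟩, hg.symm⟩
    rw [Subgroup.mem_centralizer_iff]
    intro x hx
    rw [Set.mem_singleton_iff] at hx
    subst hx
    calc x * g = (g * x * g⁻¹) * g := by rw [← heq]
      _ = g * x := by group
  · rintro ⟨⟨g, hg⟩, rfl⟩
    have hcomm : g * γ * g⁻¹ = γ := by
      rw [Subgroup.mem_centralizer_iff] at hg
      have := hg γ rfl
      rw [← this]
      group
    refine ⟨?_, ?_, ?_⟩
    · show (g • P₀).IsPrime
      infer_instance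
    · show (g • P₀).under (𝓞 K) = 𝔭
      rw [Ideal.under_smul, hP₀u]
    · have := hF₀.conj g
      rwa [hcomm] at this

/-- (X2) If some prime over the unramified prime `𝔭` has Frobenius element `γ`, there are exactly
`|Cent γ| / ord γ` of them. -/
theorem card_frobPrimes_mul_orderOf (h𝔭 : 𝔭 ≠ ⊥)
    (hunr : ∀ P : Ideal (𝓞 M), P.IsPrime → P.under (𝓞 K) = 𝔭 → P.inertia (M ≃ₐ[K] M) = ⊥)
    (hne : (frobPrimes γ 𝔭).Nonempty) :
    Nat.card (frobPrimes γ 𝔭) * orderOf γ = Nat.card (Subgroup.centralizer {γ}) := by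
  obtain ⟨P₀, hP₀⟩ := hne
  have hP₀' := hP₀
  obtain ⟨hP₀p, hP₀u, hF₀⟩ := hP₀'
  have hP₀0 : P₀ ≠ ⊥ := ne_bot_of_under_ne_bot (F := K) P₀ (hP₀u ▸ h𝔭)
  have hstab := stabilizer_eq_zpowers γ hP₀0 (hunr P₀ hP₀p hP₀u) hF₀
  rw [frobPrimes_eq_orbit γ hunr hP₀]
  set C := Subgroup.centralizer ({γ} : Set (M ≃ₐ[K] M)) with hC
  have h1 : Nat.card (MulAction.orbit C P₀) =
      Nat.card (C ⧸ MulAction.stabilizer C P₀) :=
    Nat.card_congr (MulAction.orbitEquivQuotientStabilizer C P₀)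
  have h2 : Nat.card (MulAction.stabilizer C P₀) = orderOf γ := by
    rw [← Nat.card_zpowers]
    refine Nat.card_congr ⟨fun c => ⟨(c : C), ?_⟩, fun z => ⟨⟨z, ?_⟩, ?_⟩, ?_, ?_⟩
    · rw [← hstab]
      exact c.2
    · rw [hC, Subgroup.mem_centralizer_iff]
      intro x hx
      rw [Set.mem_singleton_iff] at hx
      subst hx
      obtain ⟨k, hk⟩ := z.2
      rw [← hk]
      exact (Commute.zpow_right (Commute.refl x) k).eq
    · rw [MulAction.mem_stabilizer_iff]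
      have : (z : M ≃ₐ[K] M) ∈ MulAction.stabilizer (M ≃ₐ[K] M) P₀ := by
        rw [hstab]; exact z.2
      exact this
    · intro c; rfl
    · intro z; rfl
  rw [h1, ← h2]
  exact (Subgroup.card_eq_card_quotient_mul_card_subgroup _).symm

/-- (X3) Counting the degree one primes of `F = M^⟨γ⟩` over `𝔭` with Frobenius `γ`. -/
theorem card_crossPrimes_mul_orderOf (h𝔭 : 𝔭 ≠ ⊥)
    (hunr : ∀ P : Ideal (𝓞 M), P.IsPrime → P.under (𝓞 K) = 𝔭 → P.inertia (M ≃ₐ[K] M) = ⊥)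
    (hne : (frobPrimes γ 𝔭).Nonempty) :
    Nat.card (crossPrimes γ 𝔭) * orderOf γ = Nat.card (Subgroup.centralizer {γ}) := by
  rw [← card_frobPrimes_mul_orderOf γ h𝔭 hunr hne]
  congr 1
  exact (Nat.card_congr (Set.BijOn.equiv _ (bijOn_under γ h𝔭 hunr))).symm

theorem crossPrimes_eq_empty (h𝔭 : 𝔭 ≠ ⊥) (hne : ¬ (frobPrimes γ 𝔭).Nonempty) :
    crossPrimes γ 𝔭 = ∅ := by
  rw [Set.eq_empty_iff_forall_notMem]
  intro q hq
  obtain ⟨P, hP, -⟩ := mem_frobPrimes_of_crossPrimes γ hq h𝔭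
  exact hne ⟨P, hP⟩

/-- On `crossPrimes` the absolute norm is that of the prime below. -/
theorem absNorm_eq_of_mem_crossPrimes (h𝔭 : 𝔭 ≠ ⊥) {q : Ideal (𝓞 (crossField γ))}
    (hq : q ∈ crossPrimes γ 𝔭) : Ideal.absNorm q = Ideal.absNorm 𝔭 := by
  obtain ⟨hqp, hqu, hdeg, -⟩ := hq
  have hq0 : q ≠ ⊥ := ne_bot_of_under_ne_bot (F := K) q (hqu ▸ h𝔭)
  rw [← hqu]
  exact (absNorm_eq_absNorm_under_iff (F := K) q hq0).mpr hdeg

theorem finite_frobPrimes (h𝔭 : 𝔭 ≠ ⊥) : (frobPrimes γ 𝔭).Finite := by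
  by_cases hp : 𝔭.IsPrime
  · have hmax : 𝔭.IsMaximal := Ideal.IsPrime.isMaximal hp h𝔭
    have hfin : (Ideal.primesOver 𝔭 (𝓞 M)).Finite := IsDedekindDomain.primesOver_finite 𝔭 (𝓞 M)
    refine hfin.subset ?_
    rintro P ⟨hPp, hPu, -⟩
    exact ⟨hPp, ⟨hPu.symm⟩⟩
  · convert Set.finite_empty
    rw [Set.eq_empty_iff_forall_notMem]
    rintro P ⟨hPp, hPu, -⟩
    exact hp (hPu ▸ inferInstance)

theorem finite_crossPrimes (h𝔭 : 𝔭 ≠ ⊥) : (crossPrimes γ 𝔭).Finite := by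
  by_cases hp : 𝔭.IsPrime
  · have hmax : 𝔭.IsMaximal := Ideal.IsPrime.isMaximal hp h𝔭
    have hfin : (Ideal.primesOver 𝔭 (𝓞 (crossField γ))).Finite :=
      IsDedekindDomain.primesOver_finite 𝔭 (𝓞 (crossField γ))
    refine hfin.subset ?_
    rintro q ⟨hqp, hqu, -⟩
    exact ⟨hqp, ⟨hqu.symm⟩⟩
  · convert Set.finite_empty
    rw [Set.eq_empty_iff_forall_notMem]
    rintro q ⟨hqp, hqu, -⟩
    exact hp (hqu ▸ inferInstance)

end X2

section Cyclotomic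

variable (γ : M ≃ₐ[K] M) {𝔭 : Ideal (𝓞 K)} {m : ℕ} {ζ : M}

omit [NumberField M] [IsGalois K M] in
theorem pow_eq_pow_iff_of_isPrimitiveRoot (hζ : IsPrimitiveRoot ζ m) (hm : 0 < m) (x y : ℕ) :
    ζ ^ x = ζ ^ y ↔ x ≡ y [MOD m] := by
  have hx : ζ ^ (x % m) = ζ ^ x := by
    conv_lhs => rw [hζ.eq_orderOf]
    exact pow_mod_orderOf ζ x
  have hy : ζ ^ (y % m) = ζ ^ y := by
    conv_lhs => rw [hζ.eq_orderOf]
    exact pow_mod_orderOf ζ y
  constructor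
  · intro h
    rw [← hx, ← hy] at h
    exact hζ.pow_inj (Nat.mod_lt x hm) (Nat.mod_lt y hm) h
  · intro h
    rw [← hx, ← hy]
    rw [Nat.ModEq] at h
    rw [h]

/-- If `M = F(ζ)` with `ζ` a primitive `m`-th root of unity and `γ ζ = ζ ^ a`, then `γ` is the
Frobenius element (over `F = M^⟨γ⟩`) at a prime `P ∤ m` of `M` iff `N(P ∩ F) ≡ a mod m`. -/
theorem isArithFrobAt_gammaF_iff (hζ : IsPrimitiveRoot ζ m)
    (hgen : ∀ t : M ≃ₐ[crossField γ] M, t ζ = ζ → t = 1) {a : ℕ} (ha : γ ζ = ζ ^ a)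
    (P : Ideal (𝓞 M)) [P.IsPrime] (hP0 : P ≠ ⊥) (hm : (m : 𝓞 M) ∉ P) :
    IsArithFrobAt (𝓞 (crossField γ)) (gammaF γ) P ↔
      Ideal.absNorm (P.under (𝓞 (crossField γ))) ≡ a [MOD m] := by
  have hm0 : m ≠ 0 := by
    rintro rfl
    exact hm (by simp)
  have hmpos : 0 < m := Nat.pos_of_ne_zero hm0
  -- the integral lift of `ζ`
  set ζ' : 𝓞 M := ⟨ζ, hζ.isIntegral hmpos⟩ with hζ'
  have hζ'pow : ζ' ^ m = 1 := by
    apply RingOfIntegers.coe_injective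
    rw [map_pow, map_one]
    exact hζ.pow_eq_one
  -- what a Frobenius element does to `ζ`
  have key : ∀ t : M ≃ₐ[crossField γ] M, IsArithFrobAt (𝓞 (crossField γ)) t P →
      t ζ = ζ ^ Ideal.absNorm (P.under (𝓞 (crossField γ))) := by
    intro t ht
    have h := ht.apply_of_pow_eq_one hζ'pow hm
    rw [CRCyc.natCard_quot_eq_absNorm, MulSemiringAction.toAlgHom_apply] at h
    have h3 : ((t • ζ' : 𝓞 M) : M) = t ζ := rfl
    have h4 : ((ζ' : 𝓞 M) : M) = ζ := rfl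
    rw [← h3, h]
    show algebraMap (𝓞 M) M (ζ' ^ _) = (algebraMap (𝓞 M) M ζ') ^ _
    exact map_pow _ _ _
  constructor
  · intro hF
    have h1 := key _ hF
    rw [gammaF_apply, ha] at h1
    exact ((pow_eq_pow_iff_of_isPrimitiveRoot hζ hmpos _ _).mp h1).symm
  · intro hmod
    have : Finite (𝓞 M ⧸ P) := Ideal.finiteQuotientOfFreeOfNeBot P hP0
    have ht : IsArithFrobAt (𝓞 (crossField γ))
        (arithFrobAt (𝓞 (crossField γ)) (M ≃ₐ[crossField γ] M) P) P :=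
      IsArithFrobAt.arithFrobAt (𝓞 (crossField γ)) (M ≃ₐ[crossField γ] M) P
    set t := arithFrobAt (𝓞 (crossField γ)) (M ≃ₐ[crossField γ] M) P with htdef
    have h1 := key t ht
    have h2 : ζ ^ Ideal.absNorm (P.under (𝓞 (crossField γ))) = ζ ^ a :=
      (pow_eq_pow_iff_of_isPrimitiveRoot hζ hmpos _ _).mpr hmod
    have h3 : ((gammaF γ)⁻¹ * t) ζ = ζ := by
      rw [AlgEquiv.mul_apply, h1, h2, ← ha, ← gammaF_apply]
      exact (gammaF γ).symm_apply_apply ζ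
    have h4 := hgen _ h3
    have h5 : t = gammaF γ := by
      have := congrArg (fun x => gammaF γ * x) h4
      simpa using this
    rw [← h5]
    exact ht

omit [IsGalois K M] in
theorem natCast_notMem_of_under {F : Type*} [Field F] [NumberField F] [Algebra F M]
    {P : Ideal (𝓞 M)} {n : ℕ} (h : (n : 𝓞 F) ∉ P.under (𝓞 F)) : (n : 𝓞 M) ∉ P := by
  intro hP
  apply h
  rw [Ideal.under_def, Ideal.mem_comap, map_natCast]
  exact hP

/-- Cyclotomic description of `crossPrimes`: the degree one primes of `F = M^⟨γ⟩` over `𝔭 ∤ m`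
whose norm is `≡ a mod m`, where `γ ζ = ζ ^ a` and `M = F(ζ)`. -/
theorem crossPrimes_eq_of_cyclotomic (hζ : IsPrimitiveRoot ζ m)
    (hgen : ∀ t : M ≃ₐ[crossField γ] M, t ζ = ζ → t = 1) {a : ℕ} (ha : γ ζ = ζ ^ a)
    (h𝔭 : 𝔭 ≠ ⊥) (hm : (m : 𝓞 K) ∉ 𝔭) :
    crossPrimes γ 𝔭 = {q : Ideal (𝓞 (crossField γ)) | q.IsPrime ∧ q.under (𝓞 K) = 𝔭 ∧
      q.inertiaDeg (𝓞 K) = 1 ∧ Ideal.absNorm q ≡ a [MOD m]} := by
  ext q
  constructor
  · rintro ⟨hqp, hqu, hdeg, P, hPp, hPq, hF⟩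
    refine ⟨hqp, hqu, hdeg, ?_⟩
    have hq0 : q ≠ ⊥ := ne_bot_of_under_ne_bot (F := K) q (hqu ▸ h𝔭)
    have hP0 : P ≠ ⊥ := ne_bot_of_under_ne_bot (F := crossField γ) P (hPq ▸ hq0)
    have hmP : (m : 𝓞 M) ∉ P := by
      apply natCast_notMem_of_under (F := K)
      rw [← Ideal.under_under (B := 𝓞 (crossField γ)), hPq, hqu]
      exact hm
    have := (isArithFrobAt_gammaF_iff γ hζ hgen ha P hP0 hmP).mp hF
    rwa [hPq] at this
  · rintro ⟨hqp, hqu, hdeg, hmod⟩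
    have hq0 : q ≠ ⊥ := ne_bot_of_under_ne_bot (F := K) q (hqu ▸ h𝔭)
    obtain ⟨P, hPp, hP0, hPq⟩ := exists_prime_over (crossField γ) M hq0
    refine ⟨hqp, hqu, hdeg, P, hPp, hPq, ?_⟩
    have hmP : (m : 𝓞 M) ∉ P := by
      apply natCast_notMem_of_under (F := K)
      rw [← Ideal.under_under (B := 𝓞 (crossField γ)), hPq, hqu]
      exact hm
    apply (isArithFrobAt_gammaF_iff γ hζ hgen ha P hP0 hmP).mpr
    rwa [hPq]

end Cyclotomic

end Fermat.Agent.DS.N8.Crossing
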