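/-
GATE-N / S48-(N8d2c) part 1 (helper82): the crossing step in LOWER-BOUND form, cyclotomic-free.

`AbelianLower F M g c` is the finite-sum lower bound of helper55's interface (IF-4) (board 3363):
near `s = 1⁺` there are finite sets of degree-one primes `q` of `F` (absolute norm a prime number),
unramified in `M/F`, with Frobenius element EXACTLY `g`, whose sums `∑ N q ^ (-s)` are at least
`c * log (1 / (s - 1)) - C`.

Main theorem `abelianLower_of_cross`: for `M/K` Galois and `γ ∈ Gal(M/K)`, `F = M^⟨γ⟩`,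

  `AbelianLower F M (gammaF γ) (1 / orderOf γ)  →  AbelianLower K M γ (1 / |Cent γ|)`,

i.e. the Chebotarev lower bound for the conjugacy class of `γ` in `M/K` follows from the
(abelian) one for the cyclic extension `M/F`.  This is (X1)-(X3) of `Crossing.lean` plus bookkeeping.
-/
import Mathlib
import Fermat.Agent.DS.N8.Crossing

set_option autoImplicit false
set_option linter.unusedSectionVars false

open NumberField IntermediateField
open scoped Pointwise

namespace Fermat.Agent.DS.N8.CrossLower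

open Fermat.Agent.S14 Fermat.Agent.GJ.FrobAlg Fermat.Agent.DS.N8.Crossing

/-- Finite-sum lower bound for the degree-one primes of `F` with Frobenius element `g` in `M/F`
(helper55's (IF-4) shape). -/
def AbelianLower (F M : Type*) [Field F] [NumberField F] [Field M] [NumberField M] [Algebra F M]
    [IsGalois F M]
    (g : M ≃ₐ[F] M) (c : ℝ) : Prop :=
  ∃ C δ : ℝ, 0 < δ ∧ ∀ s : ℝ, 1 < s → s < 1 + δ → ∃ T : Finset (Ideal (𝓞 F)),
    (∀ q ∈ T, q.IsPrime ∧ (Ideal.absNorm q).Prime ∧ ∃ Q : Ideal (𝓞 M), Q.IsPrime ∧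
      Q.under (𝓞 F) = q ∧ Q.inertia (M ≃ₐ[F] M) = ⊥ ∧ IsArithFrobAt (𝓞 F) g Q) ∧
    c * Real.log (1 / (s - 1)) - C ≤ ∑ q ∈ T, (Ideal.absNorm q : ℝ) ^ (-s)

variable {K M : Type*} [Field K] [NumberField K] [Field M] [NumberField M] [Algebra K M]
  [IsGalois K M]

/-- `[M : M^⟨γ⟩] = ord γ`. -/
theorem finrank_crossField (γ : M ≃ₐ[K] M) :
    Module.finrank (crossField γ) M = orderOf γ := by
  rw [crossField, IntermediateField.finrank_fixedField_eq_card, Nat.card_zpowers]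

section Bad

variable (K M) (F : IntermediateField K M)

/-- The primes of the intermediate field `F` lying over a prime of `K` that ramifies in `M`. -/
def badPrimes : Set (Ideal (𝓞 F)) :=
  {q | q.IsPrime ∧ ∃ P : Ideal (𝓞 M), P.IsPrime ∧ P ≠ ⊥ ∧ P.inertia (M ≃ₐ[K] M) ≠ ⊥ ∧
    q.under (𝓞 K) = P.under (𝓞 K)}

theorem finite_badPrimes : (badPrimes K M F).Finite := by
  have hR := finite_ramified K M
  have hU : (⋃ P ∈ {P : Ideal (𝓞 M) | P.IsPrime ∧ P ≠ ⊥ ∧ P.inertia (M ≃ₐ[K] M) ≠ ⊥},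
      {q : Ideal (𝓞 F) | q.IsPrime ∧ q.under (𝓞 K) = P.under (𝓞 K)}).Finite := by
    refine Set.Finite.biUnion hR ?_
    rintro P ⟨hPp, hP0, -⟩
    have h𝔭0 : P.under (𝓞 K) ≠ ⊥ := fun h0 => hP0 (Ideal.eq_bot_of_comap_eq_bot h0)
    have hmax : (P.under (𝓞 K)).IsMaximal := Ideal.IsPrime.isMaximal inferInstance h𝔭0
    have hfin : (Ideal.primesOver (P.under (𝓞 K)) (𝓞 F)).Finite :=
      IsDedekindDomain.primesOver_finite (P.under (𝓞 K)) (𝓞 F)
    refine hfin.subset ?_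
    rintro q ⟨hqp, hqu⟩
    exact ⟨hqp, ⟨hqu.symm⟩⟩
  refine hU.subset ?_
  rintro q ⟨hqp, P, hPp, hP0, hI, hqu⟩
  simp only [Set.mem_iUnion]
  exact ⟨P, ⟨hPp, hP0, hI⟩, hqp, hqu⟩

end Bad

section Main

variable (γ : M ≃ₐ[K] M)

/-- A degree one prime `q` of `F = M^⟨γ⟩` with Frobenius `γ`, not over a ramified prime of `K`,
lies in `crossPrimes γ (q ∩ K)`, and `q ∩ K` is unramified in `M`. -/
theorem good_prime_facts {q : Ideal (𝓞 (crossField γ))} (hqp : q.IsPrime)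
    (hqN : (Ideal.absNorm q).Prime) (hbad : q ∉ badPrimes K M (crossField γ))
    {Q : Ideal (𝓞 M)} (hQp : Q.IsPrime) (hQq : Q.under (𝓞 (crossField γ)) = q)
    (hF : IsArithFrobAt (𝓞 (crossField γ)) (gammaF γ) Q) :
    q.under (𝓞 K) ≠ ⊥ ∧
      (∀ P : Ideal (𝓞 M), P.IsPrime → P.under (𝓞 K) = q.under (𝓞 K) →
        P.inertia (M ≃ₐ[K] M) = ⊥) ∧
      q ∈ crossPrimes γ (q.under (𝓞 K)) := by
  have hq0 : q ≠ ⊥ := by
    rintro rfl
    rw [Ideal.absNorm_bot] at hqN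
    exact Nat.not_prime_zero hqN
  have h𝔭0 : q.under (𝓞 K) ≠ ⊥ := fun h0 => hq0 (Ideal.eq_bot_of_comap_eq_bot h0)
  refine ⟨h𝔭0, ?_, hqp, rfl, ?_, Q, hQp, hQq, hF⟩
  · intro P hPp hPu
    by_contra hI
    apply hbad
    have hP0 : P ≠ ⊥ := ne_bot_of_under_ne_bot (F := K) P (hPu ▸ h𝔭0)
    exact ⟨hqp, P, hPp, hP0, hI, hPu.symm⟩
  · exact (absNorm_eq_absNorm_under_iff (F := K) q hq0).mp
      (absNorm_eq_absNorm_under_of_prime (K := K) q hqN)

theorem rpow_neg_le_one {a : ℕ} (ha : 1 ≤ a) {s : ℝ} (hs : 0 ≤ s) : (a : ℝ) ^ (-s) ≤ 1 :=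
  Real.rpow_le_one_of_one_le_of_nonpos (by exact_mod_cast ha) (by linarith)

/-- **Crossing step, lower-bound form.** -/
theorem abelianLower_of_cross
    (h : AbelianLower (crossField γ) M (gammaF γ) (1 / (orderOf γ : ℝ))) :
    AbelianLower K M γ (1 / (Nat.card (Subgroup.centralizer ({γ} : Set (M ≃ₐ[K] M))) : ℝ)) := by
  classical
  obtain ⟨C, δ, hδ, H⟩ := h
  set Bad : Finset (Ideal (𝓞 (crossField γ))) :=
    (finite_badPrimes K M (crossField γ)).toFinset with hBad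
  set n : ℝ := (orderOf γ : ℝ) with hn
  set z : ℝ := (Nat.card (Subgroup.centralizer ({γ} : Set (M ≃ₐ[K] M))) : ℝ) with hz
  have hnpos : 0 < n := by
    rw [hn]
    exact_mod_cast orderOf_pos γ
  have hzpos : 0 < z := by
    rw [hz]
    exact_mod_cast Nat.card_pos
  refine ⟨n / z * (C + Bad.card), δ, hδ, fun s hs1 hs2 => ?_⟩
  obtain ⟨T, hT, hsum⟩ := H s hs1 hs2
  set Tg : Finset (Ideal (𝓞 (crossField γ))) := T.filter (fun q => q ∉ Bad) with hTg
  set T' : Finset (Ideal (𝓞 K)) := Tg.image (fun q => q.under (𝓞 K)) with hT'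
  -- facts about good primes
  have hgood : ∀ q ∈ Tg, q.IsPrime ∧ (Ideal.absNorm q).Prime ∧ q.under (𝓞 K) ≠ ⊥ ∧
      (∀ P : Ideal (𝓞 M), P.IsPrime → P.under (𝓞 K) = q.under (𝓞 K) →
        P.inertia (M ≃ₐ[K] M) = ⊥) ∧ q ∈ crossPrimes γ (q.under (𝓞 K)) := by
    intro q hq
    obtain ⟨hqT, hqB⟩ := Finset.mem_filter.mp hq
    have hqbad : q ∉ badPrimes K M (crossField γ) := by
      intro hb
      exact hqB ((finite_badPrimes K M (crossField γ)).mem_toFinset.mpr hb)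
    obtain ⟨hqp, hqN, Q, hQp, hQq, -, hFQ⟩ := hT q hqT
    obtain ⟨h1, h2, h3⟩ := good_prime_facts γ hqp hqN hqbad hQp hQq hFQ
    exact ⟨hqp, hqN, h1, h2, h3⟩
  refine ⟨T', ?_, ?_⟩
  · intro 𝔭 h𝔭
    obtain ⟨q, hq, rfl⟩ := Finset.mem_image.mp h𝔭
    obtain ⟨hqp, hqN, h𝔭0, hunr, hcross⟩ := hgood q hq
    obtain ⟨P, ⟨hPp, hPu, hFP⟩, -⟩ := mem_frobPrimes_of_crossPrimes γ hcross h𝔭0
    refine ⟨inferInstance, ?_, P, hPp, hPu, hunr P hPp hPu, hFP⟩
    rw [← absNorm_eq_absNorm_under_of_prime (K := K) q hqN]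
    exact hqN
  · -- the inequality
    have hs0 : 0 ≤ s := by linarith
    -- split off the bad primes
    have h1 : ∑ q ∈ T, (Ideal.absNorm q : ℝ) ^ (-s) ≤
        ∑ q ∈ Tg, (Ideal.absNorm q : ℝ) ^ (-s) + Bad.card := by
      rw [← Finset.sum_filter_add_sum_filter_not T (fun q => q ∉ Bad)]
      gcongr
      calc ∑ q ∈ T.filter (fun q => ¬ q ∉ Bad), (Ideal.absNorm q : ℝ) ^ (-s)
          ≤ ∑ _q ∈ T.filter (fun q => ¬ q ∉ Bad), (1 : ℝ) := by
            apply Finset.sum_le_sum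
            intro q hq
            obtain ⟨hqT, -⟩ := Finset.mem_filter.mp hq
            obtain ⟨-, hqN, -⟩ := hT q hqT
            exact rpow_neg_le_one hqN.one_lt.le hs0
        _ = ((T.filter (fun q => ¬ q ∉ Bad)).card : ℝ) := by simp
        _ ≤ (Bad.card : ℝ) := by
            apply Nat.cast_le.mpr
            apply Finset.card_le_card
            intro q hq
            obtain ⟨-, hqB⟩ := Finset.mem_filter.mp hq
            exact not_not.mp hqB
    -- fibres of `q ↦ q ∩ K`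
    have h2 : ∑ q ∈ Tg, (Ideal.absNorm q : ℝ) ^ (-s) ≤
        z / n * ∑ 𝔭 ∈ T', (Ideal.absNorm 𝔭 : ℝ) ^ (-s) := by
      rw [← Finset.sum_fiberwise_of_maps_to (g := fun q => q.under (𝓞 K)) (t := T')
        (fun q hq => Finset.mem_image_of_mem _ hq), Finset.mul_sum]
      apply Finset.sum_le_sum
      intro 𝔭 h𝔭
      obtain ⟨q₀, hq₀, hq₀u⟩ := Finset.mem_image.mp h𝔭
      obtain ⟨-, -, h𝔭0, hunr, hcross⟩ := hgood q₀ hq₀
      rw [hq₀u] at h𝔭0 hunr hcross
      set fib := Tg.filter (fun q => q.under (𝓞 K) = 𝔭) with hfib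
      have hsub : (fib : Set (Ideal (𝓞 (crossField γ)))) ⊆ crossPrimes γ 𝔭 := by
        intro q hq
        obtain ⟨hqTg, hqu⟩ := Finset.mem_filter.mp (Finset.mem_coe.mp hq)
        have := (hgood q hqTg).2.2.2.2
        rwa [hqu] at this
      have hcard : (fib.card : ℝ) * n ≤ z := by
        have hne : (frobPrimes γ 𝔭).Nonempty := by
          obtain ⟨P, hP, -⟩ := mem_frobPrimes_of_crossPrimes γ hcross h𝔭0
          exact ⟨P, hP⟩
        have hX3 := card_crossPrimes_mul_orderOf γ h𝔭0 hunr hne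
        have hle : fib.card ≤ Nat.card (crossPrimes γ 𝔭) := by
          rw [_root_.Nat.card_coe_set_eq, ← Set.ncard_coe_finset fib]
          exact Set.ncard_le_ncard hsub (finite_crossPrimes γ h𝔭0)
        have : fib.card * orderOf γ ≤ Nat.card (Subgroup.centralizer ({γ} : Set (M ≃ₐ[K] M))) := by
          rw [← hX3]
          exact Nat.mul_le_mul_right _ hle
        rw [hn, hz]
        exact_mod_cast this
      have hterm : ∀ q ∈ fib, (Ideal.absNorm q : ℝ) ^ (-s) = (Ideal.absNorm 𝔭 : ℝ) ^ (-s) := by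
        intro q hq
        have hqc := hsub (Finset.mem_coe.mpr hq)
        rw [absNorm_eq_of_mem_crossPrimes γ h𝔭0 hqc]
      rw [Finset.sum_congr rfl hterm, Finset.sum_const, nsmul_eq_mul]
      have hpos : 0 ≤ (Ideal.absNorm 𝔭 : ℝ) ^ (-s) := Real.rpow_nonneg (Nat.cast_nonneg _) _
      have h3 : (fib.card : ℝ) ≤ z / n := by
        rw [le_div_iff₀ hnpos]
        exact hcard
      exact mul_le_mul_of_nonneg_right h3 hpos
    -- conclusion
    have h3 : 1 / n * Real.log (1 / (s - 1)) - C - Bad.card ≤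
        z / n * ∑ 𝔭 ∈ T', (Ideal.absNorm 𝔭 : ℝ) ^ (-s) := by linarith
    have h4 : n / z * (1 / n * Real.log (1 / (s - 1)) - C - Bad.card) ≤
        n / z * (z / n * ∑ 𝔭 ∈ T', (Ideal.absNorm 𝔭 : ℝ) ^ (-s)) :=
      mul_le_mul_of_nonneg_left h3 (by positivity)
    have h5 : n / z * (z / n * ∑ 𝔭 ∈ T', (Ideal.absNorm 𝔭 : ℝ) ^ (-s)) =
        ∑ 𝔭 ∈ T', (Ideal.absNorm 𝔭 : ℝ) ^ (-s) := by
      field_simp
    have h6 : n / z * (1 / n * Real.log (1 / (s - 1)) - C - Bad.card) =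
        1 / z * Real.log (1 / (s - 1)) - n / z * (C + Bad.card) := by
      field_simp
      ring
    linarith

end Main

end Fermat.Agent.DS.N8.CrossLower
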