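/-
S48 / (N8) NORM-COMPAT TOWER (helper55).  Replaces (IF-1)(IF-2)(IF-3) of N8 RULING 1.

For a tower of number fields `F ⊂ M ⊂ L` with `L/F` and `M/F` Galois and a root of unity `ζ ∈ L`,
a character `κ : Gal(M/F) →* Γ_m = (ℤ/m)ˣ/±1` which is computed on `Gal(L/F)` by the action on `ζ`
is norm-compatible in the sense of `DS/N8b/NormCompat.lean` (`IsNormCompat F M m κ`).

* `isNormCompat_of_tower` : the general statement;
* `kappaTower` : the construction of `κ` when `ζ + ζ⁻¹ ∈ M` (`M ⊇ F(ζ)^+`);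
* `kappaTower_restrictNormal`, `isNormCompat_kappaTower`, `kappaTower_eq_one_iff`.
-/
import Mathlib
import Fermat.Agent.DS.N8b.NormCompat
import Fermat.Agent.S14.CR.FrobTower
import Fermat.Agent.S14.CR.CycFrob
import Fermat.Agent.GJ.Frob.Key

set_option autoImplicit false

open NumberField nonZeroDivisors

namespace Fermat.Agent.DS.N8.NormCompatTower

open Fermat.Agent.S14.CR Fermat.Agent.DS.N8b.NormPM Fermat.Agent.DS.N8b.NormCompat
open Fermat.Agent.GJ.Frob

variable {F M L : Type*} [Field F] [NumberField F] [Field M] [NumberField M] [Field L]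
  [NumberField L] [Algebra F M] [Algebra M L] [Algebra F L] [IsScalarTower F M L]
  [IsGalois F M] [IsGalois F L] {m : ℕ}

/-- **The tower lemma.**  No ramification hypothesis on `L/F`. -/
theorem isNormCompat_of_tower [NeZero m] {ζ : L} (hζ : ζ ^ m = 1)
    (κ : (M ≃ₐ[F] M) →* GammaPM m)
    (hκ : ∀ (s : L ≃ₐ[F] L) (a : (ZMod m)ˣ), s ζ = ζ ^ (a : ZMod m).val →
      κ (s.restrictNormal M) = QuotientGroup.mk a) :
    IsNormCompat F M m κ := by
  intro 𝔔 _ h𝔔 he hc σ hσ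
  -- a prime of `L` above `𝔔`
  obtain ⟨⟨𝔔', h𝔔'prime, h𝔔'over⟩⟩ := (inferInstance : Nonempty (𝔔.primesOver (𝓞 L)))
  have hu : 𝔔'.under (𝓞 M) = 𝔔 := ((Ideal.liesOver_iff _ _).mp h𝔔'over).symm
  have h𝔔'0 : 𝔔' ≠ ⊥ := by
    rintro rfl
    exact h𝔔 (hu ▸ Ideal.under_bot ..)
  have : Finite (𝓞 L ⧸ 𝔔') := Ideal.finiteQuotientOfFreeOfNeBot _ h𝔔'0
  set φ' := arithFrobAt (𝓞 F) (L ≃ₐ[F] L) 𝔔' with hφ'def
  have hφ' : IsArithFrobAt (𝓞 F) φ' 𝔔' := IsArithFrobAt.arithFrobAt (𝓞 F) (L ≃ₐ[F] L) 𝔔'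
  have huF : 𝔔'.under (𝓞 F) = 𝔔.under (𝓞 F) := by
    rw [← hu, Ideal.under_under]
  -- `m ∉ 𝔔'`
  have hm : (m : 𝓞 L) ∉ 𝔔' := by
    intro hmem
    have h1 : (m : 𝓞 F) ∈ 𝔔'.under (𝓞 F) := by
      rw [Ideal.under_def, Ideal.mem_comap, map_natCast]
      exact hmem
    rw [huF] at h1
    have hle : modIdeal F m ≤ 𝔔.under (𝓞 F) := (Ideal.span_singleton_le_iff_mem _).2 h1
    exact not_le_of_isCoprime inferInstance hc hle
  -- the Frobenius of `𝔔'` on `ζ`
  have hz := frob_zeta F L φ' 𝔔' h𝔔'0 hφ' hm ζ hζ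
  rw [huF] at hz
  have hz' : φ' ζ = ζ ^ ((absNormUnit m (𝔔.under (𝓞 F)) hc : (ZMod m)ˣ) : ZMod m).val := by
    rw [hz, coe_absNormUnit, ZMod.val_natCast, ← pow_eq_pow_mod _ hζ]
  have h2 := hκ φ' _ hz'
  -- `φ'|_M` is a Frobenius at `𝔔`, hence equals `σ`
  have h3 : IsArithFrobAt (𝓞 F) (φ'.restrictNormal M) 𝔔 := by
    have := isArithFrobAt_restrictNormal (Ω := M) hφ'
    rwa [hu] at this
  have hI : 𝔔.inertia (M ≃ₐ[F] M) = ⊥ := inertia_eq_bot_of_e_eq_one 𝔔 h𝔔 he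
  have h4 : σ * (φ'.restrictNormal M)⁻¹ ∈ 𝔔.inertia (M ≃ₐ[F] M) := hσ.mul_inv_mem_inertia h3
  rw [hI, Subgroup.mem_bot, mul_inv_eq_one] at h4
  rw [h4, h2]

/-! ### the construction of `κ` -/

section Kappa

variable [NeZero m] {ζ : L} (hζ : IsPrimitiveRoot ζ m)

include hζ in
/-- uniqueness of the exponent -/
theorem autToPow_eq_of_apply (s : L ≃ₐ[F] L) (a : (ZMod m)ˣ)
    (h : s ζ = ζ ^ (a : ZMod m).val) : hζ.autToPow F s = a := by
  have h1 : ζ ^ (hζ.autToPow F s : ZMod m).val = ζ ^ (a : ZMod m).val := by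
    rw [hζ.autToPow_spec F s, h]
  have h2 := hζ.pow_inj (ZMod.val_lt _) (ZMod.val_lt _) h1
  exact Units.ext (ZMod.val_injective m h2)

include hζ in
theorem zeta_pow_neg_one_val : ζ ^ ((-1 : (ZMod m)ˣ) : ZMod m).val = ζ⁻¹ := by
  have hm : 0 < m := Nat.pos_of_ne_zero (NeZero.ne m)
  have hζ0 : ζ ≠ 0 := hζ.ne_zero (NeZero.ne m)
  rw [Units.val_neg, Units.val_one]
  obtain ⟨k, rfl⟩ : ∃ k, m = k + 1 := ⟨m - 1, by omega⟩
  rw [ZMod.val_neg_one]
  apply eq_inv_of_mul_eq_one_left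
  rw [← pow_succ]
  exact hζ.pow_eq_one

include hζ in
theorem zeta_pow_one_val : ζ ^ ((1 : (ZMod m)ˣ) : ZMod m).val = ζ := by
  rw [Units.val_one, ZMod.val_one_eq_one_mod, ← pow_eq_pow_mod 1 hζ.pow_eq_one, pow_one]

variable (F) in
/-- the cyclotomic character of `L/F` modulo `±1` -/
noncomputable def chiBar : (L ≃ₐ[F] L) →* GammaPM m :=
  (QuotientGroup.mk' (Subgroup.zpowers (-1 : (ZMod m)ˣ))).comp (hζ.autToPow F)

theorem chiBar_apply (s : L ≃ₐ[F] L) :
    chiBar F hζ s = QuotientGroup.mk (hζ.autToPow F s) := rfl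

/-- `χ̄ s = 1 ↔ s ζ ∈ {ζ, ζ⁻¹}` -/
theorem chiBar_eq_one_iff (s : L ≃ₐ[F] L) : chiBar F hζ s = 1 ↔ (s ζ = ζ ∨ s ζ = ζ⁻¹) := by
  rw [chiBar_apply, QuotientGroup.eq_one_iff]
  constructor
  · intro h
    rw [Subgroup.mem_zpowers_iff] at h
    obtain ⟨k, hk⟩ := h
    rcases Int.even_or_odd k with he | ho
    · left
      have : hζ.autToPow F s = 1 := by rw [← hk, he.neg_one_zpow]
      rw [← hζ.autToPow_spec F s, this]
      exact zeta_pow_one_val hζ
    · right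
      have : hζ.autToPow F s = -1 := by rw [← hk, ho.neg_one_zpow]
      rw [← hζ.autToPow_spec F s, this]
      exact zeta_pow_neg_one_val hζ
  · rintro (h | h)
    · have : hζ.autToPow F s = 1 := by
        apply autToPow_eq_of_apply hζ
        rw [h, zeta_pow_one_val hζ]
      rw [this]
      exact one_mem _
    · have : hζ.autToPow F s = -1 := by
        apply autToPow_eq_of_apply hζ
        rw [h, zeta_pow_neg_one_val hζ]
      rw [this]
      exact Subgroup.mem_zpowers _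

omit [NumberField F] [NumberField L] [IsGalois F L] [NeZero m] in
include hζ in
/-- an automorphism fixing `ζ + ζ⁻¹` sends `ζ` to `ζ` or `ζ⁻¹` -/
theorem apply_zeta_of_fixes (hm : m ≠ 0) (s : L ≃ₐ[F] L) (hs : s (ζ + ζ⁻¹) = ζ + ζ⁻¹) :
    s ζ = ζ ∨ s ζ = ζ⁻¹ := by
  have hζ0 : ζ ≠ 0 := hζ.ne_zero hm
  have hx0 : s ζ ≠ 0 := fun h => hζ0 ((map_eq_zero_iff s s.injective).mp h)
  rw [map_add, map_inv₀] at hs
  have key : (s ζ - ζ) * (s ζ - ζ⁻¹) = 0 := by
    have h1 : (s ζ - ζ) * (s ζ - ζ⁻¹) = s ζ * (s ζ + (s ζ)⁻¹ - (ζ + ζ⁻¹)) := by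
      field_simp
      ring
    rw [h1, hs, sub_self, mul_zero]
  rcases mul_eq_zero.mp key with h | h
  · exact Or.inl (sub_eq_zero.mp h)
  · exact Or.inr (sub_eq_zero.mp h)

omit [NumberField F] [NumberField L] [IsGalois F L] [NeZero m] in
/-- conversely -/
theorem fixes_of_apply_zeta (s : L ≃ₐ[F] L) (hs : s ζ = ζ ∨ s ζ = ζ⁻¹) :
    s (ζ + ζ⁻¹) = ζ + ζ⁻¹ := by
  rw [map_add, map_inv₀]
  rcases hs with h | h
  · rw [h]
  · rw [h, inv_inv, add_comm]

variable {η : M} (hη : algebraMap M L η = ζ + ζ⁻¹)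

include hη in
theorem ker_restrictNormalHom_le_ker_chiBar :
    (AlgEquiv.restrictNormalHom M : (L ≃ₐ[F] L) →* (M ≃ₐ[F] M)).ker ≤ (chiBar F hζ).ker := by
  intro s hs
  rw [MonoidHom.mem_ker] at hs ⊢
  rw [chiBar_eq_one_iff]
  apply apply_zeta_of_fixes hζ (NeZero.ne m)
  have h1 := AlgEquiv.restrictNormal_commutes s M η
  rw [← hη, ← h1]
  have h2 : s.restrictNormal M = 1 := hs
  rw [h2]
  rfl

/-- **`κ`** : the cyclotomic character mod `±1` on `Gal(M/F)`, for `M ∋ η = ζ + ζ⁻¹`. -/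
noncomputable def kappaTower : (M ≃ₐ[F] M) →* GammaPM m :=
  (AlgEquiv.restrictNormalHom M : (L ≃ₐ[F] L) →* (M ≃ₐ[F] M)).liftOfSurjective
    (AlgEquiv.restrictNormalHom_surjective L)
    ⟨chiBar F hζ, ker_restrictNormalHom_le_ker_chiBar hζ hη⟩

theorem kappaTower_restrictNormal (s : L ≃ₐ[F] L) :
    kappaTower hζ hη (s.restrictNormal M) = QuotientGroup.mk (hζ.autToPow F s) := by
  have := MonoidHom.liftOfRightInverse_comp_apply
    (AlgEquiv.restrictNormalHom M : (L ≃ₐ[F] L) →* (M ≃ₐ[F] M))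
    (Function.surjInv (AlgEquiv.restrictNormalHom_surjective L))
    (Function.rightInverse_surjInv (AlgEquiv.restrictNormalHom_surjective L))
    ⟨chiBar F hζ, ker_restrictNormalHom_le_ker_chiBar hζ hη⟩ s
  exact this

/-- **`κ` is norm-compatible** -/
theorem isNormCompat_kappaTower : IsNormCompat F M m (kappaTower (F := F) hζ hη) := by
  refine isNormCompat_of_tower hζ.pow_eq_one _ ?_
  intro s a ha
  rw [kappaTower_restrictNormal, autToPow_eq_of_apply hζ s a ha]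

/-- **the kernel of `κ`** -/
theorem kappaTower_eq_one_iff (σ : M ≃ₐ[F] M) : kappaTower (F := F) hζ hη σ = 1 ↔ σ η = η := by
  obtain ⟨s, rfl⟩ := AlgEquiv.restrictNormalHom_surjective L σ
  have hcomm : algebraMap M L ((AlgEquiv.restrictNormalHom M s) η) = s (ζ + ζ⁻¹) := by
    rw [← hη]
    exact AlgEquiv.restrictNormal_commutes s M η
  have h1 : kappaTower (F := F) hζ hη (AlgEquiv.restrictNormalHom M s) = chiBar F hζ s :=
    kappaTower_restrictNormal hζ hη s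
  rw [h1, chiBar_eq_one_iff]
  constructor
  · intro h
    apply (algebraMap M L).injective
    rw [hcomm, fixes_of_apply_zeta s h, hη]
  · intro h
    apply apply_zeta_of_fixes hζ (NeZero.ne m)
    rw [← hcomm, h, hη]

/-! ### change of the base field -/

section Base

variable {K : Type*} [Field K] [NumberField K] [Algebra K F] [Algebra K M] [Algebra K L]
  [IsScalarTower K F M] [IsScalarTower K F L] [IsScalarTower K M L] [IsGalois K M] [IsGalois K L]

/-- `κ` over `F` is the restriction of `κ` over `K` (`K ⊂ F ⊂ M ⊂ L`) -/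
theorem kappaTower_restrictScalars (σ : M ≃ₐ[F] M) :
    kappaTower (F := K) hζ hη (σ.restrictScalars K) = kappaTower (F := F) hζ hη σ := by
  obtain ⟨s, rfl⟩ := AlgEquiv.restrictNormalHom_surjective L σ
  have h1 : (AlgEquiv.restrictNormalHom M s).restrictScalars K =
      (s.restrictScalars K).restrictNormal M := by
    apply AlgEquiv.ext
    intro x
    apply (algebraMap M L).injective
    rw [AlgEquiv.restrictNormal_commutes]
    exact AlgEquiv.restrictNormal_commutes s M x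
  rw [h1, kappaTower_restrictNormal]
  have h2 : kappaTower (F := F) hζ hη (AlgEquiv.restrictNormalHom M s) =
      QuotientGroup.mk (hζ.autToPow F s) := kappaTower_restrictNormal hζ hη s
  rw [h2]
  congr 1

end Base

end Kappa

end Fermat.Agent.DS.N8.NormCompatTower
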