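/-
S48 / (N8d2c) CROSS-KAPPA (helper55).  TYPE-level assembly of the crossing step:

`K ⊂ M ⊂ L` number fields, `M/K`, `L/K` Galois, `ζ ∈ L` a primitive `m`-th root of unity,
`η ∈ M`, `η = ζ + ζ⁻¹`; `E P : IntermediateField K M` normal over `K` with `E ⊔ P = ⊤`,
`P = K(η)`; `γ ∈ Gal(M/K)` with `orderOf (γ|_E) ∣ orderOf (γ|_P)`, `F = crossField γ = M^⟨γ⟩`.

* `kappaF_injective` : `kappaTower (F := F) : Gal(M/F) →* Γ_m` is injective;
* `abelianLower_crossField` : `AbelianLower F M (gammaF γ) (1 / orderOf γ)`
  (= `abelianCheb_lower` of helper24 at the norm-compatible `κ_F`);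
* `abelianLower_of_tower` : `AbelianLower K M γ (1 / #Cent γ)` (helper82 `abelianLower_of_cross`).
-/
import Mathlib
import Fermat.Agent.DS.N8.CrossLower
import Fermat.Agent.DS.N8.CrossGalois
import Fermat.Agent.DS.N8.NormCompatTower
import Fermat.Agent.DS.N8b.AbelianCheb

set_option autoImplicit false
set_option linter.unusedSectionVars false

open NumberField IntermediateField

namespace Fermat.Agent.DS.N8.CrossKappa

open Fermat.Agent.DS.N8b.NormPM Fermat.Agent.DS.N8b.NormCompat Fermat.Agent.DS.N8b
open Fermat.Agent.DS.N8.NormCompatTower Fermat.Agent.DS.N8.Crossing Fermat.Agent.DS.N8.CrossLower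
open Fermat.Agent.DS.N8.CrossGalois

variable {K M L : Type*} [Field K] [NumberField K] [Field M] [NumberField M] [Field L]
  [NumberField L] [Algebra K M] [Algebra M L] [Algebra K L] [IsScalarTower K M L]
  [IsGalois K M] [IsGalois K L] {m : ℕ} [NeZero m]

/-- `L` is Galois over every intermediate field of `M/K`. -/
theorem isGalois_mid (F : IntermediateField K M) : IsGalois F L :=
  IsGalois.tower_top_of_isGalois K F L

variable {ζ : L} (hζ : IsPrimitiveRoot ζ m) {η : M} (hη : algebraMap M L η = ζ + ζ⁻¹)
  {E P : IntermediateField K M} [Normal K E] [Normal K P]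

/-- an automorphism fixing `η` restricts to the identity on `P = K(η)` -/
theorem restrictNormalHom_eq_one_of_fixes (hP : P = IntermediateField.adjoin K {η})
    (g : M ≃ₐ[K] M) (hg : g η = η) : AlgEquiv.restrictNormalHom P g = 1 := by
  rw [← MonoidHom.mem_ker, IntermediateField.restrictNormalHom_ker,
    IntermediateField.mem_fixingSubgroup_iff]
  intro x hx
  rw [hP] at hx
  induction hx using IntermediateField.adjoin_induction with
  | mem y hy =>
    rw [Set.mem_singleton_iff] at hy
    rw [hy, hg]
  | algebraMap y => exact g.commutes y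
  | add y z _ _ hy hz => rw [map_add, hy, hz]
  | inv y _ hy => rw [map_inv₀, hy]
  | mul y z _ _ hy hz => rw [map_mul, hy, hz]

/-- **`κ_F` is injective** on `Gal(M/F)`, `F = M^⟨γ⟩`. -/
theorem kappaF_injective (hsup : E ⊔ P = ⊤) (hP : P = IntermediateField.adjoin K {η})
    (γ : M ≃ₐ[K] M)
    (h : orderOf (AlgEquiv.restrictNormalHom E γ) ∣ orderOf (AlgEquiv.restrictNormalHom P γ))
    [IsGalois (crossField γ) L] :
    Function.Injective (kappaTower (F := crossField γ) hζ hη) := by
  rw [injective_iff_map_eq_one]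
  intro σ hσ
  rw [kappaTower_eq_one_iff] at hσ
  have hg : σ.restrictScalars K ∈ Subgroup.zpowers γ := restrictScalars_mem_zpowers γ σ
  have hgP : AlgEquiv.restrictNormalHom P (σ.restrictScalars K) = 1 :=
    restrictNormalHom_eq_one_of_fixes hP _ hσ
  have h1 := eq_one_of_mem_zpowers_of_restrict hsup γ h hg hgP
  apply AlgEquiv.ext
  intro x
  have h2 := congrArg (fun t : M ≃ₐ[K] M => t x) h1
  exact h2

include hζ hη in
/-- **the abelian lower bound over the crossing field** -/
theorem abelianLower_crossField (hsup : E ⊔ P = ⊤) (hP : P = IntermediateField.adjoin K {η})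
    (γ : M ≃ₐ[K] M)
    (h : orderOf (AlgEquiv.restrictNormalHom E γ) ∣ orderOf (AlgEquiv.restrictNormalHom P γ)) :
    AbelianLower (crossField γ) M (gammaF γ) (1 / (orderOf γ : ℝ)) := by
  have : IsGalois (crossField γ) L := isGalois_mid (crossField γ)
  have h1 := AbelianCheb.abelianCheb_lower
    (isNormCompat_kappaTower (F := crossField γ) hζ hη)
    (kappaF_injective hζ hη hsup hP γ h) (gammaF γ)
  rw [finrank_crossField] at h1
  exact h1

include hζ hη in
/-- **Chebotarev lower bound for `γ` in `M/K`** (constant `1 / #Cent γ`). -/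
theorem abelianLower_of_tower (hsup : E ⊔ P = ⊤) (hP : P = IntermediateField.adjoin K {η})
    (γ : M ≃ₐ[K] M)
    (h : orderOf (AlgEquiv.restrictNormalHom E γ) ∣ orderOf (AlgEquiv.restrictNormalHom P γ)) :
    AbelianLower K M γ
      (1 / (Nat.card (Subgroup.centralizer ({γ} : Set (M ≃ₐ[K] M))) : ℝ)) :=
  abelianLower_of_cross γ (abelianLower_crossField hζ hη hsup hP γ h)

end Fermat.Agent.DS.N8.CrossKappa
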