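/-
GATE-N / S48-(N8d2c) part 2 (helper82): from primes of `𝓞 ℚ` to rational prime numbers.

Input: the Chebotarev lower bound `AbelianLower ℚ M γ c` of `CrossLower.lean` for a Galois number
field `M/ℚ`, and a norm-compatible character `κ : Gal(M/ℚ) →* Γ_m` (helper99 `IsNormCompat`).
Output (`lower_rat`): near `s = 1⁺` finite sets `T` of prime NUMBERS `p` with
* `[p] = κ γ` in `Γ_m = (ℤ/m)ˣ/±1`,
* `Frob_p(E/ℚ) ∋ γ|_E` for a subextension `E` (a number field TYPE with `Algebra E M`), in the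
  shape `FrobAtT` (= helper1's `FrobAt`, board 3315, for a type),
and `c * log (1/(s-1)) - C ≤ ∑ p ∈ T, p ^ (-s)`.
-/
import Mathlib
import Fermat.Agent.DS.N8.CrossLower
import Fermat.Agent.DS.N8b.NormCompat
import Fermat.Agent.GJ.Frob.Key
import Fermat.Agent.S14.CR.FrobTower

set_option autoImplicit false
set_option linter.unusedSectionVars false
set_option linter.style.haveILetI false

open NumberField

namespace Fermat.Agent.DS.N8.CrossRat

open Fermat.Agent.S14 Fermat.Agent.S14.CR Fermat.Agent.GJ.Frob Fermat.Agent.GJ.FrobAlg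
open Fermat.Agent.DS.N8.CrossLower Fermat.Agent.DS.N8b.NormPM Fermat.Agent.DS.N8b.NormCompat

/-- `g` is a Frobenius element over the prime number `p` in the Galois number field `E/ℚ`, `p`
unramified (helper1's `FrobAt`, for a type `E`). -/
def FrobAtT (E : Type*) [Field E] [NumberField E] [IsGalois ℚ E] (p : ℕ) (g : E ≃ₐ[ℚ] E) : Prop :=
  ∃ P : Ideal (𝓞 E), P.IsPrime ∧ P ≠ ⊥ ∧ Ideal.absNorm (P.under (𝓞 ℚ)) = p ∧
    P.inertia (E ≃ₐ[ℚ] E) = ⊥ ∧ IsArithFrobAt (𝓞 ℚ) g P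

section RatPrimes

theorem finrank_int_ringOfIntegers_rat : Module.finrank ℤ (𝓞 ℚ) = 1 := by
  rw [RingOfIntegers.rank, Module.finrank_self]

/-- a prime of `𝓞 ℚ` of prime norm `p` is `(p)`. -/
theorem eq_span_of_absNorm_prime (q : Ideal (𝓞 ℚ)) (hq : (Ideal.absNorm q).Prime) :
    q = Ideal.span {((Ideal.absNorm q : ℕ) : 𝓞 ℚ)} := by
  set p := Ideal.absNorm q with hp
  have hmem : ((p : ℕ) : 𝓞 ℚ) ∈ q := Ideal.absNorm_mem q
  have hle : Ideal.span {((p : ℕ) : 𝓞 ℚ)} ≤ q := (Ideal.span_singleton_le_iff_mem _).mpr hmem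
  obtain ⟨J, hJ⟩ := Ideal.dvd_iff_le.mpr hle
  have hN : Ideal.absNorm (Ideal.span {((p : ℕ) : 𝓞 ℚ)}) = p := by
    rw [Ideal.absNorm_span_natCast, finrank_int_ringOfIntegers_rat, pow_one]
  have hmul : p = p * Ideal.absNorm J := by
    conv_lhs => rw [← hN, hJ, map_mul]
  have hJ1 : Ideal.absNorm J = 1 := by
    have hp0 : 0 < p := hq.pos
    have : p * Ideal.absNorm J = p * 1 := by rw [mul_one]; exact hmul.symm
    exact Nat.eq_of_mul_eq_mul_left hp0 this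
  rw [Ideal.absNorm_eq_one_iff] at hJ1
  rw [hJ, hJ1, Ideal.mul_top]

theorem absNorm_injOn_primes {q q' : Ideal (𝓞 ℚ)} (hq : (Ideal.absNorm q).Prime)
    (hq' : (Ideal.absNorm q').Prime) (h : Ideal.absNorm q = Ideal.absNorm q') : q = q' := by
  rw [eq_span_of_absNorm_prime q hq, eq_span_of_absNorm_prime q' hq', h]

/-- a prime of `𝓞 ℚ` whose norm does not divide `m` is coprime to `(m)`. -/
theorem isCoprime_modIdeal_of_not_dvd {m : ℕ} (q : Ideal (𝓞 ℚ)) [q.IsPrime]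
    (hq : (Ideal.absNorm q).Prime) (hm : ¬ Ideal.absNorm q ∣ m) :
    IsCoprime q (modIdeal ℚ m) := by
  have hq0 : q ≠ ⊥ := by
    rintro rfl
    rw [Ideal.absNorm_bot] at hq
    exact Nat.not_prime_zero hq
  have hmax : q.IsMaximal := Ideal.IsPrime.isMaximal inferInstance hq0
  rw [Ideal.isCoprime_iff_sup_eq]
  by_contra hne
  have hle : modIdeal ℚ m ≤ q := by
    have := hmax.eq_of_le hne le_sup_left
    rw [this]
    exact le_sup_right
  have hmq : (m : 𝓞 ℚ) ∈ q := hle (Ideal.mem_span_singleton_self _)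
  have hpq : ((Ideal.absNorm q : ℕ) : 𝓞 ℚ) ∈ q := Ideal.absNorm_mem q
  have hcop : Nat.Coprime (Ideal.absNorm q) m := (Nat.Prime.coprime_iff_not_dvd hq).mpr hm
  have h1 : ((Nat.gcd (Ideal.absNorm q) m : ℕ) : 𝓞 ℚ) ∈ q := by
    have hb := Nat.gcd_eq_gcd_ab (Ideal.absNorm q) m
    have : ((Nat.gcd (Ideal.absNorm q) m : ℕ) : 𝓞 ℚ) =
        ((Ideal.absNorm q : ℕ) : 𝓞 ℚ) * ((Nat.gcdA (Ideal.absNorm q) m : ℤ) : 𝓞 ℚ) +
          (m : 𝓞 ℚ) * ((Nat.gcdB (Ideal.absNorm q) m : ℤ) : 𝓞 ℚ) := by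
      have h2 : (((Nat.gcd (Ideal.absNorm q) m : ℕ) : ℤ) : 𝓞 ℚ) =
          (((Ideal.absNorm q : ℕ) : ℤ) * Nat.gcdA (Ideal.absNorm q) m +
            (m : ℤ) * Nat.gcdB (Ideal.absNorm q) m : ℤ) := by rw [hb]
      push_cast at h2
      exact h2
    rw [this]
    exact q.add_mem (q.mul_mem_right _ hpq) (q.mul_mem_right _ hmq)
  rw [hcop, Nat.cast_one] at h1
  exact hmax.ne_top ((Ideal.eq_top_iff_one q).mpr h1)

end RatPrimes

section Main

variable {M : Type*} [Field M] [NumberField M] [IsGalois ℚ M]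
variable (E : Type*) [Field E] [NumberField E] [Algebra E M] [IsGalois ℚ E]

/-- Frobenius data pass from a prime `Q` of `M` to the prime `Q ∩ E` of the subextension `E`. -/
theorem frobAtT_of_prime {γ : M ≃ₐ[ℚ] M} {Q : Ideal (𝓞 M)} (hQp : Q.IsPrime)
    {p : ℕ} (hp : p.Prime) (hN : Ideal.absNorm (Q.under (𝓞 ℚ)) = p)
    (hI : Q.inertia (M ≃ₐ[ℚ] M) = ⊥) (hF : IsArithFrobAt (𝓞 ℚ) γ Q) :
    FrobAtT E p (γ.restrictNormal E) := by
  haveI := hQp
  have hq0 : Q.under (𝓞 ℚ) ≠ ⊥ := by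
    intro h0
    rw [h0, Ideal.absNorm_bot] at hN
    exact hp.ne_zero hN.symm
  have hQ0 : Q ≠ ⊥ := by
    rintro rfl
    exact hq0 (Ideal.under_bot ..)
  have hPu : (Q.under (𝓞 E)).under (𝓞 ℚ) = Q.under (𝓞 ℚ) := Ideal.under_under ..
  have hP0 : Q.under (𝓞 E) ≠ ⊥ := by
    intro h0
    apply hq0
    rw [← hPu, h0]
    exact Ideal.under_bot ..
  have heQ : Q.ramificationIdx (𝓞 ℚ) = 1 := ramificationIdx_eq_one_of_inertia_eq_bot' Q hQ0 hI
  have heP : (Q.under (𝓞 E)).ramificationIdx (𝓞 ℚ) = 1 := by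
    haveI : Q.LiesOver (Q.under (𝓞 E)) := ⟨rfl⟩
    have h := Ideal.ramificationIdx_tower (R := 𝓞 ℚ) (Q.under (𝓞 E)) Q
    rw [heQ] at h
    exact Nat.eq_one_of_mul_eq_one_right h.symm
  refine ⟨Q.under (𝓞 E), inferInstance, hP0, ?_, inertia_eq_bot_of_e_eq_one _ hP0 heP,
    isArithFrobAt_restrictNormal (Ω := E) hF⟩
  rw [hPu, hN]

variable {E}
variable {m : ℕ} [NeZero m]

/-- **From primes of `𝓞 ℚ` to prime numbers**, with the class in `Γ_m` and the Frobenius element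
in a subextension. -/
theorem lower_rat (E : Type*) [Field E] [NumberField E] [Algebra E M] [IsGalois ℚ E]
    {κ : (M ≃ₐ[ℚ] M) →* GammaPM m} (hκ : IsNormCompat ℚ M m κ)
    (γ : M ≃ₐ[ℚ] M) {c : ℝ} (h : AbelianLower ℚ M γ c) :
    ∃ C δ : ℝ, 0 < δ ∧ ∀ s : ℝ, 1 < s → s < 1 + δ → ∃ T : Finset ℕ,
      (∀ p ∈ T, p.Prime ∧
        (∃ u : (ZMod m)ˣ, (u : ZMod m) = (p : ZMod m) ∧ (QuotientGroup.mk u : GammaPM m) = κ γ) ∧
        FrobAtT E p (γ.restrictNormal E)) ∧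
      c * Real.log (1 / (s - 1)) - C ≤ ∑ p ∈ T, (p : ℝ) ^ (-s) := by
  classical
  obtain ⟨C, δ, hδ, H⟩ := h
  refine ⟨C + m.primeFactors.card, δ, hδ, fun s hs1 hs2 => ?_⟩
  obtain ⟨T, hT, hsum⟩ := H s hs1 hs2
  have hs0 : 0 ≤ s := by linarith
  set T₀ : Finset ℕ := T.image (fun q => Ideal.absNorm q) with hT₀
  set T' : Finset ℕ := T₀.filter (fun p => p ∉ m.primeFactors) with hT'
  have hinj : Set.InjOn (fun q : Ideal (𝓞 ℚ) => Ideal.absNorm q) (T : Set (Ideal (𝓞 ℚ))) := by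
    intro q hq q' hq' hqq'
    exact absNorm_injOn_primes (hT q hq).2.1 (hT q' hq').2.1 hqq'
  have hsum₀ : ∑ q ∈ T, (Ideal.absNorm q : ℝ) ^ (-s) = ∑ p ∈ T₀, (p : ℝ) ^ (-s) := by
    rw [hT₀, Finset.sum_image hinj]
  have hprime₀ : ∀ p ∈ T₀, p.Prime := by
    intro p hp
    obtain ⟨q, hq, rfl⟩ := Finset.mem_image.mp hp
    exact (hT q hq).2.1
  refine ⟨T', ?_, ?_⟩
  · intro p hp
    obtain ⟨hp₀, hpm⟩ := Finset.mem_filter.mp hp
    obtain ⟨q, hq, rfl⟩ := Finset.mem_image.mp hp₀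
    obtain ⟨hqp, hqN, Q, hQp, hQq, hI, hF⟩ := hT q hq
    haveI := hqp
    haveI := hQp
    have hndvd : ¬ Ideal.absNorm q ∣ m := by
      intro hd
      exact hpm (Nat.mem_primeFactors.mpr ⟨hqN, hd, NeZero.ne m⟩)
    have hq0 : q ≠ ⊥ := by
      rintro rfl
      rw [Ideal.absNorm_bot] at hqN
      exact Nat.not_prime_zero hqN
    have hQ0 : Q ≠ ⊥ := by
      rintro rfl
      apply hq0
      rw [← hQq]
      exact Ideal.under_bot ..
    have hc : IsCoprime (Q.under (𝓞 ℚ)) (modIdeal ℚ m) := by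
      rw [hQq]
      exact isCoprime_modIdeal_of_not_dvd q hqN hndvd
    have he : Q.ramificationIdx (𝓞 ℚ) = 1 := ramificationIdx_eq_one_of_inertia_eq_bot' Q hQ0 hI
    refine ⟨hqN, ⟨absNormUnit m (Q.under (𝓞 ℚ)) hc, ?_, (hκ Q hQ0 he hc γ hF).symm⟩, ?_⟩
    · rw [coe_absNormUnit, hQq]
    · exact frobAtT_of_prime E hQp hqN (by rw [hQq]) hI hF
  · have hsplit : ∑ p ∈ T₀, (p : ℝ) ^ (-s) ≤
        ∑ p ∈ T', (p : ℝ) ^ (-s) + m.primeFactors.card := by
      rw [← Finset.sum_filter_add_sum_filter_not T₀ (fun p => p ∉ m.primeFactors)]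
      gcongr
      calc ∑ p ∈ T₀.filter (fun p => ¬ p ∉ m.primeFactors), (p : ℝ) ^ (-s)
          ≤ ∑ _p ∈ T₀.filter (fun p => ¬ p ∉ m.primeFactors), (1 : ℝ) := by
            apply Finset.sum_le_sum
            intro p hp
            obtain ⟨hp₀, -⟩ := Finset.mem_filter.mp hp
            exact rpow_neg_le_one (hprime₀ p hp₀).one_lt.le hs0
        _ = ((T₀.filter (fun p => ¬ p ∉ m.primeFactors)).card : ℝ) := by simp
        _ ≤ (m.primeFactors.card : ℝ) := by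
            apply Nat.cast_le.mpr
            apply Finset.card_le_card
            intro p hp
            obtain ⟨-, hpB⟩ := Finset.mem_filter.mp hp
            exact not_not.mp hpB
    rw [hsum₀] at hsum
    linarith

end Main

end Fermat.Agent.DS.N8.CrossRat
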