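/-
S48-(N8)-(D2c) SETUP (helper3): instantiation glue between `DS/N8/CycloDisjoint` (D1) and
`DS/N8/CrossGalois` (D2b).  For `E P : IntermediateField K Ω` the compositum `E ⊔ P` is turned
into a field `↥(E ⊔ P)` with the two intermediate fields `resL E P`, `resR E P` (copies of `E`, `P`),
`resL ⊔ resR = ⊤`, `resL ⊓ resR = ⊥` when `E ⊓ P = ⊥`, all Galois/finite instances, and hence
`CrossGalois.resProd` is bijective.
-/
import Mathlib
import Fermat.Agent.DS.N8.CrossGalois
import Fermat.Agent.DS.N8.CycloDisjoint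

set_option autoImplicit false

open IntermediateField

namespace Fermat.Agent.DS.N8.CrossSetup

section Generic

variable {K Ω : Type*} [Field K] [Field Ω] [Algebra K Ω] (E P : IntermediateField K Ω)

/-- `E` as an intermediate field of the compositum `E ⊔ P`. -/
abbrev resL : IntermediateField K ↥(E ⊔ P) :=
  IntermediateField.restrict (le_sup_left : E ≤ E ⊔ P)

/-- `P` as an intermediate field of the compositum `E ⊔ P`. -/
abbrev resR : IntermediateField K ↥(E ⊔ P) :=
  IntermediateField.restrict (le_sup_right : P ≤ E ⊔ P)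

theorem mem_resL (x : ↥(E ⊔ P)) : x ∈ resL E P ↔ (x : Ω) ∈ E :=
  IntermediateField.mem_restrict _ x

theorem mem_resR (x : ↥(E ⊔ P)) : x ∈ resR E P ↔ (x : Ω) ∈ P :=
  IntermediateField.mem_restrict _ x

theorem resL_sup_resR : resL E P ⊔ resR E P = ⊤ := by
  rw [← lift_inj, lift_top, lift_sup, lift_restrict, lift_restrict]

theorem resL_inf_resR (h : E ⊓ P = ⊥) : resL E P ⊓ resR E P = ⊥ := by
  rw [← lift_inj, lift_bot, lift_inf, lift_restrict, lift_restrict, h]

/-- `E ≃ₐ[K] resL E P`. -/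
noncomputable def equivL : E ≃ₐ[K] resL E P :=
  IntermediateField.restrictAlgEquiv (le_sup_left : E ≤ E ⊔ P)

/-- `P ≃ₐ[K] resR E P`. -/
noncomputable def equivR : P ≃ₐ[K] resR E P :=
  IntermediateField.restrictAlgEquiv (le_sup_right : P ≤ E ⊔ P)

@[simp] theorem coe_equivL (x : E) : (((equivL E P x : resL E P) : ↥(E ⊔ P)) : Ω) = (x : Ω) := rfl

@[simp] theorem coe_equivR (x : P) : (((equivR E P x : resR E P) : ↥(E ⊔ P)) : Ω) = (x : Ω) := rfl

instance normal_resL [Normal K E] : Normal K (resL E P) := Normal.of_algEquiv (equivL E P)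

instance normal_resR [Normal K P] : Normal K (resR E P) := Normal.of_algEquiv (equivR E P)

instance isGalois_resL [IsGalois K E] : IsGalois K (resL E P) := IsGalois.of_algEquiv (equivL E P)

instance isGalois_resR [IsGalois K P] : IsGalois K (resR E P) := IsGalois.of_algEquiv (equivR E P)

instance finiteDimensional_resL [FiniteDimensional K E] : FiniteDimensional K (resL E P) :=
  (equivL E P).toLinearEquiv.finiteDimensional

instance finiteDimensional_resR [FiniteDimensional K P] : FiniteDimensional K (resR E P) :=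
  (equivR E P).toLinearEquiv.finiteDimensional

instance isGalois_sup [IsGalois K E] [IsGalois K P] :
    IsGalois K (↥(E ⊔ P)) := by
  rw [isGalois_iff]
  exact ⟨inferInstance, inferInstance⟩

/-- `Gal(resL E P / K) ≃* Gal(E / K)`. -/
noncomputable def galL : (resL E P ≃ₐ[K] resL E P) ≃* (E ≃ₐ[K] E) :=
  (AlgEquiv.autCongr (equivL E P)).symm

/-- `Gal(resR E P / K) ≃* Gal(P / K)`. -/
noncomputable def galR : (resR E P ≃ₐ[K] resR E P) ≃* (P ≃ₐ[K] P) :=
  (AlgEquiv.autCongr (equivR E P)).symm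

theorem equivL_galL_apply (g : resL E P ≃ₐ[K] resL E P) (x : E) :
    equivL E P (galL E P g x) = g (equivL E P x) := by
  have h : galL E P g x = (equivL E P).symm (g (equivL E P x)) := rfl
  rw [h, AlgEquiv.apply_symm_apply]

theorem equivR_galR_apply (g : resR E P ≃ₐ[K] resR E P) (x : P) :
    equivR E P (galR E P g x) = g (equivR E P x) := by
  have h : galR E P g x = (equivR E P).symm (g (equivR E P x)) := rfl
  rw [h, AlgEquiv.apply_symm_apply]

/-- restriction `Gal((E ⊔ P)/K) → Gal(E/K)` -/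
noncomputable def resE [Normal K E] : (↥(E ⊔ P) ≃ₐ[K] ↥(E ⊔ P)) →* (E ≃ₐ[K] E) :=
  (galL E P).toMonoidHom.comp (AlgEquiv.restrictNormalHom (resL E P))

/-- restriction `Gal((E ⊔ P)/K) → Gal(P/K)` -/
noncomputable def resP [Normal K P] : (↥(E ⊔ P) ≃ₐ[K] ↥(E ⊔ P)) →* (P ≃ₐ[K] P) :=
  (galR E P).toMonoidHom.comp (AlgEquiv.restrictNormalHom (resR E P))

theorem resE_eq [Normal K E] (γ : ↥(E ⊔ P) ≃ₐ[K] ↥(E ⊔ P)) :
    resE E P γ = galL E P (AlgEquiv.restrictNormalHom (resL E P) γ) := rfl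

theorem resP_eq [Normal K P] (γ : ↥(E ⊔ P) ≃ₐ[K] ↥(E ⊔ P)) :
    resP E P γ = galR E P (AlgEquiv.restrictNormalHom (resR E P) γ) := rfl

/-- `resE γ` is pointwise the restriction of `γ` to `E` (inside `Ω`). -/
theorem coe_resE_apply [Normal K E] (γ : ↥(E ⊔ P) ≃ₐ[K] ↥(E ⊔ P)) (x : E) :
    ((resE E P γ x : E) : Ω) =
      ((γ ⟨(x : Ω), (le_sup_left : E ≤ E ⊔ P) x.2⟩ : ↥(E ⊔ P)) : Ω) := by
  have h1 := equivL_galL_apply E P (AlgEquiv.restrictNormalHom (resL E P) γ) x
  have h2 := AlgEquiv.restrictNormalHom_apply (resL E P) γ (equivL E P x)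
  rw [← resE_eq] at h1
  have h3 := congrArg (fun y : resL E P => ((y : ↥(E ⊔ P)) : Ω)) h1
  simp only [coe_equivL] at h3
  rw [h3, h2]
  rfl

/-- `resP γ` is pointwise the restriction of `γ` to `P` (inside `Ω`). -/
theorem coe_resP_apply [Normal K P] (γ : ↥(E ⊔ P) ≃ₐ[K] ↥(E ⊔ P)) (x : P) :
    ((resP E P γ x : P) : Ω) =
      ((γ ⟨(x : Ω), (le_sup_right : P ≤ E ⊔ P) x.2⟩ : ↥(E ⊔ P)) : Ω) := by
  have h1 := equivR_galR_apply E P (AlgEquiv.restrictNormalHom (resR E P) γ) x
  have h2 := AlgEquiv.restrictNormalHom_apply (resR E P) γ (equivR E P x)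
  rw [← resP_eq] at h1
  have h3 := congrArg (fun y : resR E P => ((y : ↥(E ⊔ P)) : Ω)) h1
  simp only [coe_equivR] at h3
  rw [h3, h2]
  rfl

section Bij

theorem resProd_injective [Normal K E] [Normal K P] :
    Function.Injective (CrossGalois.resProd (resL E P) (resR E P)) :=
  CrossGalois.resProd_injective (resL_sup_resR E P)

/-- the two restrictions, with values in `Gal(E/K) × Gal(P/K)` -/
noncomputable def resEP [Normal K E] [Normal K P] :
    (↥(E ⊔ P) ≃ₐ[K] ↥(E ⊔ P)) →* (E ≃ₐ[K] E) × (P ≃ₐ[K] P) :=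
  (resE E P).prod (resP E P)

theorem resEP_eq [Normal K E] [Normal K P] (γ : ↥(E ⊔ P) ≃ₐ[K] ↥(E ⊔ P)) :
    resEP E P γ = (MulEquiv.prodCongr (galL E P) (galR E P))
      (CrossGalois.resProd (resL E P) (resR E P) γ) := rfl

theorem resEP_injective [Normal K E] [Normal K P] : Function.Injective (resEP E P) := by
  intro a b hab
  rw [resEP_eq, resEP_eq] at hab
  exact resProd_injective E P ((MulEquiv.prodCongr (galL E P) (galR E P)).injective hab)

variable [FiniteDimensional K E] [FiniteDimensional K P] [IsGalois K E] [IsGalois K P]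

theorem resProd_bijective (h : E ⊓ P = ⊥) :
    Function.Bijective (CrossGalois.resProd (resL E P) (resR E P)) :=
  CrossGalois.resProd_bijective (resL_sup_resR E P) (resL_inf_resR E P h)

theorem resEP_bijective (h : E ⊓ P = ⊥) : Function.Bijective (resEP E P) := by
  have : (resEP E P : _ → _) = (MulEquiv.prodCongr (galL E P) (galR E P)) ∘
      (CrossGalois.resProd (resL E P) (resR E P)) := by
    funext γ; exact resEP_eq E P γ
  rw [this]
  exact (MulEquiv.prodCongr (galL E P) (galR E P)).bijective.comp (resProd_bijective E P h)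

/-- `Gal((E ⊔ P)/K) ≃* Gal(E/K) × Gal(P/K)` for linearly disjoint Galois `E`, `P`. -/
noncomputable def galProdEquiv (h : E ⊓ P = ⊥) :
    (↥(E ⊔ P) ≃ₐ[K] ↥(E ⊔ P)) ≃* (E ≃ₐ[K] E) × (P ≃ₐ[K] P) :=
  MulEquiv.ofBijective (resEP E P) (resEP_bijective E P h)

@[simp] theorem galProdEquiv_apply (h : E ⊓ P = ⊥) (γ : ↥(E ⊔ P) ≃ₐ[K] ↥(E ⊔ P)) :
    galProdEquiv E P h γ = (resE E P γ, resP E P γ) := rfl

end Bij

end Generic

section Cyclo

open Fermat.Agent.DS.N8.CycloDisjoint

variable {Ω : Type*} [Field Ω] [CharZero Ω]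

/-- D1 output `E ⊓ ℚ(ζ_m) = ⊥` passes to every subfield `P ≤ ℚ(ζ_m)` (e.g. the real subfield). -/
theorem inf_eq_bot_of_le_cyc {E P : IntermediateField ℚ Ω} {m : ℕ} (hP : P ≤ cyc Ω m)
    (h : E ⊓ cyc Ω m = ⊥) : E ⊓ P = ⊥ :=
  eq_bot_iff.2 (h ▸ inf_le_inf_left E hP)

theorem adjoin_add_inv_le_cyc {m : ℕ} {ζ : Ω} (hζ : ζ ^ m = 1) : ℚ⟮ζ + ζ⁻¹⟯ ≤ cyc Ω m := by
  rw [adjoin_simple_le_iff]
  have h1 : ζ ∈ cyc Ω m := mem_cyc_of_pow_eq_one hζ
  exact add_mem h1 (inv_mem h1)

set_option backward.isDefEq.respectTransparency false in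
/-- every subfield of `ℚ(ζ_m)` is abelian Galois over `ℚ` -/
theorem isAbelianGalois_of_le_cyc (hΩ : HasAllRoots Ω) {m : ℕ} (hm : m ≠ 0)
    {P : IntermediateField ℚ Ω} (hP : P ≤ cyc Ω m) : IsAbelianGalois ℚ P := by
  obtain ⟨ζ, hζ⟩ := hΩ m hm
  have := isCyclotomicExtension_cyc hζ hm
  have : IsAbelianGalois ℚ (cyc Ω m) := IsCyclotomicExtension.isAbelianGalois {m} ℚ _
  exact IsAbelianGalois.of_algHom (IntermediateField.inclusion hP)

theorem isGalois_of_le_cyc (hΩ : HasAllRoots Ω) {m : ℕ} (hm : m ≠ 0)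
    {P : IntermediateField ℚ Ω} (hP : P ≤ cyc Ω m) : IsGalois ℚ P :=
  (isAbelianGalois_of_le_cyc hΩ hm hP).toIsGalois

theorem mul_comm_of_le_cyc (hΩ : HasAllRoots Ω) {m : ℕ} (hm : m ≠ 0)
    {P : IntermediateField ℚ Ω} (hP : P ≤ cyc Ω m) (a b : P ≃ₐ[ℚ] P) : a * b = b * a :=
  (isAbelianGalois_of_le_cyc hΩ hm hP).toIsMulCommutative.is_comm.comm a b

set_option backward.isDefEq.respectTransparency false in
theorem finiteDimensional_of_le_cyc (hΩ : HasAllRoots Ω) {m : ℕ} (hm : m ≠ 0)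
    {P : IntermediateField ℚ Ω} (hP : P ≤ cyc Ω m) : FiniteDimensional ℚ P := by
  have := finiteDimensional_cyc hΩ hm
  exact Module.Finite.of_injective (IntermediateField.inclusion hP).toLinearMap
    (IntermediateField.inclusion_injective hP)

end Cyclo

end Fermat.Agent.DS.N8.CrossSetup
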