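/-
S48-(N8)-(D2c) SETUP-ZETA (helper3, assigned by helper55, board 3517): instance plumbing of the
tower `ℚ ⊂ F ⊂ ↥(E ⊔ P) ⊂ ↥(Lz E P m)` that `CrossFinal` feeds to `NormCompatTower.kappaTower`.

`Ω` a field of characteristic `0`, `E P : IntermediateField ℚ Ω` finite Galois over `ℚ`,
`Lz E P m := (E ⊔ P)(μ_m) : IntermediateField ↥(E ⊔ P) Ω` (all `m`-th roots of unity of `Ω` adjoined;
`= (E ⊔ P)(ζ)` for a primitive `m`-th root `ζ`).  Everything is an INSTANCE under `[NeZero m]`.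
Mathlib + `DS/N8/CrossSetup` only.
-/
import Mathlib
import Fermat.Agent.DS.N8.CrossSetup

set_option autoImplicit false

open IntermediateField

namespace Fermat.Agent.DS.N8.CrossSetupZeta

open Fermat.Agent.DS.N8.CycloDisjoint Fermat.Agent.DS.N8.CrossSetup

variable {Ω : Type*} [Field Ω] [CharZero Ω]

/-! ### `cyc Ω m` without any hypothesis on `Ω` -/

omit [CharZero Ω] in
theorem finite_rootsSet (m : ℕ) [NeZero m] : {x : Ω | x ^ m = 1}.Finite := by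
  have h : {x : Ω | x ^ m = 1} = ↑(Polynomial.nthRootsFinset m (1 : Ω)) := by
    ext x
    simp [Polynomial.mem_nthRootsFinset (NeZero.pos m)]
  rw [h]
  exact Finset.finite_toSet _

omit [CharZero Ω] in
theorem isIntegral_of_pow_eq_one {R : Type*} [CommRing R] [Algebra R Ω] {m : ℕ} [NeZero m] {x : Ω}
    (hx : x ^ m = 1) : IsIntegral R x :=
  IsIntegral.of_pow (NeZero.pos m) (hx ▸ isIntegral_one)

/-- the `m`-th roots of unity of `Ω` are the powers of one primitive `d`-th root, `d ∣ m` -/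
theorem exists_primitiveRoot_generator (m : ℕ) [NeZero m] :
    ∃ (d : ℕ) (g : Ω), d ≠ 0 ∧ IsPrimitiveRoot g d ∧ g ^ m = 1 ∧
      ∀ x : Ω, x ^ m = 1 → ∃ i : ℕ, g ^ i = x := by
  obtain ⟨g, hg⟩ := IsCyclic.exists_generator (α := rootsOfUnity m Ω)
  refine ⟨orderOf g, ((g : Ωˣ) : Ω), (orderOf_pos g).ne', ?_, ?_, ?_⟩
  · have h1 : IsPrimitiveRoot g (orderOf g) := IsPrimitiveRoot.orderOf g
    have h2 : IsPrimitiveRoot (g : Ωˣ) (orderOf g) :=
      IsPrimitiveRoot.coe_submonoidClass_iff.2 h1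
    exact IsPrimitiveRoot.coe_units_iff.2 h2
  · have := g.2
    rw [mem_rootsOfUnity] at this
    have h3 := congrArg (fun u : Ωˣ => (u : Ω)) this
    simpa using h3
  · intro x hx
    have hx0 : x ≠ 0 := by
      rintro rfl
      rw [zero_pow (NeZero.ne m)] at hx
      exact zero_ne_one hx
    let u : Ωˣ := Units.mk0 x hx0
    have hu : u ∈ rootsOfUnity m Ω := by
      rw [mem_rootsOfUnity]
      ext
      simpa [u] using hx
    obtain ⟨i, hi⟩ := (Submonoid.mem_powers_iff _ _).1 (mem_powers_iff_mem_zpowers.2 (hg ⟨u, hu⟩))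
    refine ⟨i, ?_⟩
    have h4 := congrArg (fun v : rootsOfUnity m Ω => (((v : Ωˣ)) : Ω)) hi
    simpa [u] using h4

/-- `cyc Ω m = cyc Ω d` for some `d ≠ 0` for which `Ω` has a primitive `d`-th root of unity. -/
theorem exists_cyc_eq (m : ℕ) [NeZero m] :
    ∃ (d : ℕ) (g : Ω), d ≠ 0 ∧ IsPrimitiveRoot g d ∧ cyc Ω m = cyc Ω d := by
  obtain ⟨d, g, hd, hg, hgm, hgen⟩ := exists_primitiveRoot_generator (Ω := Ω) m
  refine ⟨d, g, hd, hg, ?_⟩
  rw [cyc_eq_adjoin_simple hg hd]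
  apply le_antisymm
  · rw [cyc, adjoin_le_iff]
    intro x hx
    obtain ⟨i, rfl⟩ := hgen x hx
    exact pow_mem (mem_adjoin_simple_self ℚ g) i
  · rw [adjoin_simple_le_iff]
    exact mem_cyc_of_pow_eq_one hgm

set_option backward.isDefEq.respectTransparency false in
instance isGalois_cyc' (m : ℕ) [NeZero m] : IsGalois ℚ (cyc Ω m) := by
  obtain ⟨d, g, hd, hg, h⟩ := exists_cyc_eq (Ω := Ω) m
  rw [h]
  have := isCyclotomicExtension_cyc hg hd
  exact IsCyclotomicExtension.isGalois {d} ℚ (cyc Ω d)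

set_option backward.isDefEq.respectTransparency false in
instance finiteDimensional_cyc' (m : ℕ) [NeZero m] : FiniteDimensional ℚ (cyc Ω m) := by
  obtain ⟨d, g, hd, hg, h⟩ := exists_cyc_eq (Ω := Ω) m
  rw [h]
  have := isCyclotomicExtension_cyc hg hd
  have : NeZero d := ⟨hd⟩
  exact IsCyclotomicExtension.finite_of_singleton d ℚ (cyc Ω d)

set_option backward.isDefEq.respectTransparency false in
/-- every subfield of `cyc Ω m` is abelian Galois over `ℚ` (no hypothesis on `Ω`) -/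
theorem isAbelianGalois_of_le_cyc' {m : ℕ} [NeZero m] {P : IntermediateField ℚ Ω}
    (hP : P ≤ cyc Ω m) : IsAbelianGalois ℚ P := by
  obtain ⟨d, g, hd, hg, h⟩ := exists_cyc_eq (Ω := Ω) m
  rw [h] at hP
  have := isCyclotomicExtension_cyc hg hd
  have : IsAbelianGalois ℚ (cyc Ω d) := IsCyclotomicExtension.isAbelianGalois {d} ℚ _
  exact IsAbelianGalois.of_algHom (IntermediateField.inclusion hP)

theorem isGalois_of_le_cyc' {m : ℕ} [NeZero m] {P : IntermediateField ℚ Ω}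
    (hP : P ≤ cyc Ω m) : IsGalois ℚ P :=
  (isAbelianGalois_of_le_cyc' hP).toIsGalois

theorem mul_comm_of_le_cyc' {m : ℕ} [NeZero m] {P : IntermediateField ℚ Ω}
    (hP : P ≤ cyc Ω m) (a b : P ≃ₐ[ℚ] P) : a * b = b * a :=
  (isAbelianGalois_of_le_cyc' hP).toIsMulCommutative.is_comm.comm a b

set_option backward.isDefEq.respectTransparency false in
theorem finiteDimensional_of_le_cyc' {m : ℕ} [NeZero m] {P : IntermediateField ℚ Ω}
    (hP : P ≤ cyc Ω m) : FiniteDimensional ℚ P :=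
  Module.Finite.of_injective (IntermediateField.inclusion hP).toLinearMap
    (IntermediateField.inclusion_injective hP)

/-- the real cyclotomic field `ℚ(ζ + ζ⁻¹)` is Galois over `ℚ` -/
theorem isGalois_adjoin_add_inv {m : ℕ} [NeZero m] {ζ : Ω} (hζ : ζ ^ m = 1) :
    IsGalois ℚ ℚ⟮ζ + ζ⁻¹⟯ :=
  isGalois_of_le_cyc' (adjoin_add_inv_le_cyc hζ)

theorem finiteDimensional_adjoin_add_inv {m : ℕ} [NeZero m] {ζ : Ω} (hζ : ζ ^ m = 1) :
    FiniteDimensional ℚ ℚ⟮ζ + ζ⁻¹⟯ :=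
  finiteDimensional_of_le_cyc' (adjoin_add_inv_le_cyc hζ)

theorem mul_comm_adjoin_add_inv {m : ℕ} [NeZero m] {ζ : Ω} (hζ : ζ ^ m = 1)
    (a b : ℚ⟮ζ + ζ⁻¹⟯ ≃ₐ[ℚ] ℚ⟮ζ + ζ⁻¹⟯) : a * b = b * a :=
  mul_comm_of_le_cyc' (adjoin_add_inv_le_cyc hζ) a b

/-! ### The tower `ℚ ⊂ ↥(E ⊔ P) ⊂ ↥(Lz E P m)` -/

section Tower

variable (E P : IntermediateField ℚ Ω)

/-- the mid field `↥(E ⊔ P)` is a number field -/
instance numberField_sup [FiniteDimensional ℚ E] [FiniteDimensional ℚ P] :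
    NumberField ↥(E ⊔ P) := ⟨⟩

set_option backward.isDefEq.respectTransparency false in
/-- the mid field is Galois over `ℚ` (ℚ-algebra = the synthesized one) -/
instance isGalois_sup_rat [IsGalois ℚ E] [IsGalois ℚ P] : IsGalois ℚ ↥(E ⊔ P) :=
  CrossSetup.isGalois_sup E P

/-- the top field `(E ⊔ P)(μ_m)`, as an intermediate field of `Ω / ↥(E ⊔ P)` -/
abbrev Lz (m : ℕ) : IntermediateField ↥(E ⊔ P) Ω :=
  IntermediateField.adjoin ↥(E ⊔ P) {x : Ω | x ^ m = 1}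

theorem restrictScalars_Lz (m : ℕ) :
    (Lz E P m).restrictScalars ℚ = (E ⊔ P) ⊔ cyc Ω m :=
  restrictScalars_adjoin_eq_sup ℚ (E ⊔ P) {x : Ω | x ^ m = 1}

theorem mem_Lz_of_pow_eq_one {m : ℕ} {x : Ω} (hx : x ^ m = 1) : x ∈ Lz E P m :=
  subset_adjoin _ _ hx

/-- `Lz E P m = (E ⊔ P)(ζ)` for a primitive `m`-th root of unity `ζ`. -/
theorem Lz_eq_adjoin_simple {m : ℕ} [NeZero m] {ζ : Ω} (hζ : IsPrimitiveRoot ζ m) :
    Lz E P m = IntermediateField.adjoin ↥(E ⊔ P) {ζ} := by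
  apply le_antisymm
  · rw [Lz, adjoin_le_iff]
    intro x hx
    obtain ⟨i, -, rfl⟩ := hζ.eq_pow_of_pow_eq_one hx
    exact pow_mem (mem_adjoin_simple_self _ ζ) i
  · rw [adjoin_simple_le_iff]
    exact mem_Lz_of_pow_eq_one E P hζ.pow_eq_one

variable [FiniteDimensional ℚ E] [FiniteDimensional ℚ P]

instance finiteDimensional_Lz_mid (m : ℕ) [NeZero m] :
    FiniteDimensional ↥(E ⊔ P) ↥(Lz E P m) := by
  have : Finite {x : Ω | x ^ m = 1} := (finite_rootsSet (Ω := Ω) m).to_subtype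
  exact IntermediateField.finiteDimensional_adjoin fun x hx => isIntegral_of_pow_eq_one hx

instance finiteDimensional_Lz (m : ℕ) [NeZero m] : FiniteDimensional ℚ ↥(Lz E P m) :=
  Module.Finite.trans ↥(E ⊔ P) ↥(Lz E P m)

instance numberField_Lz (m : ℕ) [NeZero m] : NumberField ↥(Lz E P m) := ⟨⟩

set_option backward.isDefEq.respectTransparency false in
instance isGalois_Lz (m : ℕ) [NeZero m] [IsGalois ℚ E] [IsGalois ℚ P] :
    IsGalois ℚ ↥(Lz E P m) := by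
  have h : IsGalois ℚ ↥((E ⊔ P) ⊔ cyc Ω m) := CrossSetup.isGalois_sup (E ⊔ P) (cyc Ω m)
  rw [← restrictScalars_Lz] at h
  exact h

/-- `Lz E P m` is Galois over every intermediate field `F` of `↥(E ⊔ P) / ℚ` -/
instance isGalois_Lz_over (m : ℕ) [NeZero m] [IsGalois ℚ E] [IsGalois ℚ P]
    (F : IntermediateField ℚ ↥(E ⊔ P)) : IsGalois ↥F ↥(Lz E P m) :=
  IsGalois.tower_top_of_isGalois ℚ ↥F ↥(Lz E P m)

/-! ### The elements `ζ ∈ Lz`, `η = ζ + ζ⁻¹ ∈ E ⊔ P` -/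

omit [FiniteDimensional ℚ E] [FiniteDimensional ℚ P] in
/-- `ζ` as an element of the top field -/
def zetaL {m : ℕ} {ζ : Ω} (hζ : ζ ^ m = 1) : ↥(Lz E P m) :=
  ⟨ζ, mem_Lz_of_pow_eq_one E P hζ⟩

omit [FiniteDimensional ℚ E] [FiniteDimensional ℚ P] in
@[simp] theorem coe_zetaL {m : ℕ} {ζ : Ω} (hζ : ζ ^ m = 1) : ((zetaL E P hζ : ↥(Lz E P m)) : Ω) = ζ :=
  rfl

omit [FiniteDimensional ℚ E] [FiniteDimensional ℚ P] in
theorem zetaL_pow {m : ℕ} {ζ : Ω} (hζ : ζ ^ m = 1) : (zetaL E P hζ) ^ m = 1 :=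
  Subtype.ext (by simpa using hζ)

omit [FiniteDimensional ℚ E] [FiniteDimensional ℚ P] in
theorem isPrimitiveRoot_zetaL {m : ℕ} {ζ : Ω} (hζ : IsPrimitiveRoot ζ m) :
    IsPrimitiveRoot (zetaL E P hζ.pow_eq_one) m :=
  IsPrimitiveRoot.coe_submonoidClass_iff.1 hζ

omit [FiniteDimensional ℚ E] [FiniteDimensional ℚ P] in
/-- `η = ζ + ζ⁻¹` as an element of the mid field (for any `P ∋ η`) -/
def etaM {ζ : Ω} (hη : ζ + ζ⁻¹ ∈ P) : ↥(E ⊔ P) :=
  ⟨ζ + ζ⁻¹, (le_sup_right : P ≤ E ⊔ P) hη⟩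

omit [FiniteDimensional ℚ E] [FiniteDimensional ℚ P] in
@[simp] theorem coe_etaM {ζ : Ω} (hη : ζ + ζ⁻¹ ∈ P) : ((etaM E P hη : ↥(E ⊔ P)) : Ω) = ζ + ζ⁻¹ :=
  rfl

omit [FiniteDimensional ℚ E] [FiniteDimensional ℚ P] in
theorem etaM_mem_resR {ζ : Ω} (hη : ζ + ζ⁻¹ ∈ P) : etaM E P hη ∈ resR E P :=
  (mem_resR E P _).2 hη

omit [FiniteDimensional ℚ E] [FiniteDimensional ℚ P] in
/-- the `hη` binder of `NormCompatTower.kappaTower` -/
theorem algebraMap_etaM {m : ℕ} {ζ : Ω} (hζ : ζ ^ m = 1) (hη : ζ + ζ⁻¹ ∈ P) :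
    algebraMap ↥(E ⊔ P) ↥(Lz E P m) (etaM E P hη) = zetaL E P hζ + (zetaL E P hζ)⁻¹ :=
  Subtype.ext (by simp [etaM, zetaL])

omit [FiniteDimensional ℚ E] [FiniteDimensional ℚ P] in
theorem add_inv_mem_adjoin (ζ : Ω) : ζ + ζ⁻¹ ∈ ℚ⟮ζ + ζ⁻¹⟯ := mem_adjoin_simple_self ℚ _

end Tower

end Fermat.Agent.DS.N8.CrossSetupZeta
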