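/-
S48 / (N8) REAL CYCLOTOMIC GALOIS GROUP (helper55).  On top of `DS/N8/NormCompatTower.lean`.

For a tower of number fields (TYPES) `F ⊂ M ⊂ L`, `ζ ∈ L` a primitive `m`-th root of unity,
`η ∈ M` with `η = ζ + ζ⁻¹`, and `κ = kappaTower : Gal(M/F) →* Γ_m = (ℤ/m)ˣ/±1`:

* `kappaTower_injective` : `κ` is injective when `η` generates `M` over `F`;
* `kappaTower_surjective` : over `F = ℚ`, `κ` is surjective (irreducibility of cyclotomic
  polynomials);
* `kappaTower_mid` : `κ_M = κ_{M'} ∘ restrictNormalHom M'` for `F ⊂ M' ⊂ M ⊂ L`, `η ∈ M'`;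
* `kappaEquiv` : `Gal(M/ℚ) ≃* Γ_m` when `M = ℚ(η)`.
-/
import Mathlib
import Fermat.Agent.DS.N8.NormCompatTower

set_option autoImplicit false
set_option linter.unusedSectionVars false

open NumberField

namespace Fermat.Agent.DS.N8.RealCycGal

open Fermat.Agent.DS.N8b.NormPM Fermat.Agent.DS.N8.NormCompatTower

section General

variable {F M L : Type*} [Field F] [NumberField F] [Field M] [NumberField M] [Field L]
  [NumberField L] [Algebra F M] [Algebra M L] [Algebra F L] [IsScalarTower F M L]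
  [IsGalois F M] [IsGalois F L] {m : ℕ} [NeZero m]
  {ζ : L} (hζ : IsPrimitiveRoot ζ m) {η : M} (hη : algebraMap M L η = ζ + ζ⁻¹)

/-- `κ` is injective when `η` generates `M` over `F`. -/
theorem kappaTower_injective (hgen : IntermediateField.adjoin F {η} = ⊤) :
    Function.Injective (kappaTower (F := F) hζ hη) := by
  rw [injective_iff_map_eq_one]
  intro σ hσ
  rw [kappaTower_eq_one_iff] at hσ
  apply AlgEquiv.ext
  intro x
  have hx : x ∈ IntermediateField.adjoin F {η} := by rw [hgen]; exact IntermediateField.mem_top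
  rw [AlgEquiv.one_apply]
  induction hx using IntermediateField.adjoin_induction with
  | mem y hy =>
    rw [Set.mem_singleton_iff] at hy
    rw [hy, hσ]
  | algebraMap y => exact σ.commutes y
  | add y z _ _ hy hz => rw [map_add, hy, hz]
  | inv y _ hy => rw [map_inv₀, hy]
  | mul y z _ _ hy hz => rw [map_mul, hy, hz]

/-- the value of `κ` on an element which lifts to `s` with `s ζ = ζ ^ a` -/
theorem kappaTower_eq_of_apply (s : L ≃ₐ[F] L) (a : (ZMod m)ˣ)
    (h : s ζ = ζ ^ (a : ZMod m).val) :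
    kappaTower (F := F) hζ hη (s.restrictNormal M) = QuotientGroup.mk a := by
  rw [kappaTower_restrictNormal, autToPow_eq_of_apply hζ s a h]

section Mid

variable {M' : Type*} [Field M'] [NumberField M'] [Algebra F M'] [Algebra M' M] [Algebra M' L]
  [IsScalarTower F M' M] [IsScalarTower F M' L] [IsScalarTower M' M L] [IsGalois F M']
  {η' : M'} (hη' : algebraMap M' L η' = ζ + ζ⁻¹)

/-- **compatibility with an intermediate field containing `η`** -/
theorem kappaTower_mid (σ : M ≃ₐ[F] M) :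
    kappaTower (F := F) hζ hη σ = kappaTower (F := F) hζ hη' (σ.restrictNormal M') := by
  obtain ⟨s, rfl⟩ := AlgEquiv.restrictNormalHom_surjective L σ
  have h1 : (AlgEquiv.restrictNormalHom M s).restrictNormal M' = s.restrictNormal M' := by
    apply AlgEquiv.ext
    intro x
    apply (algebraMap M' L).injective
    rw [AlgEquiv.restrictNormal_commutes, IsScalarTower.algebraMap_apply M' M L,
      AlgEquiv.restrictNormal_commutes]
    have h2 := AlgEquiv.restrictNormal_commutes s M (algebraMap M' M x)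
    rw [← IsScalarTower.algebraMap_apply M' M L] at h2
    exact h2
  rw [h1, kappaTower_restrictNormal]
  exact kappaTower_restrictNormal hζ hη s

end Mid

end General

section Rat

variable {M L : Type*} [Field M] [NumberField M] [Field L] [NumberField L]
  [Algebra M L] [IsGalois ℚ M] [IsGalois ℚ L] {m : ℕ} [NeZero m]
  {ζ : L} (hζ : IsPrimitiveRoot ζ m) {η : M} (hη : algebraMap M L η = ζ + ζ⁻¹)

include hζ in
/-- every unit of `ZMod m` is realised on `ζ` by an automorphism of `L/ℚ` -/
theorem exists_apply_zeta_eq_pow (a : (ZMod m)ˣ) : ∃ s : L ≃ₐ[ℚ] L, s ζ = ζ ^ (a : ZMod m).val := by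
  have hm : 0 < m := Nat.pos_of_ne_zero (NeZero.ne m)
  have hcop : ((a : ZMod m).val).Coprime m := ZMod.val_coe_unit_coprime a
  have hprim : IsPrimitiveRoot (ζ ^ (a : ZMod m).val) m := hζ.pow_of_coprime _ hcop
  have hmin : minpoly ℚ ζ = Polynomial.cyclotomic m ℚ :=
    (Polynomial.cyclotomic_eq_minpoly_rat hζ hm).symm
  have hroot : Polynomial.aeval (ζ ^ (a : ZMod m).val) (minpoly ℚ ζ) = 0 := by
    rw [hmin, Polynomial.aeval_def, Polynomial.eval₂_eq_eval_map, Polynomial.map_cyclotomic]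
    exact hprim.isRoot_cyclotomic hm
  have halg : IsAlgebraic ℚ ζ := Algebra.IsAlgebraic.isAlgebraic ζ
  obtain ⟨s, hs⟩ := minpoly.exists_algEquiv_of_root' halg hroot
  exact ⟨s, hs⟩

/-- over `ℚ`, `κ` is surjective -/
theorem kappaTower_surjective : Function.Surjective (kappaTower (F := ℚ) hζ hη) := by
  intro x
  obtain ⟨a, rfl⟩ := QuotientGroup.mk_surjective x
  obtain ⟨s, hs⟩ := exists_apply_zeta_eq_pow hζ a
  exact ⟨s.restrictNormal M, kappaTower_eq_of_apply hζ hη s a hs⟩

/-- **`Gal(ℚ(η)/ℚ) ≃* Γ_m`** -/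
noncomputable def kappaEquiv (hgen : IntermediateField.adjoin ℚ {η} = ⊤) :
    (M ≃ₐ[ℚ] M) ≃* GammaPM m :=
  MulEquiv.ofBijective (kappaTower (F := ℚ) hζ hη)
    ⟨kappaTower_injective hζ hη hgen, kappaTower_surjective hζ hη⟩

@[simp] theorem kappaEquiv_apply (hgen : IntermediateField.adjoin ℚ {η} = ⊤) (σ : M ≃ₐ[ℚ] M) :
    kappaEquiv hζ hη hgen σ = kappaTower (F := ℚ) hζ hη σ := rfl

include hζ hη in
theorem card_gal_eq_card_gammaPM (hgen : IntermediateField.adjoin ℚ {η} = ⊤) :
    Nat.card (M ≃ₐ[ℚ] M) = Nat.card (GammaPM m) :=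
  Nat.card_congr (kappaEquiv hζ hη hgen).toEquiv

end Rat

end Fermat.Agent.DS.N8.RealCycGal
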