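/-
GATE-N / S48-(N8d2c) FINAL (helper82): **the crossing theorem in its final rational form**,
`crossFinal : Fermat.Agent.DS.N8.CrossFinalStmt` (the only open input of helper1's `ChebInst`), hence
`chebInputs : ChebInputs` — the number-field inputs of Chebotarev's density theorem over `ℚ`
(lower bound) hold unconditionally.

For `E ⊆ ℚ̄` finite Galois, `m > 2` with `E ∩ ℚ(ζ_m) = ℚ`, `σ ∈ Gal(E/ℚ)`, `τ ∈ Γ_m = (ℤ/m)ˣ/±1` with
`ord σ ∣ ord τ`: near `s = 1⁺` there are finite sets `T` of primes `p` with `[p] = τ` and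
`σ ∈ Frob_p(E/ℚ)` such that `(#class σ / (#Gal(E/ℚ) #Γ_m)) log (1/(s-1)) - C ≤ ∑_{p ∈ T} p^{-s}`.

Assembly of:
* helper3 `CrossSetup` / `CrossSetupZeta` : the tower `ℚ ⊂ ↥(E ⊔ P) ⊂ ↥(Lz E P m)`, `P = ℚ(ζ+ζ⁻¹)`;
* helper55 `NormCompatTower` / `RealCycGal` / `CrossKappa` / `CrossConst` : the character `κ`,
  `Gal(P/ℚ) ≃* Γ_m`, the analytic lower bound `AbelianLower ℚ M γ (1/#Cent γ)`, the constant;
* helper24 `AbelianCheb` (inside `CrossKappa`), helper82 `Crossing` / `CrossLower` / `CrossRat`.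
-/
import Mathlib
import Fermat.Agent.DS.N8.ChebInst
import Fermat.Agent.DS.N8.CrossRat
import Fermat.Agent.DS.N8.CrossKappa
import Fermat.Agent.DS.N8.CrossConst
import Fermat.Agent.DS.N8.CrossSetupZeta
import Fermat.Agent.DS.N8.RealCycGal

set_option autoImplicit false
set_option linter.unusedSectionVars false
set_option linter.style.haveILetI false

open NumberField IntermediateField
open Fermat.Agent.Common_helper32

namespace Fermat.Agent.DS.N8.CrossFinal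

open Fermat.Agent.DS.N8b.NormPM Fermat.Agent.DS.N8b.NormCompat
open Fermat.Agent.DS.N8.NormCompatTower Fermat.Agent.DS.N8.Crossing Fermat.Agent.DS.N8.CrossLower
open Fermat.Agent.DS.N8.CrossGalois Fermat.Agent.DS.N8.CrossSetup Fermat.Agent.DS.N8.CrossSetupZeta
open Fermat.Agent.DS.N8.CrossRat Fermat.Agent.DS.N8.CrossConst Fermat.Agent.DS.N8.RealCycGal
open Fermat.Agent.DS.N8.CycloDisjoint Fermat.Agent.DS.N8.CrossKappa

variable {Ω : Type*} [Field Ω] [CharZero Ω]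
  (E P : IntermediateField ℚ Ω) [FiniteDimensional ℚ E] [FiniteDimensional ℚ P]
  [IsGalois ℚ E] [IsGalois ℚ P] {m : ℕ} [NeZero m] {ζ : Ω} (hζ : IsPrimitiveRoot ζ m)
  (hη : ζ + ζ⁻¹ ∈ P)

set_option backward.isDefEq.respectTransparency false in
instance isGalois_resR_rat : IsGalois ℚ ↥(resR E P) := CrossSetup.isGalois_resR E P

set_option backward.isDefEq.respectTransparency false in
instance isGalois_resL_rat : IsGalois ℚ ↥(resL E P) := CrossSetup.isGalois_resL E P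

instance numberField_resR : NumberField ↥(resR E P) := ⟨⟩
instance numberField_resL : NumberField ↥(resL E P) := ⟨⟩

/-- `η` as an element of `resR E P` -/
def etaR : ↥(resR E P) := ⟨etaM E P hη, etaM_mem_resR E P hη⟩

theorem algebraMap_etaR : algebraMap ↥(resR E P) ↥(Lz E P m) (etaR E P hη) =
    zetaL E P hζ.pow_eq_one + (zetaL E P hζ.pow_eq_one)⁻¹ :=
  algebraMap_etaM E P hζ.pow_eq_one hη

set_option backward.isDefEq.respectTransparency false in
theorem resR_eq_adjoin (hP : P = ℚ⟮ζ + ζ⁻¹⟯) :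
    resR E P = IntermediateField.adjoin ℚ {etaM E P hη} := by
  rw [← lift_inj, lift_restrict, lift_adjoin_simple, coe_etaM]
  exact hP

set_option backward.isDefEq.respectTransparency false in
theorem adjoin_etaR_eq_top (hP : P = ℚ⟮ζ + ζ⁻¹⟯) :
    IntermediateField.adjoin ℚ {etaR E P hη} = ⊤ := by
  rw [← lift_inj, lift_adjoin_simple, lift_top]
  exact (resR_eq_adjoin E P hη hP).symm

/-- the character on `Gal((E ⊔ P)/ℚ)` -/
noncomputable def kappaB : (↥(E ⊔ P) ≃ₐ[ℚ] ↥(E ⊔ P)) →* GammaPM m :=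
  kappaTower (F := ℚ) (M := ↥(E ⊔ P)) (L := ↥(Lz E P m)) (isPrimitiveRoot_zetaL E P hζ)
    (algebraMap_etaM E P hζ.pow_eq_one hη)

theorem isNormCompat_kappaB : IsNormCompat ℚ ↥(E ⊔ P) m (kappaB E P hζ hη) :=
  isNormCompat_kappaTower _ _

/-- the character on `Gal(resR/ℚ)` -/
noncomputable def kappaR : (↥(resR E P) ≃ₐ[ℚ] ↥(resR E P)) →* GammaPM m :=
  kappaTower (F := ℚ) (M := ↥(resR E P)) (L := ↥(Lz E P m)) (isPrimitiveRoot_zetaL E P hζ)
    (algebraMap_etaR E P hζ hη)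

theorem kappaB_eq (γ : ↥(E ⊔ P) ≃ₐ[ℚ] ↥(E ⊔ P)) :
    kappaB E P hζ hη γ = kappaR E P hζ hη (AlgEquiv.restrictNormalHom (resR E P) γ) :=
  kappaTower_mid _ _ _ γ

/-- `Gal(resR/ℚ) ≃* Γ_m` -/
noncomputable def kappaREquiv (hP : P = ℚ⟮ζ + ζ⁻¹⟯) :
    (↥(resR E P) ≃ₐ[ℚ] ↥(resR E P)) ≃* GammaPM m :=
  kappaEquiv (isPrimitiveRoot_zetaL E P hζ) (algebraMap_etaR E P hζ hη)
    (adjoin_etaR_eq_top E P hη hP)

theorem kappaREquiv_apply (hP : P = ℚ⟮ζ + ζ⁻¹⟯) (t : ↥(resR E P) ≃ₐ[ℚ] ↥(resR E P)) :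
    kappaREquiv E P hζ hη hP t = kappaR E P hζ hη t := rfl

set_option backward.isDefEq.respectTransparency false in
/-- **Step A**: the element `γ` and the analytic lower bound with the final constant. -/
theorem exists_gamma (hP : P = ℚ⟮ζ + ζ⁻¹⟯) (hinf : E ⊓ P = ⊥)
    (hcomm : ∀ a b : P ≃ₐ[ℚ] P, a * b = b * a)
    (σ : E ≃ₐ[ℚ] E) (τ : GammaPM m) (hord : orderOf σ ∣ orderOf τ) :
    ∃ γ : ↥(E ⊔ P) ≃ₐ[ℚ] ↥(E ⊔ P), resE E P γ = σ ∧ kappaB E P hζ hη γ = τ ∧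
      AbelianLower ℚ ↥(E ⊔ P) γ ((Nat.card (ConjClasses.mk σ).carrier : ℝ) /
        ((Nat.card (E ≃ₐ[ℚ] E) : ℝ) * (Nat.card (GammaPM m) : ℝ))) := by
  classical
  have hbij := CrossSetup.resProd_bijective E P hinf
  set σ' : resL E P ≃ₐ[ℚ] resL E P := (galL E P).symm σ with hσ'
  set τ' : ↥(resR E P) ≃ₐ[ℚ] ↥(resR E P) := (kappaREquiv E P hζ hη hP).symm τ with hτ'
  obtain ⟨γ, hγ⟩ := hbij.2 (σ', τ')
  have hγ1 : AlgEquiv.restrictNormalHom (resL E P) γ = σ' := by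
    have := congrArg Prod.fst hγ
    simpa using this
  have hγ2 : AlgEquiv.restrictNormalHom (resR E P) γ = τ' := by
    have := congrArg Prod.snd hγ
    simpa using this
  have hoσ : orderOf σ' = orderOf σ := MulEquiv.orderOf_eq (galL E P).symm σ
  have hoτ : orderOf τ' = orderOf τ := MulEquiv.orderOf_eq (kappaREquiv E P hζ hη hP).symm τ
  have h : orderOf (AlgEquiv.restrictNormalHom (resL E P) γ) ∣
      orderOf (AlgEquiv.restrictNormalHom (resR E P) γ) := by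
    rw [hγ1, hγ2, hoσ, hoτ]
    exact hord
  have HL := abelianLower_of_tower (isPrimitiveRoot_zetaL E P hζ)
    (algebraMap_etaM E P hζ.pow_eq_one hη) (resL_sup_resR E P) (resR_eq_adjoin E P hη hP) γ h
  have hcomm' : ∀ a b : resR E P ≃ₐ[ℚ] resR E P, a * b = b * a := by
    intro a b
    apply (galR E P).injective
    rw [map_mul, map_mul, hcomm]
  have hc := one_div_card_centralizer_eq hbij hcomm' γ
  have hcardE : Nat.card (resL E P ≃ₐ[ℚ] resL E P) = Nat.card (E ≃ₐ[ℚ] E) :=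
    Nat.card_congr (galL E P).toEquiv
  have hcardP : Nat.card (resR E P ≃ₐ[ℚ] resR E P) = Nat.card (GammaPM m) :=
    Nat.card_congr (kappaREquiv E P hζ hη hP).toEquiv
  have hcls : Nat.card (ConjClasses.mk σ').carrier = Nat.card (ConjClasses.mk σ).carrier :=
    card_carrier_map (galL E P).symm σ
  rw [hγ1, hcardE, hcardP, hcls] at hc
  refine ⟨γ, ?_, ?_, ?_⟩
  · rw [resE_eq, hγ1]
    exact (galL E P).apply_symm_apply σ
  · rw [kappaB_eq, hγ2, ← kappaREquiv_apply E P hζ hη hP]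
    exact (kappaREquiv E P hζ hη hP).apply_symm_apply τ
  · rw [← hc]
    exact HL

/-- `↥E` as a subfield of the compositum `↥(E ⊔ P)` (used locally) -/
@[reducible] noncomputable def algebraLeft : Algebra ↥E ↥(E ⊔ P) :=
  (IntermediateField.inclusion (le_sup_left : E ≤ E ⊔ P)).toRingHom.toAlgebra

attribute [local instance] algebraLeft

theorem coe_algebraMap_left (x : ↥E) : ((algebraMap ↥E ↥(E ⊔ P) x : ↥(E ⊔ P)) : Ω) = (x : Ω) := rfl

set_option backward.isDefEq.respectTransparency false in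
/-- restriction to the type `↥E` = helper3's `resE` -/
theorem restrictNormal_eq_resE (γ : ↥(E ⊔ P) ≃ₐ[ℚ] ↥(E ⊔ P)) :
    γ.restrictNormal ↥E = resE E P γ := by
  apply AlgEquiv.ext
  intro x
  apply Subtype.ext
  rw [coe_resE_apply]
  have h := AlgEquiv.restrictNormal_commutes γ ↥E x
  have h2 := congrArg (fun y : ↥(E ⊔ P) => (y : Ω)) h
  simp only [coe_algebraMap_left] at h2
  rw [h2]
  rfl

include hζ hη in
set_option backward.isDefEq.respectTransparency false in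
/-- **The crossing theorem, rational form**, for `E` and the real cyclotomic field `P = ℚ(ζ+ζ⁻¹)`
inside any field `Ω` of characteristic `0`. -/
theorem cross_generic [NumberField ↥E] (hP : P = ℚ⟮ζ + ζ⁻¹⟯) (hinf : E ⊓ P = ⊥)
    (hcomm : ∀ a b : P ≃ₐ[ℚ] P, a * b = b * a)
    (σ : E ≃ₐ[ℚ] E) (τ : GammaPM m) (hord : orderOf σ ∣ orderOf τ) :
    ∃ Cst δ : ℝ, 0 < δ ∧ ∀ s : ℝ, 1 < s → s < 1 + δ → ∃ T : Finset ℕ,
      (∀ p ∈ T, p.Prime ∧
        (∃ u : (ZMod m)ˣ, (u : ZMod m) = (p : ZMod m) ∧ (QuotientGroup.mk u : GammaPM m) = τ) ∧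
        FrobAtT ↥E p σ) ∧
      ((Nat.card (ConjClasses.mk σ).carrier : ℝ) /
        ((Nat.card (E ≃ₐ[ℚ] E) : ℝ) * (Nat.card (GammaPM m) : ℝ))) * Real.log (1 / (s - 1)) - Cst ≤
        ∑ p ∈ T, (p : ℝ) ^ (-s) := by
  obtain ⟨γ, hγσ, hγτ, HL⟩ := exists_gamma E P hζ hη hP hinf hcomm σ τ hord
  have h := lower_rat ↥E (isNormCompat_kappaB E P hζ hη) γ HL
  rw [hγτ, restrictNormal_eq_resE, hγσ] at h
  exact h

section Final

open Fermat.Agent.DS.N8 Fermat.Agent.DS.N8.CrossSetup Fermat.Agent.DS.N8.CrossSetupZeta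
open Fermat.Agent.DS.N8.CycloDisjoint Fermat.Agent.GJ.FrobLift

set_option backward.isDefEq.respectTransparency false in
/-- **D2c, final form** (the input `CrossFinalStmt` of helper1's `ChebInst`). -/
theorem crossFinal : CrossFinalStmt := by
  intro E _ _ m hm2 _ hdisj σ τ hord
  haveI : NeZero m := ⟨by omega⟩
  obtain ⟨ζ, hζ⟩ := hasAllRoots_of_isAlgClosed Qb m (NeZero.ne m)
  haveI := isGalois_adjoin_add_inv (Ω := Qb) hζ.pow_eq_one
  haveI := finiteDimensional_adjoin_add_inv (Ω := Qb) hζ.pow_eq_one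
  have hη : ζ + ζ⁻¹ ∈ ℚ⟮ζ + ζ⁻¹⟯ := add_inv_mem_adjoin ζ
  have hinf : E ⊓ ℚ⟮ζ + ζ⁻¹⟯ = ⊥ :=
    inf_eq_bot_of_le_cyc (adjoin_add_inv_le_cyc hζ.pow_eq_one) hdisj
  obtain ⟨Cst, δ, hδ, H⟩ := cross_generic E ℚ⟮ζ + ζ⁻¹⟯ hζ hη rfl hinf
    (mul_comm_adjoin_add_inv hζ.pow_eq_one) σ τ hord
  refine ⟨Cst, δ, hδ, fun s hs1 hs2 => ?_⟩
  obtain ⟨T, hT, hsum⟩ := H s hs1 hs2
  refine ⟨T, fun p hp => ?_, hsum⟩
  obtain ⟨hpp, hu, hF⟩ := hT p hp
  exact ⟨hpp, hu, σ, IsConj.refl σ, hF⟩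

/-- **N8 closed**: the number field inputs of Chebotarev's theorem hold unconditionally. -/
theorem chebInputs : ChebInputs := chebInputs_of_crossFinal crossFinal

end Final

end Fermat.Agent.DS.N8.CrossFinal
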