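/-
GATE-N / S48-(N8)-(D3) (helper1), file 6: **unconditional** Chebotarev outputs.

`ChebInputs` is discharged by helper82's `CrossFinal.chebInputs`
(= `chebInputs_of_crossFinal CrossFinal.crossFinal`, DS/N8/CrossFinal.lean).  The three consumer-facing statements
(`chebotarev_lower_GQ`, `card_le_of_frob_subset` = (O3), `weightedChebLower_of_chebInputs` = (O4))
are restated here without the hypothesis.
-/
import Mathlib
import Fermat.Agent.DS.N8.ChebInst
import Fermat.Agent.DS.N8.ChebWeighted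
import Fermat.Agent.DS.N8.CrossFinal

set_option autoImplicit false

open NumberField
open Fermat.Agent.Common_helper32
open Fermat.Agent.GJ.FrobLift

namespace Fermat.Agent.DS.N8

/-- The number field input of Chebotarev (D1 + D2c), unconditionally. -/
theorem chebInputs : ChebInputs := CrossFinal.chebInputs

/-- **Chebotarev, lower bound, Prelude language**, unconditional. -/
theorem chebotarev_lower_GQ_uncond {G : Type} [Group G] [Finite G] (ρ : GQ →* G)
    (hρ : GaloisFactorsThroughFiniteLevel ρ) (hsurj : Function.Surjective ρ)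
    (C : Set G) (hC : ∀ g h : G, g ∈ C → h * g * h⁻¹ ∈ C) (B : Finset ℕ) :
    LowerLogDensityGE {p : ℕ | p.Prime ∧ p ∉ B ∧ ∃ (A : ValuationSubring Qb) (τ : GQ),
        A.LiesOverPrime p ∧ A.IsFrobeniusAt τ p ∧ ρ τ ∈ C}
      ((C.ncard : ℝ) / (Nat.card G : ℝ)) :=
  chebotarev_lower_GQ chebInputs ρ hρ hsurj C hC B

/-- **(O3)**, unconditional: the Chebotarev step of Deligne–Serre §8. -/
theorem card_le_of_frob_subset_uncond {G : Type} [Group G] [Finite G] (ρ : GQ →* G)
    (hρ : GaloisFactorsThroughFiniteLevel ρ) (hsurj : Function.Surjective ρ)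
    (C : Set G) (hC : ∀ g h : G, g ∈ C → h * g * h⁻¹ ∈ C) (B : Finset ℕ)
    (X : Set ℕ) (η : ℝ) (hX : UpperLogDensityLE X η)
    (hCX : ∀ p : ℕ, p.Prime → p ∉ B → (∃ (A : ValuationSubring Qb) (τ : GQ),
      A.LiesOverPrime p ∧ A.IsFrobeniusAt τ p ∧ ρ τ ∈ C) → p ∈ X) :
    (C.ncard : ℝ) ≤ η * (Nat.card G : ℝ) :=
  card_le_of_frob_subset chebInputs ρ hρ hsurj C hC B X η hX hCX

/-- **(O4)**, unconditional: the weighted Chebotarev lower bound `N7.WeightedChebLower`
(= `hCheb` of `N7.isIrreducible_of_weightedCheb`, = GateCheb of `N6.s48_of_gates`). -/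
theorem weightedChebLower {G : Type} [Group G] [Fintype G]
    (π : GQ →* G) (hπ : GaloisFactorsThroughFiniteLevel π) (hsurj : Function.Surjective π)
    (B : Finset ℕ) (w : G → ℝ) (hw0 : ∀ g, 0 ≤ w g) (hwc : ∀ g h : G, w (h * g * h⁻¹) = w g) :
    Fermat.Agent.DS.N7.WeightedChebLower π B w :=
  weightedChebLower_of_chebInputs chebInputs π hπ hsurj B w hw0 hwc

/-- **GateCheb** of `N6.s48_of_gates`, in its verbatim binder shape (take `B := N.primeFactors`). -/
theorem gateCheb (B : Finset ℕ) : ∀ (G : Type) [Group G] [Fintype G] (π : GQ →* G),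
    Function.Surjective π → GaloisFactorsThroughFiniteLevel π → ∀ w : G → ℝ, (∀ g, 0 ≤ w g) →
    (∀ g h : G, w (h * g * h⁻¹) = w g) → Fermat.Agent.DS.N7.WeightedChebLower π B w :=
  fun _ _ _ π hs hπ w h0 hc => weightedChebLower π hπ hs B w h0 hc

end Fermat.Agent.DS.N8
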