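/-
GATE-N / S48-(N8)-(C1) CYCLO-FROB (helper7): Frobenius elements in cyclotomic extensions of number
fields (node (C1) of helper55's Chebotarev blueprint, board 3291).

`K`, `M` number fields, `M = K(ζ_m)` (`IsCyclotomicExtension {m} K M`), `χ = cycloChar m K M :
Gal(M/K) →* (ℤ/m)ˣ` the cyclotomic character (`σ ζ = ζ ^ χ(σ)` for all `m`-th roots of unity,
injective, independent of the primitive root: `cycloChar_eq_autToPow`).

* `frob_apply_of_pow_eq_one`: a Frobenius element at `P ∤ m` is `ζ ↦ ζ ^ N𝔭` on `m`-th roots of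
  unity (any Galois `M/K`, no cyclotomic hypothesis).
* `cycloChar_frob`: `χ(Frob_P) = N𝔭 mod m`; `isArithFrobAt_iff`: `g` is a Frobenius element at `P`
  iff `χ(g) = N𝔭 mod m`; `frob_unique`.
* `inertia_eq_bot`: primes not dividing `m` are unramified in `K(ζ_m)/K`.
* `exists_mem_range_eq_absNorm`: `N𝔭 mod m ∈ H_K := range χ`.
* `splitsIn_fixedField_ker_iff` / `splitsIn_fixedField_ker_mulChar_iff`: `𝔭 ∤ m` splits completely
  in the fixed field of `ker (ψ ∘ χ)` iff `ψ(N𝔭) = 1`; `finrank_fixedField_ker`.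
* `splitsIn_iff_absNorm_eq_one`: `𝔭 ∤ m` splits completely in `K(ζ_m)` iff `N𝔭 ≡ 1 (mod m)`;
  `inertiaDeg_eq_one_iff`, `absNorm_eq_one_of_inertiaDeg_eq_one`.
* `cycloChar_restrictScalars`: compatibility of `χ` in towers `K ⊆ F ⊆ M`.
* `natCast_notMem_iff_coprime`: `m ∉ 𝔭 ↔ gcd(N𝔭, m) = 1`.
-/
import Mathlib
import Fermat.Agent.GJ.Frob.Alg

set_option autoImplicit false

open NumberField

namespace Fermat.Agent.DS.N8.CycloFrob

section Char

/-- Exponents of equal powers of a primitive root agree modulo the order. -/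
theorem natCast_eq_of_pow_eq {R : Type*} [CommMonoid R] {μ : R} {m : ℕ} [NeZero m]
    (hμ : IsPrimitiveRoot μ m) {a b : ℕ} (h : μ ^ a = μ ^ b) : (a : ZMod m) = (b : ZMod m) := by
  rw [ZMod.natCast_eq_natCast_iff']
  apply hμ.pow_inj (Nat.mod_lt _ (NeZero.pos m)) (Nat.mod_lt _ (NeZero.pos m))
  have e := hμ.eq_orderOf
  rw [e, pow_mod_orderOf, pow_mod_orderOf, h]

variable (m : ℕ) [NeZero m] (K M : Type*) [Field K] [Field M] [Algebra K M]
  [IsCyclotomicExtension {m} K M]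

/-- The cyclotomic character of `M = K(ζ_m)` over `K`. -/
noncomputable def cycloChar : (M ≃ₐ[K] M) →* (ZMod m)ˣ :=
  (IsCyclotomicExtension.zeta_spec m K M).autToPow K

variable {m K M}

/-- `σ ζ = ζ ^ χ(σ)` for every `m`-th root of unity `ζ`. -/
theorem cycloChar_spec (σ : M ≃ₐ[K] M) {ζ : M} (hζ : ζ ^ m = 1) :
    σ ζ = ζ ^ ((cycloChar m K M σ : (ZMod m)ˣ) : ZMod m).val := by
  have hμ := IsCyclotomicExtension.zeta_spec m K M
  obtain ⟨i, -, rfl⟩ := hμ.eq_pow_of_pow_eq_one hζ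
  rw [map_pow, ← pow_mul, mul_comm, pow_mul]
  congr 1
  exact (hμ.autToPow_spec K σ).symm

/-- The cyclotomic character is determined by the action on one primitive root. -/
theorem cycloChar_eq_of_apply {σ : M ≃ₐ[K] M} {μ : M} (hμ : IsPrimitiveRoot μ m) {a : ℕ}
    (h : σ μ = μ ^ a) : ((cycloChar m K M σ : (ZMod m)ˣ) : ZMod m) = (a : ZMod m) := by
  have h1 := cycloChar_spec σ hμ.pow_eq_one
  rw [h] at h1
  have h2 := natCast_eq_of_pow_eq hμ h1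
  rw [ZMod.natCast_zmod_val] at h2
  exact h2.symm

/-- The cyclotomic character agrees with Mathlib's `autToPow` for any primitive root. -/
theorem cycloChar_eq_autToPow {μ : M} (hμ : IsPrimitiveRoot μ m) :
    cycloChar m K M = hμ.autToPow K := by
  ext σ
  have h := cycloChar_eq_of_apply (K := K) hμ (hμ.autToPow_spec K σ).symm
  rw [ZMod.natCast_zmod_val] at h
  exact h

theorem cycloChar_injective : Function.Injective (cycloChar m K M) :=
  (IsCyclotomicExtension.zeta_spec m K M).autToPow_injective K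

/-- An automorphism fixing one primitive `m`-th root of unity is trivial. -/
theorem eq_one_of_apply_eq {σ : M ≃ₐ[K] M} {μ : M} (hμ : IsPrimitiveRoot μ m)
    (h : σ μ = μ) : σ = 1 := by
  apply cycloChar_injective (m := m)
  rw [map_one]
  apply Units.ext
  have := cycloChar_eq_of_apply (K := K) (a := 1) hμ (by rw [pow_one, h])
  simpa using this

/-- Two automorphisms agreeing on one primitive `m`-th root of unity are equal. -/
theorem eq_of_apply_eq {σ τ : M ≃ₐ[K] M} {μ : M} (hμ : IsPrimitiveRoot μ m)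
    (h : σ μ = τ μ) : σ = τ := by
  have : τ⁻¹ * σ = 1 := by
    apply eq_one_of_apply_eq hμ
    rw [AlgEquiv.mul_apply, h]
    exact τ.symm_apply_apply μ
  rw [← mul_one τ, ← this, mul_inv_cancel_left]

end Char

section Frob

variable {m : ℕ} {K M : Type*} [Field K] [NumberField K] [Field M] [NumberField M]
  [Algebra K M] [IsGalois K M]

omit [NumberField M] [Field K] [NumberField K] [Algebra K M] [IsGalois K M] in
/-- Roots of unity are algebraic integers. -/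
theorem exists_integer_of_pow_eq_one (hm0 : m ≠ 0) {ζ : M} (hζ : ζ ^ m = 1) :
    ∃ ζ' : 𝓞 M, (ζ' : M) = ζ :=
  ⟨⟨ζ, ⟨Polynomial.X ^ m - 1, Polynomial.monic_X_pow_sub_C 1 hm0, by simp [hζ]⟩⟩, rfl⟩

/-- **Frobenius on roots of unity.** A Frobenius element at `P ∤ m` raises every `m`-th root of
unity to the power `N(P ∩ K)`. -/
theorem frob_apply_of_pow_eq_one {P : Ideal (𝓞 M)} (hm : (m : 𝓞 M) ∉ P) {σ : M ≃ₐ[K] M}
    (hσ : IsArithFrobAt (𝓞 K) σ P) {ζ : M} (hζ : ζ ^ m = 1) :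
    σ ζ = ζ ^ Ideal.absNorm (P.under (𝓞 K)) := by
  have hm0 : m ≠ 0 := by rintro rfl; exact hm (by simp)
  obtain ⟨ζ', rfl⟩ := exists_integer_of_pow_eq_one hm0 hζ
  have h1 : ζ' ^ m = 1 := by
    apply RingOfIntegers.coe_injective
    rw [map_pow, map_one]
    exact hζ
  have h2 := AlgHom.IsArithFrobAt.apply_of_pow_eq_one hσ h1 hm
  have h3 := congrArg (algebraMap (𝓞 M) M) h2
  rw [map_pow] at h3
  rw [Ideal.absNorm_apply, Submodule.cardQuot_apply]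
  exact h3

/-- Above every nonzero prime of `K` there is a prime of `M` with a Frobenius element. -/
theorem exists_frob_over (𝔭 : Ideal (𝓞 K)) [𝔭.IsPrime] (h𝔭 : 𝔭 ≠ ⊥) :
    ∃ P : Ideal (𝓞 M), P.IsPrime ∧ P ≠ ⊥ ∧ P.under (𝓞 K) = 𝔭 ∧
      ∃ σ : M ≃ₐ[K] M, IsArithFrobAt (𝓞 K) σ P := by
  obtain ⟨⟨P, hPp, hPo⟩⟩ := Ideal.nonempty_primesOver (S := 𝓞 M) 𝔭
  have hu : P.under (𝓞 K) = 𝔭 := hPo.over.symm
  have hP : P ≠ ⊥ := by
    rintro rfl
    apply h𝔭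
    rw [← hu]
    exact Ideal.under_bot (𝓞 K) (𝓞 M)
  have : Finite (𝓞 M ⧸ P) := Ideal.finiteQuotientOfFreeOfNeBot P hP
  exact ⟨P, hPp, hP, hu, _, IsArithFrobAt.arithFrobAt (𝓞 K) (M ≃ₐ[K] M) P⟩

omit [IsGalois K M] [NumberField K] [NumberField M] in
/-- `m ∈ P ↔ m ∈ P ∩ K`. -/
theorem natCast_mem_iff (P : Ideal (𝓞 M)) (n : ℕ) :
    (n : 𝓞 M) ∈ P ↔ (n : 𝓞 K) ∈ P.under (𝓞 K) := by
  rw [Ideal.under_def, Ideal.mem_comap, map_natCast]

/-- The product of an inertia element and a Frobenius element is a Frobenius element. -/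
theorem isArithFrobAt_mul_of_mem_inertia {P : Ideal (𝓞 M)} {σ τ : M ≃ₐ[K] M}
    (hσ : IsArithFrobAt (𝓞 K) σ P) (hτ : τ ∈ P.inertia (M ≃ₐ[K] M)) :
    IsArithFrobAt (𝓞 K) (τ * σ) P := by
  intro x
  have h1 := hσ x
  have h2 := hτ (σ • x)
  rw [MulSemiringAction.toAlgHom_apply] at h1 ⊢
  have : (τ * σ) • x - x ^ Nat.card (𝓞 K ⧸ P.under (𝓞 K)) =
      (τ • (σ • x) - σ • x) + (σ • x - x ^ Nat.card (𝓞 K ⧸ P.under (𝓞 K))) := by
    rw [mul_smul]; ring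
  rw [this]
  exact P.add_mem h2 h1

end Frob

section DegOne

variable {K M : Type*} [Field K] [NumberField K] [Field M] [NumberField M]
  [Algebra K M] [IsGalois K M]

/-- If `f(Q | K) = 1`, the identity is a Frobenius element at `Q`. -/
theorem isArithFrobAt_one_of_inertiaDeg_eq_one {Q : Ideal (𝓞 M)} [Q.IsPrime] (hQ : Q ≠ ⊥)
    (hf : Q.inertiaDeg (𝓞 K) = 1) : IsArithFrobAt (𝓞 K) (1 : M ≃ₐ[K] M) Q := by
  intro x
  rw [MulSemiringAction.toAlgHom_apply, one_smul]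
  have h1 := Ideal.absNorm_pow_inertiaDeg (Q.under (𝓞 K)) Q
  rw [hf, pow_one, Ideal.absNorm_apply, Submodule.cardQuot_apply, Ideal.absNorm_apply,
    Submodule.cardQuot_apply] at h1
  rw [h1]
  have hmax : Q.IsMaximal := Ideal.IsPrime.isMaximal inferInstance hQ
  let _ : Field (𝓞 M ⧸ Q) := Ideal.Quotient.field Q
  have : Finite (𝓞 M ⧸ Q) := Ideal.finiteQuotientOfFreeOfNeBot Q hQ
  let _ : Fintype (𝓞 M ⧸ Q) := Fintype.ofFinite _
  have h2 : (Ideal.Quotient.mk Q x) ^ Nat.card (𝓞 M ⧸ Q) = Ideal.Quotient.mk Q x := by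
    rw [Nat.card_eq_fintype_card]
    exact FiniteField.pow_card _
  rw [← map_pow, eq_comm, Ideal.Quotient.eq] at h2
  exact h2

/-- If the identity is a Frobenius element at `Q`, then `f(Q | K) = 1`. -/
theorem inertiaDeg_eq_one_of_isArithFrobAt_one {Q : Ideal (𝓞 M)} [Q.IsPrime] (hQ : Q ≠ ⊥)
    (h1 : IsArithFrobAt (𝓞 K) (1 : M ≃ₐ[K] M) Q) : Q.inertiaDeg (𝓞 K) = 1 := by
  have hmax : Q.IsMaximal := Ideal.IsPrime.isMaximal inferInstance hQ
  let _ : Field (𝓞 M ⧸ Q) := Ideal.Quotient.field Q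
  have : Finite (𝓞 M ⧸ Q) := Ideal.finiteQuotientOfFreeOfNeBot Q hQ
  let _ : Fintype (𝓞 M ⧸ Q) := Fintype.ofFinite _
  have h𝔭 : Q.under (𝓞 K) ≠ ⊥ := fun h0 => hQ (Ideal.eq_bot_of_comap_eq_bot h0)
  have : Finite (𝓞 K ⧸ Q.under (𝓞 K)) := Ideal.finiteQuotientOfFreeOfNeBot _ h𝔭
  set q := Nat.card (𝓞 K ⧸ Q.under (𝓞 K)) with hq
  have hq1 : 1 < q := by
    rw [hq]
    apply Finite.one_lt_card_iff_nontrivial.mpr
    exact Ideal.Quotient.nontrivial_iff.mpr (Ideal.IsPrime.ne_top inferInstance)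
  -- every element of the residue field is a root of `X ^ q - X`
  have hroot : ∀ y : 𝓞 M ⧸ Q, y ^ q = y := by
    intro y
    obtain ⟨x, rfl⟩ := Ideal.Quotient.mk_surjective y
    have h2 := h1 x
    rw [MulSemiringAction.toAlgHom_apply, one_smul] at h2
    rw [← map_pow, eq_comm, Ideal.Quotient.eq]
    exact h2
  have hcard : Fintype.card (𝓞 M ⧸ Q) ≤ q := by
    have hne : (Polynomial.X ^ q - Polynomial.X : Polynomial (𝓞 M ⧸ Q)) ≠ 0 :=
      FiniteField.X_pow_card_sub_X_ne_zero _ hq1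
    have hsub : (Finset.univ : Finset (𝓞 M ⧸ Q)).val ⊆
        (Polynomial.X ^ q - Polynomial.X : Polynomial (𝓞 M ⧸ Q)).roots := by
      intro y _
      rw [Polynomial.mem_roots hne]
      simp [hroot y]
    have := Polynomial.card_le_degree_of_subset_roots hsub
    rwa [FiniteField.X_pow_card_sub_X_natDegree_eq _ hq1, Finset.card_univ] at this
  have h3 := Ideal.absNorm_pow_inertiaDeg (Q.under (𝓞 K)) Q
  rw [Ideal.absNorm_apply, Submodule.cardQuot_apply, Ideal.absNorm_apply,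
    Submodule.cardQuot_apply, ← hq, Nat.card_eq_fintype_card] at h3
  rw [← h3] at hcard
  have hpos : 0 < Q.inertiaDeg (𝓞 K) := Ideal.inertiaDeg_pos _ _
  have : Q.inertiaDeg (𝓞 K) ≤ 1 := by
    by_contra hlt
    have hlt : 1 < Q.inertiaDeg (𝓞 K) := Nat.lt_of_not_le hlt
    have : q ^ 1 < q ^ Q.inertiaDeg (𝓞 K) := Nat.pow_lt_pow_right hq1 hlt
    rw [pow_one] at this
    omega
  omega

end DegOne

section Main

variable {m : ℕ} [NeZero m] {K M : Type*} [Field K] [NumberField K] [Field M] [NumberField M]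
  [Algebra K M] [IsGalois K M] [IsCyclotomicExtension {m} K M]

/-- **The cyclotomic character of a Frobenius element is the norm.** -/
theorem cycloChar_frob {P : Ideal (𝓞 M)} (hm : (m : 𝓞 M) ∉ P) {σ : M ≃ₐ[K] M}
    (hσ : IsArithFrobAt (𝓞 K) σ P) :
    ((cycloChar m K M σ : (ZMod m)ˣ) : ZMod m) = (Ideal.absNorm (P.under (𝓞 K)) : ZMod m) :=
  cycloChar_eq_of_apply (IsCyclotomicExtension.zeta_spec m K M)
    (frob_apply_of_pow_eq_one hm hσ (IsCyclotomicExtension.zeta_spec m K M).pow_eq_one)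

/-- **Primes not dividing `m` are unramified in `K(ζ_m)`.** -/
theorem inertia_eq_bot {P : Ideal (𝓞 M)} [P.IsPrime] (hm : (m : 𝓞 M) ∉ P) :
    P.inertia (M ≃ₐ[K] M) = ⊥ := by
  rw [eq_bot_iff]
  intro τ hτ
  rw [Subgroup.mem_bot]
  have hμ := IsCyclotomicExtension.zeta_spec m K M
  by_cases hP : P = ⊥
  · subst hP
    obtain ⟨μ', hμ'⟩ := exists_integer_of_pow_eq_one (NeZero.ne m) hμ.pow_eq_one
    have h1 : τ • μ' - μ' ∈ (⊥ : Ideal (𝓞 M)) := hτ μ'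
    rw [Ideal.mem_bot, sub_eq_zero] at h1
    have h2 := congrArg (algebraMap (𝓞 M) M) h1
    apply eq_one_of_apply_eq hμ
    rw [← hμ']
    exact h2
  · have : Finite (𝓞 M ⧸ P) := Ideal.finiteQuotientOfFreeOfNeBot P hP
    have hσ : IsArithFrobAt (𝓞 K) (arithFrobAt (𝓞 K) (M ≃ₐ[K] M) P) P :=
      IsArithFrobAt.arithFrobAt (𝓞 K) (M ≃ₐ[K] M) P
    set σ := arithFrobAt (𝓞 K) (M ≃ₐ[K] M) P
    have h1 := frob_apply_of_pow_eq_one hm hσ hμ.pow_eq_one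
    have h2 := frob_apply_of_pow_eq_one hm (isArithFrobAt_mul_of_mem_inertia hσ hτ) hμ.pow_eq_one
    rw [← h1, AlgEquiv.mul_apply] at h2
    have hprim : IsPrimitiveRoot (σ (IsCyclotomicExtension.zeta m K M)) m :=
      hμ.map_of_injective σ.injective
    exact eq_one_of_apply_eq hprim h2

/-- **Characterisation of the Frobenius elements of `K(ζ_m)/K`** at a prime `P ∤ m`. -/
theorem isArithFrobAt_iff {P : Ideal (𝓞 M)} [P.IsPrime] (hP : P ≠ ⊥) (hm : (m : 𝓞 M) ∉ P)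
    (g : M ≃ₐ[K] M) :
    IsArithFrobAt (𝓞 K) g P ↔
      ((cycloChar m K M g : (ZMod m)ˣ) : ZMod m) = (Ideal.absNorm (P.under (𝓞 K)) : ZMod m) := by
  refine ⟨cycloChar_frob hm, fun h => ?_⟩
  have : Finite (𝓞 M ⧸ P) := Ideal.finiteQuotientOfFreeOfNeBot P hP
  have hσ : IsArithFrobAt (𝓞 K) (arithFrobAt (𝓞 K) (M ≃ₐ[K] M) P) P :=
    IsArithFrobAt.arithFrobAt (𝓞 K) (M ≃ₐ[K] M) P
  have h1 := cycloChar_frob hm hσ
  have : g = arithFrobAt (𝓞 K) (M ≃ₐ[K] M) P := by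
    apply cycloChar_injective (m := m)
    apply Units.ext
    rw [h, h1]
  rw [this]
  exact hσ

/-- The Frobenius element at `P ∤ m` is unique. -/
theorem frob_unique {P : Ideal (𝓞 M)} (hm : (m : 𝓞 M) ∉ P) {σ τ : M ≃ₐ[K] M}
    (hσ : IsArithFrobAt (𝓞 K) σ P) (hτ : IsArithFrobAt (𝓞 K) τ P) : σ = τ := by
  apply cycloChar_injective (m := m)
  apply Units.ext
  rw [cycloChar_frob hm hσ, cycloChar_frob hm hτ]

/-- **`N𝔭 mod m` lies in the image `H_K` of the cyclotomic character** for every prime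
`𝔭 ∤ m` of `K`. -/
theorem exists_mem_range_eq_absNorm (𝔭 : Ideal (𝓞 K)) [𝔭.IsPrime] (h𝔭 : 𝔭 ≠ ⊥)
    (hm : (m : 𝓞 K) ∉ 𝔭) :
    ∃ u ∈ (cycloChar m K M).range, ((u : (ZMod m)ˣ) : ZMod m) = (Ideal.absNorm 𝔭 : ZMod m) := by
  obtain ⟨P, hPp, hP, hu, σ, hσ⟩ := exists_frob_over (M := M) 𝔭 h𝔭
  have hmP : (m : 𝓞 M) ∉ P := by rw [natCast_mem_iff (K := K), hu]; exact hm
  refine ⟨cycloChar m K M σ, ⟨σ, rfl⟩, ?_⟩
  rw [cycloChar_frob hmP hσ, hu]

open IntermediateField in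
/-- **Splitting in the subfields of `K(ζ_m)` cut out by characters.** For a homomorphism `φ` on
`(ℤ/m)ˣ` and a prime `𝔭 ∤ m` of `K` whose norm is `u` modulo `m`: `𝔭` splits completely in the
fixed field of `ker (φ ∘ χ_cyc)` iff `φ u = 1`. -/
theorem splitsIn_fixedField_ker_iff {G' : Type*} [Group G'] (φ : (ZMod m)ˣ →* G')
    (𝔭 : Ideal (𝓞 K)) [𝔭.IsPrime] (h𝔭 : 𝔭 ≠ ⊥) (hm : (m : 𝓞 K) ∉ 𝔭) (u : (ZMod m)ˣ)
    (hu : (u : ZMod m) = (Ideal.absNorm 𝔭 : ZMod m)) :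
    GJ.FrobAlg.SplitsIn (fixedField (φ.comp (cycloChar m K M)).ker) 𝔭 ↔ φ u = 1 := by
  obtain ⟨P, hPp, hP, hPu, σ, hσ⟩ := exists_frob_over (M := M) 𝔭 h𝔭
  have hmP : (m : 𝓞 M) ∉ P := by rw [natCast_mem_iff (K := K), hPu]; exact hm
  have hI : P.inertia (M ≃ₐ[K] M) = ⊥ := inertia_eq_bot hmP
  have h1 := GJ.FrobAlg.splitsIn_fixedField_iff_mem (φ.comp (cycloChar m K M)).ker P hP hI hσ
  rw [hPu] at h1
  rw [h1, MonoidHom.mem_ker, MonoidHom.comp_apply]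
  have : cycloChar m K M σ = u := by
    apply Units.ext
    rw [cycloChar_frob hmP hσ, hPu, hu]
  rw [this]

open IntermediateField in
/-- `MulChar` (Dirichlet character) form of `splitsIn_fixedField_ker_iff`: for `𝔭 ∤ m`,
`𝔭` splits completely in the fixed field of `ker (ψ ∘ χ_cyc)` iff `ψ (N𝔭) = 1`. -/
theorem splitsIn_fixedField_ker_mulChar_iff {R' : Type*} [CommMonoidWithZero R']
    (ψ : MulChar (ZMod m) R') (𝔭 : Ideal (𝓞 K)) [𝔭.IsPrime] (h𝔭 : 𝔭 ≠ ⊥)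
    (hm : (m : 𝓞 K) ∉ 𝔭) :
    GJ.FrobAlg.SplitsIn (fixedField (ψ.toUnitHom.comp (cycloChar m K M)).ker) 𝔭 ↔
      ψ (Ideal.absNorm 𝔭 : ZMod m) = 1 := by
  obtain ⟨u, -, hu⟩ := exists_mem_range_eq_absNorm (M := M) 𝔭 h𝔭 hm
  rw [splitsIn_fixedField_ker_iff ψ.toUnitHom 𝔭 h𝔭 hm u hu, ← hu, ← MulChar.coe_toUnitHom,
    Units.ext_iff, Units.val_one]

open IntermediateField in
/-- The degree of the field cut out by `φ ∘ χ_cyc` is the order of the image. -/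
theorem finrank_fixedField_ker {G' : Type*} [Group G'] (φ : (ZMod m)ˣ →* G') :
    Module.finrank K (fixedField (φ.comp (cycloChar m K M)).ker) =
      Nat.card (φ.comp (cycloChar m K M)).range := by
  rw [GJ.FrobAlg.finrank_fixedField_eq_index, Subgroup.index_ker]

/-- **Degree one ⟹ `N𝔭 ≡ 1 mod m`.** If a prime `Q ∤ m` of `K(ζ_m)` has residue degree one over
`K`, then `N(Q ∩ K) ≡ 1 (mod m)`. -/
theorem absNorm_eq_one_of_inertiaDeg_eq_one {Q : Ideal (𝓞 M)} [Q.IsPrime] (hQ : Q ≠ ⊥)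
    (hm : (m : 𝓞 M) ∉ Q) (hf : Q.inertiaDeg (𝓞 K) = 1) :
    (Ideal.absNorm (Q.under (𝓞 K)) : ZMod m) = 1 := by
  have h := cycloChar_frob hm (isArithFrobAt_one_of_inertiaDeg_eq_one hQ hf)
  rw [map_one, Units.val_one] at h
  exact h.symm

/-- For a prime `Q ∤ m` of `K(ζ_m)`: `f(Q | K) = 1 ↔ N(Q ∩ K) ≡ 1 (mod m)`. -/
theorem inertiaDeg_eq_one_iff {Q : Ideal (𝓞 M)} [Q.IsPrime] (hQ : Q ≠ ⊥)
    (hm : (m : 𝓞 M) ∉ Q) :
    Q.inertiaDeg (𝓞 K) = 1 ↔ (Ideal.absNorm (Q.under (𝓞 K)) : ZMod m) = 1 := by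
  refine ⟨absNorm_eq_one_of_inertiaDeg_eq_one hQ hm, fun h => ?_⟩
  apply inertiaDeg_eq_one_of_isArithFrobAt_one hQ
  rw [isArithFrobAt_iff hQ hm, map_one, Units.val_one, h]

/-- **A prime `𝔭 ∤ m` of `K` splits completely in `K(ζ_m)` iff `N𝔭 ≡ 1 (mod m)`.** -/
theorem splitsIn_iff_absNorm_eq_one (𝔭 : Ideal (𝓞 K)) [𝔭.IsPrime] (h𝔭 : 𝔭 ≠ ⊥)
    (hm : (m : 𝓞 K) ∉ 𝔭) :
    GJ.FrobAlg.SplitsIn M 𝔭 ↔ (Ideal.absNorm 𝔭 : ZMod m) = 1 := by
  constructor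
  · rintro ⟨Q, hQp, hQu, -, hf⟩
    have hQ : Q ≠ ⊥ := by
      rintro rfl
      apply h𝔭
      rw [← hQu]
      exact Ideal.under_bot (𝓞 K) (𝓞 M)
    have hmQ : (m : 𝓞 M) ∉ Q := by rw [natCast_mem_iff (K := K), hQu]; exact hm
    have := absNorm_eq_one_of_inertiaDeg_eq_one hQ hmQ hf
    rwa [hQu] at this
  · intro h
    obtain ⟨P, hPp, hP, hPu, -⟩ := exists_frob_over (M := M) 𝔭 h𝔭
    have hmP : (m : 𝓞 M) ∉ P := by rw [natCast_mem_iff (K := K), hPu]; exact hm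
    refine ⟨P, hPp, hPu, ?_, ?_⟩
    · exact GJ.FrobAlg.ramificationIdx_eq_one_of_inertia_eq_bot' P hP (inertia_eq_bot hmP)
    · rw [inertiaDeg_eq_one_iff hP hmP, hPu]
      exact h

end Main

section Tower

variable {m : ℕ} [NeZero m] {K F M : Type*} [Field K] [Field F] [Field M]
  [Algebra K F] [Algebra F M] [Algebra K M] [IsScalarTower K F M]
  [IsCyclotomicExtension {m} K M] [IsCyclotomicExtension {m} F M]

/-- The cyclotomic characters over `K` and over an intermediate field `F` agree. -/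
theorem cycloChar_restrictScalars (g : M ≃ₐ[F] M) :
    cycloChar m K M (g.restrictScalars K) = cycloChar m F M g := by
  have hμ := IsCyclotomicExtension.zeta_spec m K M
  have h1 : (g.restrictScalars K) (IsCyclotomicExtension.zeta m K M) =
      IsCyclotomicExtension.zeta m K M ^
        ((cycloChar m F M g : (ZMod m)ˣ) : ZMod m).val := cycloChar_spec g hμ.pow_eq_one
  have h2 := cycloChar_eq_of_apply (K := K) hμ h1
  rw [ZMod.natCast_zmod_val] at h2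
  exact Units.ext h2

end Tower

section Coprime

variable {K : Type*} [Field K] [NumberField K]

/-- If `N𝔭` is coprime to `m`, then `m ∉ 𝔭`. -/
theorem natCast_notMem_of_coprime {m : ℕ} {𝔭 : Ideal (𝓞 K)} (h𝔭 : 𝔭 ≠ ⊤)
    (h : (Ideal.absNorm 𝔭).Coprime m) : (m : 𝓞 K) ∉ 𝔭 := by
  intro hm
  apply h𝔭
  rw [Ideal.eq_top_iff_one]
  have h1 : ((Ideal.absNorm 𝔭 : ℕ) : 𝓞 K) ∈ 𝔭 := by
    have := Ideal.absNorm_mem 𝔭
    exact_mod_cast this
  have h2 := Nat.gcd_eq_gcd_ab (Ideal.absNorm 𝔭) m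
  rw [h] at h2
  have h3 : ((1 : ℤ) : 𝓞 K) = ((Ideal.absNorm 𝔭 : ℕ) : 𝓞 K) * ((Ideal.absNorm 𝔭).gcdA m : 𝓞 K) +
      (m : 𝓞 K) * ((Ideal.absNorm 𝔭).gcdB m : 𝓞 K) := by
    have := congrArg (Int.cast : ℤ → 𝓞 K) h2
    push_cast at this
    rw [← this]
    simp
  rw [Int.cast_one] at h3
  rw [h3]
  exact 𝔭.add_mem (𝔭.mul_mem_right _ h1) (𝔭.mul_mem_right _ hm)

/-- If `N𝔭` is a unit modulo `m`, then `m ∉ 𝔭`. -/
theorem natCast_notMem_of_isUnit {m : ℕ} {𝔭 : Ideal (𝓞 K)} (h𝔭 : 𝔭 ≠ ⊤)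
    (h : IsUnit ((Ideal.absNorm 𝔭 : ℕ) : ZMod m)) : (m : 𝓞 K) ∉ 𝔭 :=
  natCast_notMem_of_coprime h𝔭 ((ZMod.isUnit_iff_coprime _ _).mp h)

/-- Conversely, for a nonzero prime `𝔭 ∌ m` the norm `N𝔭` is coprime to `m`. -/
theorem coprime_absNorm_of_natCast_notMem {m : ℕ} [NeZero m] (𝔭 : Ideal (𝓞 K)) [𝔭.IsPrime]
    (h𝔭 : 𝔭 ≠ ⊥) (hm : (m : 𝓞 K) ∉ 𝔭) : (Ideal.absNorm 𝔭).Coprime m := by
  have : IsGalois K (CyclotomicField m K) := IsCyclotomicExtension.isGalois {m} K _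
  obtain ⟨u, -, hu⟩ := exists_mem_range_eq_absNorm (M := CyclotomicField m K) 𝔭 h𝔭 hm
  rw [← ZMod.isUnit_iff_coprime, ← hu]
  exact u.isUnit

/-- For a nonzero prime `𝔭` of `K`: `m ∉ 𝔭 ↔ gcd(N𝔭, m) = 1`. -/
theorem natCast_notMem_iff_coprime {m : ℕ} [NeZero m] (𝔭 : Ideal (𝓞 K)) [𝔭.IsPrime]
    (h𝔭 : 𝔭 ≠ ⊥) : (m : 𝓞 K) ∉ 𝔭 ↔ (Ideal.absNorm 𝔭).Coprime m :=
  ⟨coprime_absNorm_of_natCast_notMem 𝔭 h𝔭,
    natCast_notMem_of_coprime (Ideal.IsPrime.ne_top inferInstance)⟩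

end Coprime

end Fermat.Agent.DS.N8.CycloFrob
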