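/-
S48 prep / (N8b1) LATTICE SUM VERSUS INTEGRAL, Lipschitz form (helper55).  Mathlib only.

`E` a finite-dimensional real normed space with an additive Haar measure `μ`, `b` a basis of `E`,
`Λ = span ℤ (range b)`, `P = ZSpan.fundamentalDomain b`, `δ = ∑ i, ‖b i‖ ≥ diam P`.
For `v : E` put `proj b v x := x - ZSpan.fract b (x - v) ∈ v + Λ` (the corner of the cell of the
tiling `v + Λ + P` containing `x`).

If `‖g x - g y‖ ≤ M y` whenever `‖x - y‖ ≤ δ`, then
* `norm_comp_proj_sub_le`    : `‖g (proj b v x) - g x‖ ≤ M x`;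
* `integral_comp_proj`       : `∫ g ∘ proj = μ(P) * ∑' ℓ : Λ, g (v + ℓ)` (for `g ∘ proj` integrable);
* `covol_tsum_eq`            : for `g`, `M` integrable:
                               `μ(P) * ∑' ℓ, g (v + ℓ) = ∫ g + ∫ (g ∘ proj - g)`, and the sum converges
                               absolutely;
* `continuousOn_err`         : for a family `g t` with a common integrable majorant `M`, continuous
                               in `t`, the error term `t ↦ ∫ (g t ∘ proj - g t)` is continuous
                               (although `∫ g t` may blow up).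
-/
import Mathlib

set_option autoImplicit false
set_option linter.unusedSectionVars false

open MeasureTheory Submodule Module

namespace Fermat.Agent.DS.N8

variable {E : Type*} [NormedAddCommGroup E] [NormedSpace ℝ E] [MeasurableSpace E] [BorelSpace E]
variable {ι : Type*} [Fintype ι] (b : Basis ι ℝ E)

/-- the corner of the cell of the tiling `v + Λ + P` containing `x` -/
noncomputable def proj (v x : E) : E := x - ZSpan.fract b (x - v)

theorem proj_eq (v x : E) : proj b v x = v + (ZSpan.floor b (x - v) : E) := by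
  rw [proj, ZSpan.fract_apply]
  abel

theorem norm_proj_sub_le (v x : E) : ‖proj b v x - x‖ ≤ ∑ i, ‖b i‖ := by
  have : proj b v x - x = - ZSpan.fract b (x - v) := by rw [proj]; abel
  rw [this, norm_neg]
  exact ZSpan.norm_fract_le b _

/-- on the cell `v + ℓ + P` the projection is constant equal to `v + ℓ` -/
theorem proj_add_of_mem (v : E) (ℓ : span ℤ (Set.range b)) {y : E}
    (hy : y ∈ ZSpan.fundamentalDomain b) : proj b v (v + (ℓ : E) + y) = v + (ℓ : E) := by
  have h1 : v + (ℓ : E) + y - v = (ℓ : E) + y := by abel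
  rw [proj, h1, ZSpan.fract_zSpan_add b y ℓ.2, ZSpan.fract_eq_self.mpr hy]
  abel

theorem measurable_floor [FiniteDimensional ℝ E] :
    Measurable (fun x : E => (ZSpan.floor b x : E)) := by
  have h : ∀ x : E, (ZSpan.floor b x : E) = ∑ i, ((⌊b.repr x i⌋ : ℤ) : ℝ) • b i := by
    intro x
    rw [ZSpan.floor]
    simp only [Submodule.coe_sum, Submodule.coe_smul_of_tower, Basis.restrictScalars_apply]
    refine Finset.sum_congr rfl fun i _ => ?_
    rw [← Int.cast_smul_eq_zsmul ℝ]
  simp_rw [h]
  refine Finset.measurable_sum _ fun i _ => ?_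
  have hc : Continuous fun x : E => b.repr x i :=
    (LinearMap.continuous_of_finiteDimensional
      ((Finsupp.lapply i).comp (b.repr : E →ₗ[ℝ] ι →₀ ℝ)))
  have h1 : Measurable fun x : E => ((⌊b.repr x i⌋ : ℤ) : ℝ) :=
    (measurable_from_top.comp (Int.measurable_floor.comp hc.measurable))
  exact h1.smul_const (b i)

theorem measurable_proj [FiniteDimensional ℝ E] (v : E) : Measurable (proj b v) := by
  have : proj b v = fun x => v + (ZSpan.floor b (x - v) : E) := funext (proj_eq b v)
  rw [this]
  exact measurable_const.add ((measurable_floor b).comp (measurable_id.sub measurable_const))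

section Estimates

variable {F : Type*} [NormedAddCommGroup F] [NormedSpace ℝ F]

/-- **(i)** the local Lipschitz hypothesis gives the pointwise majorant -/
theorem norm_comp_proj_sub_le {g : E → F} {M : E → ℝ}
    (hLip : ∀ x y : E, ‖x - y‖ ≤ ∑ i, ‖b i‖ → ‖g x - g y‖ ≤ M y) (v x : E) :
    ‖g (proj b v x) - g x‖ ≤ M x :=
  hLip _ _ (norm_proj_sub_le b v x)

end Estimates

section Integral

variable {F : Type*} [NormedAddCommGroup F] [NormedSpace ℝ F]
variable (μ : Measure E) [μ.IsAddHaarMeasure] [FiniteDimensional ℝ E]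

/-- `floor` on a translate of the fundamental domain -/
theorem floor_neg_vadd_of_mem (ℓ : span ℤ (Set.range b)) {x : E}
    (hx : x ∈ ZSpan.fundamentalDomain b) : (ZSpan.floor b (-ℓ +ᵥ x) : E) = -(ℓ : E) := by
  have h1 : ZSpan.fract b (-ℓ +ᵥ x) = x := by
    rw [Submodule.vadd_def, vadd_eq_add, ZSpan.fract_zSpan_add b x (-ℓ).2,
      ZSpan.fract_eq_self.mpr hx]
  have h2 := ZSpan.fract_apply b (-ℓ +ᵥ x)
  rw [h1, Submodule.vadd_def, vadd_eq_add] at h2
  have h3 : (ZSpan.floor b (((-ℓ : span ℤ (Set.range b)) : E) + x) : E) =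
      ((-ℓ : span ℤ (Set.range b)) : E) := by
    have h4 := eq_sub_iff_add_eq.mp h2
    rw [add_comm] at h4
    exact add_right_cancel h4
  rw [Submodule.vadd_def, vadd_eq_add, h3]
  simp

/-- the shifted function `x ↦ g (proj b v (x + v)) = g (v + floor x)` on a translate of the
fundamental domain -/
theorem comp_proj_neg_vadd (g : E → F) (v : E) (ℓ : span ℤ (Set.range b)) {x : E}
    (hx : x ∈ ZSpan.fundamentalDomain b) :
    g (proj b v ((-ℓ +ᵥ x) + v)) = g (v + (-(ℓ : E))) := by
  rw [proj_eq, add_sub_cancel_right, floor_neg_vadd_of_mem b ℓ hx]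

instance : VAddInvariantMeasure (span ℤ (Set.range b)) E μ :=
  inferInstanceAs <| VAddInvariantMeasure (span ℤ (Set.range b)).toAddSubgroup E μ

/-- **(ii-a)** the integral of `g ∘ proj` is the lattice sum (times the covolume) -/
theorem integral_comp_proj [CompleteSpace F] (g : E → F) (v : E)
    (hint : Integrable (fun x => g (proj b v x)) μ) :
    ∫ x, g (proj b v x) ∂μ =
      ∑' ℓ : span ℤ (Set.range b), μ.real (ZSpan.fundamentalDomain b) • g (v + (ℓ : E)) := by
  have hint' : Integrable (fun x => g (proj b v (x + v))) μ := hint.comp_add_right v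
  calc ∫ x, g (proj b v x) ∂μ = ∫ x, g (proj b v (x + v)) ∂μ :=
        (integral_add_right_eq_self (fun x => g (proj b v x)) v).symm
    _ = ∑' ℓ : span ℤ (Set.range b), ∫ x in ZSpan.fundamentalDomain b,
          g (proj b v ((-ℓ +ᵥ x) + v)) ∂μ :=
        (ZSpan.isAddFundamentalDomain b μ).integral_eq_tsum' _ hint'
    _ = ∑' ℓ : span ℤ (Set.range b),
          μ.real (ZSpan.fundamentalDomain b) • g (v + (-(ℓ : E))) := by
        refine tsum_congr fun ℓ => ?_
        rw [setIntegral_congr_fun (ZSpan.fundamentalDomain_measurableSet b)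
          (fun x hx => comp_proj_neg_vadd b g v ℓ hx), setIntegral_const]
    _ = ∑' ℓ : span ℤ (Set.range b), μ.real (ZSpan.fundamentalDomain b) • g (v + (ℓ : E)) := by
        rw [← (Equiv.neg (span ℤ (Set.range b))).tsum_eq]
        simp

/-- **(ii-b)** absolute convergence of the lattice sum -/
theorem summable_norm_of_integrable_comp_proj (g : E → F) (v : E)
    (hint : Integrable (fun x => g (proj b v x)) μ) :
    Summable fun ℓ : span ℤ (Set.range b) => ‖g (v + (ℓ : E))‖ := by
  have hint' : Integrable (fun x => g (proj b v (x + v))) μ := hint.comp_add_right v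
  have h1 : ∫⁻ x, ‖g (proj b v (x + v))‖ₑ ∂μ =
      ∑' ℓ : span ℤ (Set.range b), μ (ZSpan.fundamentalDomain b) * ‖g (v + (-(ℓ : E)))‖ₑ := by
    rw [(ZSpan.isAddFundamentalDomain b μ).lintegral_eq_tsum' (fun x => ‖g (proj b v (x + v))‖ₑ)]
    refine tsum_congr fun ℓ => ?_
    rw [setLIntegral_congr_fun (ZSpan.fundamentalDomain_measurableSet b)
      (fun x hx => by rw [comp_proj_neg_vadd b g v ℓ hx]), setLIntegral_const, mul_comm]
  have h2 : ∑' ℓ : span ℤ (Set.range b),
      μ (ZSpan.fundamentalDomain b) * ‖g (v + (-(ℓ : E)))‖ₑ ≠ ⊤ := by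
    rw [← h1]
    exact hint'.hasFiniteIntegral.ne
  rw [ENNReal.tsum_mul_left] at h2
  have h3 : ∑' ℓ : span ℤ (Set.range b), ‖g (v + (-(ℓ : E)))‖ₑ ≠ ⊤ := by
    intro htop
    rw [htop, ENNReal.mul_top (ZSpan.measure_fundamentalDomain_ne_zero b)] at h2
    exact h2 rfl
  have h4 : Summable fun ℓ : span ℤ (Set.range b) => ‖g (v + (-(ℓ : E)))‖ := by
    have : ∀ ℓ : span ℤ (Set.range b), ‖g (v + (-(ℓ : E)))‖ₑ = ((‖g (v + (-(ℓ : E)))‖₊ : NNReal) : ENNReal) :=
      fun ℓ => rfl
    simp_rw [this] at h3
    have h5 := ENNReal.tsum_coe_ne_top_iff_summable.mp h3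
    exact (NNReal.summable_coe.mpr h5)
  have h6 := (Equiv.neg (span ℤ (Set.range b))).summable_iff.mpr h4
  refine h6.congr fun ℓ => ?_
  simp

variable [CompleteSpace F]

/-- **(ii-c)** `g ∘ proj` is integrable as soon as `g` and the majorant are -/
theorem integrable_comp_proj {g : E → F} {M : E → ℝ} (hg : Continuous g) (hgi : Integrable g μ)
    (hM : Integrable M μ)
    (hLip : ∀ x y : E, ‖x - y‖ ≤ ∑ i, ‖b i‖ → ‖g x - g y‖ ≤ M y) (v : E) :
    Integrable (fun x => g (proj b v x)) μ := by
  have hsm : AEStronglyMeasurable (fun x => g (proj b v x)) μ :=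
    (hg.stronglyMeasurable.comp_measurable (measurable_proj b v)).aestronglyMeasurable
  refine (hgi.norm.add hM).mono' hsm (Filter.Eventually.of_forall fun x => ?_)
  have h1 := norm_comp_proj_sub_le b hLip v x
  calc ‖g (proj b v x)‖ = ‖(g (proj b v x) - g x) + g x‖ := by rw [sub_add_cancel]
    _ ≤ ‖g (proj b v x) - g x‖ + ‖g x‖ := norm_add_le _ _
    _ ≤ M x + ‖g x‖ := by linarith
    _ = (fun x => ‖g x‖ + M x) x := by simp [add_comm]

/-- **(ii)** lattice sum = integral + error term, with absolute convergence of the sum -/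
theorem covol_tsum_eq {g : E → F} {M : E → ℝ} (hg : Continuous g) (hgi : Integrable g μ)
    (hM : Integrable M μ)
    (hLip : ∀ x y : E, ‖x - y‖ ≤ ∑ i, ‖b i‖ → ‖g x - g y‖ ≤ M y) (v : E) :
    (Summable fun ℓ : span ℤ (Set.range b) => ‖g (v + (ℓ : E))‖) ∧
      μ.real (ZSpan.fundamentalDomain b) • ∑' ℓ : span ℤ (Set.range b), g (v + (ℓ : E)) =
        ∫ x, g x ∂μ + ∫ x, (g (proj b v x) - g x) ∂μ := by
  have hint := integrable_comp_proj b μ hg hgi hM hLip v
  refine ⟨summable_norm_of_integrable_comp_proj b μ g v hint, ?_⟩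
  rw [integral_sub hint hgi, add_sub_cancel, integral_comp_proj b μ g v hint, tsum_const_smul'']

/-- the error term is bounded by the integral of the majorant -/
theorem norm_err_le {g : E → F} {M : E → ℝ} (hM : Integrable M μ)
    (hLip : ∀ x y : E, ‖x - y‖ ≤ ∑ i, ‖b i‖ → ‖g x - g y‖ ≤ M y) (v : E) :
    ‖∫ x, (g (proj b v x) - g x) ∂μ‖ ≤ ∫ x, M x ∂μ :=
  norm_integral_le_of_norm_le hM
    (Filter.Eventually.of_forall fun x => norm_comp_proj_sub_le b hLip v x)

/-- **(iii)** for a family `g t` with a common integrable majorant, the error term is continuous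
in the parameter. -/
theorem continuous_err {T : Type*} [TopologicalSpace T] [FirstCountableTopology T]
    {g : T → E → F} {M : E → ℝ} (hM : Integrable M μ) (hgc : ∀ t, Continuous (g t))
    (hgt : ∀ x, Continuous fun t => g t x)
    (hLip : ∀ t, ∀ x y : E, ‖x - y‖ ≤ ∑ i, ‖b i‖ → ‖g t x - g t y‖ ≤ M y) (v : E) :
    Continuous fun t => ∫ x, (g t (proj b v x) - g t x) ∂μ := by
  refine continuous_of_dominated (bound := M) (fun t => ?_) (fun t => ?_) hM ?_
  · exact (((hgc t).stronglyMeasurable.comp_measurable (measurable_proj b v)).sub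
      (hgc t).stronglyMeasurable).aestronglyMeasurable
  · exact Filter.Eventually.of_forall fun x => norm_comp_proj_sub_le b (hLip t) v x
  · exact Filter.Eventually.of_forall fun x => (hgt _).sub (hgt _)

end Integral

end Fermat.Agent.DS.N8
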